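import Fermat.Agent.SSP.Arith
import Fermat.Agent.S56.Font.LT.Inst
import Fermat.Agent.S56.Font.LT.Rep

/-!
# SSP / [ARITH-1] : `exists_z0_aux`  (see the header of `SSP/Arith.lean`)

The statement needs the hypothesis `hdist` (the `p` cosets `τ ^ i H'` are pairwise distinct): without it
`H' = Stab_I (ζ_p)`, `τ ζ = ζ ^ a` (`a` a primitive root), `b = ζ` is a counterexample.
Tools: the `LT` toolkit of `S56/Font/LT` for `(I_A, ℚ̄, A.valuation, p)` (`isSH_inertia`).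
-/

set_option autoImplicit false

namespace Fermat.Agent.SSP

open Fermat.Agent.S56.Font Fermat.Agent.Bridge MulAction Polynomial

local notation "Qbar" => AlgebraicClosure ℚ
local notation "GQ" => (AlgebraicClosure ℚ ≃ₐ[ℚ] AlgebraicClosure ℚ)

variable {A : ValuationSubring Qbar} {p : ℕ}

namespace Arith1

/-- `τ ^ d` and `τ ^ p` fix `z`, `d` prime to `p` ⟹ `τ` fixes `z`. -/
theorem apply_eq_of_pow_apply_eq {τ : GQ} {z : Qbar} {d n : ℕ} (hdn : Nat.Coprime d n)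
    (hd : (τ ^ d) z = z) (hn : (τ ^ n) z = z) : τ z = z := by
  have h1 : τ ^ d ∈ stabilizer GQ z := hd
  have h2 : τ ^ n ∈ stabilizer GQ z := hn
  have h3 : τ = (τ ^ d) ^ (Nat.gcdA d n) * (τ ^ n) ^ (Nat.gcdB d n) := by
    rw [← zpow_natCast, ← zpow_natCast, ← zpow_mul, ← zpow_mul, ← zpow_add,
      ← Nat.gcd_eq_gcd_ab, hdn.gcd_eq_one]
    simp
  have h4 : τ ∈ stabilizer GQ z := by
    rw [h3]
    exact Subgroup.mul_mem _ (Subgroup.zpow_mem _ h1 _) (Subgroup.zpow_mem _ h2 _)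
  exact h4

section Order

variable {Γ₀ : Type*} [LinearOrderedCommGroupWithZero Γ₀]

theorem lt_one_of_pow_lt_one' {l : Γ₀} {n : ℕ} (h : l ^ n < 1) : l < 1 := by
  by_contra hcon
  exact absurd h (not_lt.2 (one_le_pow₀ (not_lt.1 hcon)))

/-- `c ^ p = P ^ n`, `l ^ (p - 1) = P`, `l ≤ c < 1`, `3 ≤ p` ⟹ `n = 1`. -/
theorem zpow_exponent_eq_one {P l c : Γ₀} {p : ℕ} (hp : 3 ≤ p) (hl0 : l ≠ 0) (hP : P = l ^ (p - 1))
    (hP1 : P < 1) (hlc : l ≤ c) (hc : c < 1) {n : ℤ} (hn : c ^ p = P ^ n) : n = 1 := by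
  have hl1 : l < 1 := lt_one_of_pow_lt_one' (hP ▸ hP1)
  have hl0' : 0 < l := zero_lt_iff.2 hl0
  have hP0 : 0 < P := by rw [hP]; exact pow_pos hl0' _
  have hanti := zpow_right_strictAnti₀ hP0 hP1
  have h1 : 0 < n := by
    have : P ^ n < P ^ (0 : ℤ) := by
      rw [← hn, zpow_zero]
      exact pow_lt_one₀ zero_le hc (by omega)
    exact hanti.lt_iff_gt.1 this
  have h2 : n < 2 := by
    have hPl : P < l := by
      rw [hP]
      calc l ^ (p - 1) < l ^ 1 := pow_lt_pow_right_of_lt_one₀ hl0' hl1 (by omega)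
        _ = l := pow_one l
    have : P ^ (2 : ℤ) < P ^ n := by
      rw [← hn]
      calc P ^ (2 : ℤ) = P * P := by rw [zpow_ofNat, sq]
        _ < P * l := by gcongr
        _ = l ^ p := by
          rw [hP, ← pow_succ]
          congr 1
          omega
        _ ≤ c ^ p := by gcongr
    exact hanti.lt_iff_gt.1 this
  omega

theorem mu_le_aux {P l a c : Γ₀} {p : ℕ} (hp : 1 ≤ p) (ha : a ≠ 0) (hP : P = l ^ (p - 1))
    (hla : l ≤ a) (hc : c ^ p = P) : a * ((a * c⁻¹) ^ p)⁻¹ ≤ 1 := by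
  have h1 : a * ((a * c⁻¹) ^ p)⁻¹ = P * (a ^ (p - 1))⁻¹ := by
    have h2 : a ^ p = a ^ (p - 1) * a := by
      rw [← pow_succ]
      congr 1
      omega
    rw [mul_pow, inv_pow, hc, mul_inv, inv_inv, h2, mul_inv]
    calc a * ((a ^ (p - 1))⁻¹ * a⁻¹ * P) = (a * a⁻¹) * (P * (a ^ (p - 1))⁻¹) := by
          simp only [mul_comm, mul_left_comm, mul_assoc]
      _ = P * (a ^ (p - 1))⁻¹ := by rw [mul_inv_cancel₀ ha, one_mul]
  rw [h1]
  refine mul_inv_le_one_of_le₀ ?_ zero_le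
  rw [hP]
  gcongr

theorem p_lt_aux {P l a c : Γ₀} {p : ℕ} (hp : 2 ≤ p) (hP : P = l ^ (p - 1))
    (hla : l ≤ a) (hc1 : c < 1) : P * ((a * c⁻¹) ^ (p - 1))⁻¹ < 1 := by
  have h1 : P * ((a * c⁻¹) ^ (p - 1))⁻¹ = (P * (a ^ (p - 1))⁻¹) * c ^ (p - 1) := by
    rw [mul_pow, inv_pow, mul_inv, inv_inv, mul_assoc]
  rw [h1]
  have h2 : P * (a ^ (p - 1))⁻¹ ≤ 1 := by
    refine mul_inv_le_one_of_le₀ ?_ zero_le
    rw [hP]
    gcongr
  calc (P * (a ^ (p - 1))⁻¹) * c ^ (p - 1) ≤ 1 * c ^ (p - 1) := by gcongr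
    _ = c ^ (p - 1) := one_mul _
    _ < 1 := pow_lt_one₀ zero_le hc1 (by omega)

end Order

/-- `(1 + η) ^ p ≡ 1` and `|η| ≤ 1` ⟹ `|η| < 1`. -/
theorem val_lt_one_of_one_add_pow (hp : p.Prime) (hA : A.LiesOverPrime p) {η : Qbar}
    (hη : A.valuation η ≤ 1) (h : A.valuation ((η + 1) ^ p - 1) < 1) : A.valuation η < 1 := by
  have hvp : A.valuation (p : Qbar) < 1 := A.mem_nonunits_iff.mp hA
  have hηA : η ∈ A := (A.valuation_le_one_iff η).1 hη
  obtain ⟨r, hr⟩ := exists_add_pow_prime_eq hp (⟨η, hηA⟩ : A) 1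
  have hr' : (η + 1) ^ p = η ^ p + 1 ^ p + (p : Qbar) * η * 1 * (r : Qbar) := by
    have := congrArg (Subtype.val) hr
    simpa using this
  have h1 : η ^ p = ((η + 1) ^ p - 1) - (p : Qbar) * η * (r : Qbar) := by
    rw [hr']; ring
  have h2 : A.valuation ((p : Qbar) * η * (r : Qbar)) < 1 := by
    rw [map_mul, map_mul]
    calc A.valuation (p : Qbar) * A.valuation η * A.valuation (r : Qbar)
        ≤ A.valuation (p : Qbar) * 1 * 1 := by
          gcongr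
          exact (A.valuation_le_one_iff _).2 r.2
      _ < 1 := by rw [mul_one, mul_one]; exact hvp
  have h3 : A.valuation (η ^ p) < 1 := by
    rw [h1]
    exact lt_of_le_of_lt (A.valuation.map_sub _ _) (max_lt h h2)
  rw [map_pow] at h3
  exact lt_one_of_pow_lt_one' h3

end Arith1

open Arith1

/-- **[ARITH-1]** -/
theorem exists_z0_aux (hp : p.Prime) (hp2 : p ≠ 2) (hA : A.LiesOverPrime p) (H' : Subgroup GQ)
    (hH' : H' ≤ A.inertiaSubgroupIn ℚ) {τ : GQ} (hτ : τ ∈ A.inertiaSubgroupIn ℚ)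
    (hcos : ∀ g ∈ A.inertiaSubgroupIn ℚ, ∃ i < p, ∃ h ∈ H', g = τ ^ i * h)
    (hdist : ∀ i, 0 < i → i < p → τ ^ i ∉ H')
    {b : Qbar} (hbA : b ∈ A) (hb : ∀ h ∈ H', h b = b) {ζ : Qbar} (hζ : IsPrimitiveRoot ζ p)
    (hw : A.valuation (ζ - 1) ≤ A.valuation (τ b - b)) :
    ∃ z0 : Qbar, IsZ0 A p H' τ z0 := by
  classical
  have h := isSH_inertia hp hA
  have hp3 : 3 ≤ p := by
    have := hp.two_le
    omega
  have hvp : A.valuation (p : Qbar) < 1 := h.lt_one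
  have hvp0 : A.valuation (p : Qbar) ≠ 0 := (A.valuation.ne_zero_iff).2 h.ne_zero
  have hP : A.valuation (p : Qbar) = A.valuation (ζ - 1) ^ (p - 1) := valuation_natCast_eq_pow hp hζ
  have hl0 : A.valuation (ζ - 1) ≠ 0 :=
    (A.valuation.ne_zero_iff).2 (sub_ne_zero.2 (hζ.ne_one hp.one_lt))
  obtain ⟨w, hwfix, hwlt⟩ := h.res b ((A.valuation_le_one_iff b).2 hbA)
  have hwfix' : ∀ g ∈ A.inertiaSubgroupIn ℚ, g w = w := fun g hg => hwfix ⟨g, hg⟩
  have hinv : ∀ g ∈ A.inertiaSubgroupIn ℚ, ∀ x : Qbar, A.valuation (g x) = A.valuation x :=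
    fun g hg x => h.inv ⟨g, hg⟩ x
  set z0 : Qbar := b - w with hz0
  have hfix : ∀ g ∈ H', g z0 = z0 := fun g hg => by
    rw [hz0, map_sub, hb g hg, hwfix' g (hH' hg)]
  have hμ : τ z0 - z0 = τ b - b := by
    rw [hz0, map_sub, hwfix' τ hτ]; ring
  have hlμ : A.valuation (ζ - 1) ≤ A.valuation (τ z0 - z0) := by rw [hμ]; exact hw
  have hμ0 : τ z0 - z0 ≠ 0 := by
    rw [← A.valuation.ne_zero_iff]
    exact (lt_of_lt_of_le (zero_lt_iff.2 hl0) hlμ).ne'
  have hμz : A.valuation (τ z0 - z0) ≤ A.valuation z0 :=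
    (A.valuation.map_sub _ _).trans (max_le (hinv τ hτ z0).le le_rfl)
  have hne : z0 ≠ 0 := by
    intro h0
    apply hμ0
    rw [h0, map_zero, sub_zero]
  have hvz0 : A.valuation z0 ≠ 0 := (A.valuation.ne_zero_iff).2 hne
  -- `τ ^ p` fixes `z0`
  have hτp : (τ ^ p) z0 = z0 := by
    obtain ⟨i, hi, g, hg, hig⟩ := hcos (τ ^ p) (Subgroup.pow_mem _ hτ p)
    by_cases hi0 : i = 0
    · rw [hig, hi0, pow_zero, one_mul]
      exact hfix g hg
    · exfalso
      have h1 : τ ^ (p - i) = g := by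
        have h2 : τ ^ p = τ ^ i * τ ^ (p - i) := by
          rw [← pow_add]
          congr 1
          omega
        rw [h2] at hig
        exact mul_left_cancel hig
      exact hdist (p - i) (by omega) (by omega) (h1 ▸ hg)
  have hinj0 : ∀ d, 0 < d → d < p → (τ ^ d) z0 ≠ z0 := by
    intro d hd0 hdp hd
    apply hμ0
    rw [apply_eq_of_pow_apply_eq ((Nat.coprime_comm.1
      ((Nat.Prime.coprime_iff_not_dvd hp).2 (Nat.not_dvd_of_pos_of_lt hd0 hdp)))) hd hτp, sub_self]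
  have hinj1 : ∀ i j, i < j → j < p → (τ ^ i) z0 ≠ (τ ^ j) z0 := by
    intro i j hij hj heq
    apply hinj0 (j - i) (by omega) (by omega)
    have h2 : τ ^ j = τ ^ i * τ ^ (j - i) := by
      rw [← pow_add]
      congr 1
      omega
    rw [h2, AlgEquiv.mul_apply] at heq
    exact ((τ ^ i).injective heq).symm
  have hinj : ∀ i < p, ∀ j < p, (τ ^ i) z0 = (τ ^ j) z0 → i = j := by
    intro i hi j hj heq
    rcases lt_trichotomy i j with hij | hij | hij
    · exact absurd heq (hinj1 i j hij hj)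
    · exact hij
    · exact absurd heq.symm (hinj1 j i hij hi)
  -- the orbit has `p` elements
  have hidx : (stabilizer ↥(A.inertiaSubgroupIn ℚ) z0).index = p := by
    rw [← card_orbF h]
    have heq : orbF h z0 = (Finset.range p).image (fun i => (τ ^ i) z0) := by
      ext z
      rw [mem_orbF, Finset.mem_image]
      constructor
      · rintro ⟨g, rfl⟩
        obtain ⟨i, hi, h', hh', hg⟩ := hcos g.1 g.2
        refine ⟨i, Finset.mem_range.2 hi, ?_⟩
        rw [smul_inertia_def, hg, AlgEquiv.mul_apply, hfix h' hh']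
      · rintro ⟨i, -, rfl⟩
        exact ⟨⟨τ ^ i, Subgroup.pow_mem _ hτ i⟩, rfl⟩
    rw [heq, Finset.card_image_of_injOn, Finset.card_range]
    intro i hi j hj hij
    exact hinj i (Finset.mem_range.1 hi) j (Finset.mem_range.1 hj) hij
  -- (K1)
  have hpow : A.valuation z0 ^ p = A.valuation (p : Qbar) := by
    have h1 := val_prod_orbF h z0
    rw [hidx] at h1
    have h2 : (∏ z ∈ orbF h z0, z) ≠ 0 := by
      rw [← A.valuation.ne_zero_iff, h1]
      exact pow_ne_zero _ hvz0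
    obtain ⟨n, hn⟩ := h.val _ (fix0_prod_orbF h z0) h2
    rw [h1] at hn
    have := zpow_exponent_eq_one hp3 hl0 hP hvp (hlμ.trans hμz) hwlt hn
    rw [hn, this, zpow_one]
  have hu : A.valuation (z0 ^ p * (p : Qbar)⁻¹) = 1 := by
    rw [map_mul, map_pow, map_inv₀, hpow, mul_inv_cancel₀ hvp0]
  have hvμ0 : A.valuation (τ z0 - z0) ≠ 0 := (A.valuation.ne_zero_iff).2 hμ0
  have hη1 : A.valuation ((τ z0 - z0) * z0⁻¹) ≤ 1 := by
    rw [map_mul, map_inv₀]
    exact mul_inv_le_one_of_le₀ hμz zero_le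
  have hηlt : A.valuation ((τ z0 - z0) * z0⁻¹) < 1 := by
    refine val_lt_one_of_one_add_pow hp hA hη1 ?_
    have h1 := valuation_sub_lt_one_of_mem_inertia hτ hu.le
    have h2 : ((τ z0 - z0) * z0⁻¹ + 1) ^ p - 1
        = (τ (z0 ^ p * (p : Qbar)⁻¹) - z0 ^ p * (p : Qbar)⁻¹) * (z0 ^ p * (p : Qbar)⁻¹)⁻¹ := by
      have hp0 : (p : Qbar) ≠ 0 := h.ne_zero
      rw [map_mul, map_pow, map_inv₀, map_natCast]
      have h3 : (τ z0 - z0) * z0⁻¹ + 1 = τ z0 * z0⁻¹ := by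
        field_simp
        ring
      rw [h3, mul_pow, inv_pow]
      field_simp
    rw [h2, map_mul, map_inv₀, hu, inv_one, mul_one]
    exact h1
  refine ⟨z0, hfix, hne, hwlt, hu, hμ0, hηlt, ?_, ?_, hinj⟩
  · rw [map_mul, map_inv₀, map_pow, map_mul, map_inv₀]
    exact mu_le_aux hp.one_le hvμ0 hP hlμ hpow
  · rw [map_mul, map_inv₀, map_pow, map_mul, map_inv₀]
    exact p_lt_aux hp.two_le hP hlμ hwlt

end Fermat.Agent.SSP
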