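import Fermat.Agent.SSP.FD

/-!
# SSP / [FD0-B] : see the header of `SSP/FD.lean` for the proof
-/

set_option autoImplicit false

open AlgebraicCurve

namespace Fermat.Agent.SSP

open Fermat.Agent.RED Fermat.Agent.S24 Fermat.Agent.SS

variable {K F k Fb : Type*} [Field K] [Field F] [Algebra K F] [Field k] [Field Fb] [Algebra k Fb]
variable {T : TwoRed K F k Fb} {𝒩 : NodalData T} (𝒢 : Geo 𝒩)
variable {p : ℕ}

/-- in a linearly ordered group with zero, `x < 1`, `x ≠ 0`, `x ^ n = 1` force `n = 0` -/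
theorem fd0B_zpow_aux {Γ : Type*} [LinearOrderedCommGroupWithZero Γ] {x : Γ}
    (hx1 : x < 1) {n : ℤ} (h : x ^ n = 1) : n = 0 := by
  by_contra hn
  rcases lt_or_gt_of_ne hn with hn | hn
  · have h1 : x ^ (-n) = 1 := by rw [zpow_neg, h, inv_one]
    obtain ⟨m, hm⟩ := Int.eq_ofNat_of_zero_le (by omega : 0 ≤ -n)
    rw [hm, zpow_natCast] at h1
    have hm0 : m ≠ 0 := by omega
    exact absurd h1 (pow_lt_one₀ zero_le hx1 hm0).ne
  · obtain ⟨m, hm⟩ := Int.eq_ofNat_of_zero_le hn.le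
    rw [hm, zpow_natCast] at h
    have hm0 : m ≠ 0 := by omega
    exact absurd h (pow_lt_one₀ zero_le hx1 hm0).ne

/-- the node case of `fd0B` -/
theorem fd0B_node (hp : p.Prime) (hp₂ : T.R₂.O.valuation (p : F) < 1) {Rat : Subfield F}
    (scale₁ : ∀ u ∈ Rat, u ≠ 0 → ∃ n : ℤ, T.R₁.O.valuation (u * ((p : F) ^ n)⁻¹) = 1)
    (scale₂ : ∀ u ∈ Rat, u ≠ 0 → ∃ n : ℤ, T.R₂.O.valuation (u * ((p : F) ^ n)⁻¹) = 1)
    {s : F} (hs : SlopeFn 𝒢 p s) {f : F}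
    (hf1 : T.R₁.O.valuation f = 1) (hf2 : T.R₂.O.valuation f = 1)
    (D : Divisor K F) (hD : ∀ P : Place K F, P.ord f = p * D P) (hloc : LocEqs 𝒢 Rat D) (e : 𝒩.S) :
    (p : ℤ) ∣ (𝒩.x₁ e).ord (rd₁ T f) ∧ (p : ℤ) ∣ (𝒩.x₂ e).ord (rd₂ T f) := by
  have hpF : (p : F) ≠ 0 := by
    intro h0
    have := hs.val₂
    rw [h0, inv_zero, mul_zero, map_zero] at this
    exact zero_ne_one this
  have hpK : (p : K) ≠ 0 := by
    intro h0
    apply hpF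
    rw [← map_natCast (algebraMap K F), h0, map_zero]
  have hpR : (p : F) ∈ Rat := natCast_mem Rat p
  obtain ⟨h, hhR, hh0, hhD⟩ := hloc.node e
  obtain ⟨n₁, hn₁⟩ := scale₁ h hhR hh0
  set h' : F := h * ((p : F) ^ n₁)⁻¹ with hh'
  have hh'R : h' ∈ Rat := mul_mem hhR (inv_mem (zpow_mem hpR n₁))
  have hh'0 : h' ≠ 0 := mul_ne_zero hh0 (inv_ne_zero (zpow_ne_zero _ hpF))
  have hh'ord : ∀ P : Place K F, P.ord h' = P.ord h := by
    intro P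
    have : ((p : F) ^ n₁)⁻¹ = algebraMap K F (((p : K) ^ n₁)⁻¹) := by
      rw [map_inv₀, map_zpow₀, map_natCast]
    rw [hh', this]
    exact ord_mul_const P h (inv_ne_zero (zpow_ne_zero _ hpK))
  obtain ⟨n₂, hn₂⟩ := scale₂ h' hh'R hh'0
  obtain ⟨a, U, hfU, hU1, hU2, hUn, -⟩ := node_decomp 𝒢 hs hf1 D hD e hn₁
    (fun P hP => by rw [hh'ord, hhD P hP])
  refine node_dvd 𝒢 hp.ne_zero hs hf1 hf2 e hn₁ hfU hU1 hU2 hUn ?_
  set v := T.R₂.O.valuation with hv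
  have hvp0 : v (p : F) ≠ 0 := (Valuation.ne_zero_iff _).2 hpF
  have hvs : v s = v (p : F) := by
    have := hs.val₂
    rw [← hv, map_mul, map_inv₀] at this
    exact (mul_inv_eq_one₀ hvp0).1 this
  have hvh : v h' = v (p : F) ^ n₂ := by
    rw [map_mul, map_inv₀, map_zpow₀] at hn₂
    exact (mul_inv_eq_one₀ (zpow_ne_zero _ hvp0)).1 hn₂
  have h1 : v (p : F) ^ (a + n₂ * p) = 1 := by
    have h3 : v f = v U * v s ^ a * v h' ^ p := by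
      rw [hfU, map_mul, map_mul, map_zpow₀, map_pow]
    rw [zpow_add₀ hvp0, zpow_mul, zpow_natCast, ← hvh, ← hvs, ← hf2, h3, hU2, one_mul]
  have h2 := fd0B_zpow_aux hp₂ h1
  exact ⟨-n₂, by linarith⟩

/-- **(FD0-B)** : the case where the class is fixed by the whole inertia group. -/
theorem fd0B (hp : p.Prime) (hp₂ : T.R₂.O.valuation (p : F) < 1) {Rat : Subfield F}
    (scale₁ : ∀ u ∈ Rat, u ≠ 0 → ∃ n : ℤ, T.R₁.O.valuation (u * ((p : F) ^ n)⁻¹) = 1)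
    (scale₂ : ∀ u ∈ Rat, u ≠ 0 → ∃ n : ℤ, T.R₂.O.valuation (u * ((p : F) ^ n)⁻¹) = 1)
    {s : F} (hs : SlopeFn 𝒢 p s) {f : F}
    (hf1 : T.R₁.O.valuation f = 1) (hf2 : T.R₂.O.valuation f = 1)
    (D : Divisor K F) (hD : ∀ P : Place K F, P.ord f = p * D P) (hloc : LocEqs 𝒢 Rat D) :
    (∀ Q : Place k Fb, (p : ℤ) ∣ Q.ord (rd₁ T f)) ∧ ∀ Q : Place k Fb, (p : ℤ) ∣ Q.ord (rd₂ T f) := by
  have hnode := fd0B_node 𝒢 hp hp₂ scale₁ scale₂ hs hf1 hf2 D hD hloc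
  refine ⟨fun Q => ?_, fun Q => ?_⟩
  · by_cases hQ : Q ∈ Set.range 𝒩.x₁
    · obtain ⟨e, rfl⟩ := hQ
      exact (hnode e).1
    · obtain ⟨h, -, hh0, hhD⟩ := hloc.good₁ Q hQ
      exact good_dvd 𝒢.red₁ hf1 D hD hQ hh0 hhD
  · by_cases hQ : Q ∈ Set.range 𝒩.x₂
    · obtain ⟨e, rfl⟩ := hQ
      exact (hnode e).2
    · obtain ⟨h, -, hh0, hhD⟩ := hloc.good₂ Q hQ
      exact good_dvd 𝒢.red₂ hf2 D hD hQ hh0 hhD

end Fermat.Agent.SSP
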