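import Fermat.Agent.SSP.FD

/-!
# SSP / [FD-B] : see the header of `SSP/FD.lean` for the proof
-/

set_option autoImplicit false

open AlgebraicCurve

namespace Fermat.Agent.SSP

open Fermat.Agent.RED Fermat.Agent.S24 Fermat.Agent.SS

variable {K F k Fb : Type*} [Field K] [Field F] [Algebra K F] [Field k] [Field Fb] [Algebra k Fb]
variable {T : TwoRed K F k Fb} {𝒩 : NodalData T} (𝒢 : Geo 𝒩)
variable {τ : SemilinearAut K F} {p : ℕ} (𝒲 : Wild T τ p)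

/-- a power of a non-unit of valuation `< 1` which is a unit is the trivial power. -/
theorem zpow_eq_zero_of_val_eq_one {O : ValuationSubring F} {z : F} (hz0 : z ≠ 0)
    (hz : O.valuation z < 1) {n : ℤ} (h : O.valuation (z ^ n) = 1) : n = 0 := by
  rw [map_zpow₀] at h
  have hv0 : O.valuation z ≠ 0 := (Valuation.ne_zero_iff _).2 hz0
  by_contra hn
  rcases lt_or_gt_of_ne hn with hn | hn
  · have h1 : (O.valuation z) ^ (-n) = 1 := by rw [zpow_neg, h, inv_one]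
    obtain ⟨m, hm⟩ := Int.eq_ofNat_of_zero_le (by omega : 0 ≤ -n)
    rw [hm, zpow_natCast] at h1
    have hm0 : m ≠ 0 := by omega
    exact absurd h1 (pow_lt_one₀ zero_le hz hm0).ne
  · obtain ⟨m, hm⟩ := Int.eq_ofNat_of_zero_le hn.le
    rw [hm, zpow_natCast] at h
    have hm0 : m ≠ 0 := by omega
    exact absurd h (pow_lt_one₀ zero_le hz hm0).ne

/-- **(FD-B)** -/
theorem fdB (hp : p.Prime) [CharP k p] (hτ : IsInert 𝒢 τ) {s : F} (hs : SlopeFn 𝒢 p s)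
    (hsR : s ∈ 𝒲.Rat) (hsτ : τ • s = s) {f : F} (hf : f ∈ 𝒲.Rat)
    (hf1 : T.R₁.O.valuation f = 1) (hf2 : T.R₂.O.valuation f = 1)
    (D : Divisor K F) (hD : ∀ P : Place K F, P.ord f = p * D P) (hloc : LocEqs 𝒢 𝒲.Rat D) {b : k}
    (hb₁ : rd₁ T (𝒲.Om f) = algebraMap k Fb b) (hb₂ : rd₂ T (𝒲.Om f) = algebraMap k Fb b) :
    (∀ Q : Place k Fb, (p : ℤ) ∣ Q.ord (rd₁ T f)) ∧ ∀ Q : Place k Fb, (p : ℤ) ∣ Q.ord (rd₂ T f) := by
  have hp0 : (p : ℤ) ≠ 0 := by exact_mod_cast hp.ne_zero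
  set Z : F := algebraMap K F 𝒲.z0 with hZ
  have hZ0 : Z ≠ 0 := by rw [hZ]; simpa using 𝒲.z0_ne
  have node : ∀ e : 𝒩.S, (p : ℤ) ∣ (𝒩.x₁ e).ord (rd₁ T f) ∧ (p : ℤ) ∣ (𝒩.x₂ e).ord (rd₂ T f) := by
    intro e
    obtain ⟨h, hhR, hh0, hhD⟩ := hloc.node e
    obtain ⟨a, n, -, -, ⟨c, hc1, hc2⟩, hv2, hdiv⟩ :=
      omega_node 𝒢 𝒲 hp hτ hs hsR hsτ hf hf1 D hD e hhR hh0 hhD
    rw [hb₁] at hc1
    rw [hb₂] at hc2
    have e1 : b = c := HasVal.unique (HasVal.const b) hc1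
    have e2 : b = c + n := HasVal.unique (HasVal.const b) hc2
    have hn0 : ((n : ℤ) : k) = 0 := by
      rw [← e1] at e2
      exact (left_eq_add.1 e2)
    have hpn : (p : ℤ) ∣ n := (CharP.intCast_eq_zero_iff k p n).1 hn0
    have hz1 : T.R₂.O.valuation (Z ^ ((p : ℤ) * (a + n))) = 1 := by
      rw [map_mul, hf2, one_mul, map_inv₀, inv_eq_one] at hv2
      exact hv2
    have han : (p : ℤ) * (a + n) = 0 := zpow_eq_zero_of_val_eq_one hZ0 𝒲.at₂.z0_lt hz1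
    have han' : a + n = 0 := (mul_eq_zero.1 han).resolve_left hp0
    have hpa : (p : ℤ) ∣ a := by
      have : a = -n := by omega
      rw [this]
      exact (dvd_neg).2 hpn
    have hpo : (p : ℤ) ∣ (𝒩.x₁ e).ord (rd₁ T f) := by
      have := dvd_add hdiv hpa
      rwa [sub_add_cancel] at this
    -- normalise `h`
    obtain ⟨n₁, hn₁⟩ := 𝒲.at₁.scale h hhR hh0
    have hh'ord : ∀ P : Place K F, P.ord (h * (Z ^ n₁)⁻¹) = P.ord h := by
      intro P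
      have : (Z ^ n₁)⁻¹ = algebraMap K F ((𝒲.z0 ^ n₁)⁻¹) := by rw [map_inv₀, map_zpow₀]
      rw [this]
      exact ord_mul_const P h (inv_ne_zero (zpow_ne_zero _ 𝒲.z0_ne))
    obtain ⟨a', U, hfU, hU1, hU2, hU, hord⟩ := node_decomp 𝒢 hs hf1 D hD e hn₁
      (fun P hP => by rw [hh'ord P]; exact hhD P hP)
    have hpa' : (p : ℤ) ∣ a' := by
      have h1 : a' = (𝒩.x₁ e).ord (rd₁ T f) - p * (𝒩.x₁ e).ord (rd₁ T (h * (Z ^ n₁)⁻¹)) := by
        rw [hord]; ring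
      rw [h1]
      exact dvd_sub hpo (dvd_mul_right _ _)
    exact node_dvd 𝒢 hp.ne_zero hs hf1 hf2 e hn₁ hfU hU1 hU2 hU hpa'
  refine ⟨fun Q => ?_, fun Q => ?_⟩
  · by_cases hQ : Q ∈ Set.range 𝒩.x₁
    · obtain ⟨e, rfl⟩ := hQ
      exact (node e).1
    · obtain ⟨h, -, hh0, hhD⟩ := hloc.good₁ Q hQ
      exact good_dvd 𝒢.red₁ hf1 D hD hQ hh0 hhD
  · by_cases hQ : Q ∈ Set.range 𝒩.x₂
    · obtain ⟨e, rfl⟩ := hQ
      exact (node e).2
    · obtain ⟨h, -, hh0, hhD⟩ := hloc.good₂ Q hQ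
      exact good_dvd 𝒢.red₂ hf2 D hD hQ hh0 hhD

end Fermat.Agent.SSP
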