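import Fermat.Agent.SS.Abs.Defs
import Fermat.Agent.SS.TorsMulti

/-!
# SSP : second differences on a two-component nodal reduction (route to (PL_p), S40)

Board: lead #1542 (parts B, C), helper26 #1688.

`T : TwoRed K F k Fb`, `𝒩 : NodalData T` as in `SS/Abs/Defs.lean`.  This file contains the
*interface* `Geo 𝒩` between the abstract nodal Deuring theory (dir `ND/`) and the files of this
directory:

* `r₁ r₂` : specialisation of the places on the two components; a place `P` is of smooth type on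
  the component `i` if `rᵢ P` is not a node; it *reduces to the node* `e` if
  `r₁ P = x₁ e` and `r₂ P = x₂ e`;
* `red₁ red₂` : `SS.IsReductionOn` (Deuring's (P1) at the good points);
* `glue` : LOCALISED glue : a function of `O₁ ∩ O₂` without pole at the places reducing to `e`
  has reductions which are regular at the two branches, with the same value;
* `evN` : if moreover it vanishes at a place reducing to `e`, the common value is `0`.
-/

set_option autoImplicit false

open AlgebraicCurve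

namespace Fermat.Agent.SSP

open Fermat.Agent.RED Fermat.Agent.S24 Fermat.Agent.SS

noncomputable section

variable {K F k Fb : Type*} [Field K] [Field F] [Algebra K F] [Field k] [Field Fb] [Algebra k Fb]

/-- The interface with the nodal Deuring theory. -/
structure Geo {T : TwoRed K F k Fb} (𝒩 : NodalData T) where
  r₁ : Place K F → Place k Fb
  r₂ : Place K F → Place k Fb
  red₁ : IsReductionOn T.R₁.O T.R₁.red r₁ (Set.range 𝒩.x₁)ᶜ
  red₂ : IsReductionOn T.R₂.O T.R₂.red r₂ (Set.range 𝒩.x₂)ᶜ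
  /-- localised glue -/
  glue : ∀ (e : 𝒩.S) (u : T.O),
    (∀ P : Place K F, r₁ P = 𝒩.x₁ e → r₂ P = 𝒩.x₂ e → 0 ≤ P.ord (u : F)) →
    ∃ c : k, HasVal (𝒩.x₁ e) (T.red u).1 c ∧ HasVal (𝒩.x₂ e) (T.red u).2 c
  /-- evaluation at a place reducing to a node -/
  evN : ∀ (e : 𝒩.S) (u : T.O),
    (∀ P : Place K F, r₁ P = 𝒩.x₁ e → r₂ P = 𝒩.x₂ e → 0 ≤ P.ord (u : F)) →
    (∃ P : Place K F, r₁ P = 𝒩.x₁ e ∧ r₂ P = 𝒩.x₂ e ∧ 0 < P.ord (u : F)) →
    HasVal (𝒩.x₁ e) (T.red u).1 0
  /-- every place is of smooth type on one component or reduces to a node -/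
  cases : ∀ P : Place K F, r₁ P ∉ Set.range 𝒩.x₁ ∨ r₂ P ∉ Set.range 𝒩.x₂ ∨
    ∃ e, r₁ P = 𝒩.x₁ e ∧ r₂ P = 𝒩.x₂ e
  /-- a place is of smooth type on at most one component -/
  disj : ∀ P : Place K F, r₁ P ∉ Set.range 𝒩.x₁ → r₂ P ∉ Set.range 𝒩.x₂ → False
  /-- there is a place of smooth type on the first component -/
  exists_smooth : ∃ P : Place K F, r₁ P ∉ Set.range 𝒩.x₁

namespace Geo

variable {T : TwoRed K F k Fb} {𝒩 : NodalData T} (𝒢 : Geo 𝒩)

/-- `P` reduces to the node `e`. -/
def Near (e : 𝒩.S) (P : Place K F) : Prop := 𝒢.r₁ P = 𝒩.x₁ e ∧ 𝒢.r₂ P = 𝒩.x₂ e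

end Geo

/-- the reduction on the first component, extended by `0` -/
abbrev rd₁ (T : TwoRed K F k Fb) (f : F) : Fb := rd T.R₁.O T.R₁.red f

/-- the reduction on the second component, extended by `0` -/
abbrev rd₂ (T : TwoRed K F k Fb) (f : F) : Fb := rd T.R₂.O T.R₂.red f

/-- `c ∼ c'` : same valuation. -/
def Sim (A : ValuationSubring K) (c c' : K) : Prop := A.valuation c = A.valuation c'

/-- A semilinear automorphism which acts trivially on the special fibre ("element of the inertia
group"). -/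
structure IsInert {T : TwoRed K F k Fb} {𝒩 : NodalData T} (𝒢 : Geo 𝒩)
    (g : SemilinearAut K F) : Prop where
  val₁ : ∀ f : F, T.R₁.O.valuation (g • f) = T.R₁.O.valuation f
  val₂ : ∀ f : F, T.R₂.O.valuation (g • f) = T.R₂.O.valuation f
  rd₁ : ∀ f : F, rd₁ T (g • f) = rd₁ T f
  rd₂ : ∀ f : F, rd₂ T (g • f) = rd₂ T f
  r₁ : ∀ P : Place K F, 𝒢.r₁ (g • P) = 𝒢.r₁ P
  r₂ : ∀ P : Place K F, 𝒢.r₂ (g • P) = 𝒢.r₂ P

/-- the second difference quotient `τ² G · G / (τ G)²` -/
def u2 (τ : SemilinearAut K F) (G : F) : F := (τ • τ • G) * G * ((τ • G) ^ 2)⁻¹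

/-- `G` has *leading term* `c π ^ n` for the valuation ring `O`, and its second difference quotient
is `1 + n κ` up to deeper terms : the conclusion of (U2). -/
structure Lead (O : ValuationSubring F) (τ : SemilinearAut K F) (K' : Subfield K) (π κ : K)
    (G : F) (n : ℕ) (c : K) : Prop where
  c_mem : c ∈ K'
  c_ne : c ≠ 0
  unit : O.valuation (G * (algebraMap K F (c * π ^ n))⁻¹) = 1
  u2 : O.valuation ((u2 τ G - 1 - (n : F) * algebraMap K F κ) * (algebraMap K F κ)⁻¹) < 1

end

end Fermat.Agent.SSP
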