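import Fermat.Agent.SSP.Arith

/-!
# SSP / [ARITH-2] : proofs of (K2), (K3)  (`scale_of_z0_aux`, `diff_of_z0_aux`; see the header of `SSP/Arith.lean`)
-/

set_option autoImplicit false

namespace Fermat.Agent.SSP

open Polynomial

local notation "Qbar" => AlgebraicClosure ℚ
local notation "GQ" => (AlgebraicClosure ℚ ≃ₐ[ℚ] AlgebraicClosure ℚ)

variable {A : ValuationSubring Qbar} {p : ℕ}

namespace Arith2

/-- LAGRANGE: `c = ∑_{j < p} a_j z0 ^ j` with `a_j ∈ K₀`. -/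
theorem exists_coeffs (hp : p.Prime) (H' : Subgroup GQ) {τ : GQ} (hτ : τ ∈ A.inertiaSubgroupIn ℚ)
    (hcos : ∀ g ∈ A.inertiaSubgroupIn ℚ, ∃ i < p, ∃ h ∈ H', g = τ ^ i * h)
    {z0 : Qbar} (hz : IsZ0 A p H' τ z0) {c : Qbar} (hc : ∀ h ∈ H', h c = c) :
    ∃ a : ℕ → Qbar, (∀ j, ∀ σ ∈ A.inertiaSubgroupIn ℚ, σ (a j) = a j) ∧
      c = ∑ j ∈ Finset.range p, a j * z0 ^ j := by
  classical
  set x : ℕ → Qbar := fun i => (τ ^ i) z0 with hx
  set y : ℕ → Qbar := fun i => (τ ^ i) c with hy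
  have hinj : Set.InjOn x (Finset.range p : Finset ℕ) := by
    intro i hi j hj h
    exact hz.inj i (Finset.mem_range.1 hi) j (Finset.mem_range.1 hj) h
  set L : Qbar[X] := Lagrange.interpolate (Finset.range p) x y with hL
  have hdeg : L.degree < ((Finset.range p).card : ℕ) := Lagrange.degree_interpolate_lt y hinj
  have heval : ∀ i ∈ Finset.range p, L.eval (x i) = y i := fun i hi =>
    Lagrange.eval_interpolate_at_node y hinj hi
  have hfix : ∀ g ∈ A.inertiaSubgroupIn ℚ, L.map ((g : Qbar ≃ₐ[ℚ] Qbar) : Qbar →+* Qbar) = L := by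
    intro g hg
    refine Polynomial.eq_of_degrees_lt_of_eval_index_eq (v := fun i => g (x i)) (Finset.range p) ?_
      (lt_of_le_of_lt degree_map_le hdeg) hdeg ?_
    · intro i hi j hj h
      exact hinj hi hj (g.injective h)
    · intro i hi
      obtain ⟨j, hj, h, hh, e⟩ := hcos (g * τ ^ i) (mul_mem hg (pow_mem hτ i))
      have e1 : g (x i) = x j := by
        change (g * τ ^ i) z0 = (τ ^ j) z0
        rw [e, AlgEquiv.mul_apply, hz.fix h hh]
      have e2 : g (y i) = y j := by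
        change (g * τ ^ i) c = (τ ^ j) c
        rw [e, AlgEquiv.mul_apply, hc h hh]
      have e3 : (L.map ((g : Qbar ≃ₐ[ℚ] Qbar) : Qbar →+* Qbar)).eval (g (x i)) = g (L.eval (x i)) :=
        eval_map_apply ((g : Qbar ≃ₐ[ℚ] Qbar) : Qbar →+* Qbar) (x i)
      rw [e3, heval i hi, e2, e1, heval j (Finset.mem_range.2 hj)]
  refine ⟨fun j => L.coeff j, fun j σ hσ => ?_, ?_⟩
  · have := congrArg (fun P : Qbar[X] => P.coeff j) (hfix σ hσ)
    simpa [coeff_map] using this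
  · have hnat : L.natDegree < p := by
      by_cases h0 : L = 0
      · rw [h0, natDegree_zero]; exact hp.pos
      · rw [natDegree_lt_iff_degree_lt h0]
        simpa using hdeg
    have h0 := heval 0 (Finset.mem_range.2 hp.pos)
    rw [← eval_eq_sum_range' hnat]
    simpa [hx, hy] using h0.symm

section Val

variable {Γ₀ : Type*} [LinearOrderedCommGroupWithZero Γ₀] {K : Type*} [Field K] (v : Valuation K Γ₀)

/-- the abstract statement on "digits" -/
theorem exists_max_term {p : ℕ} {ϖ z0 : K} (hz0 : z0 ≠ 0) (hlt : v z0 < 1)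
    (hpow : v z0 ^ p = v ϖ) (a : ℕ → K) (ha : ∀ j, a j ≠ 0 → ∃ n : ℤ, v (a j) = v ϖ ^ n)
    (hne : ∑ j ∈ Finset.range p, a j * z0 ^ j ≠ 0) :
    ∃ n : ℤ, v (∑ j ∈ Finset.range p, a j * z0 ^ j) = v z0 ^ n ∧
      ∀ j ∈ Finset.range p, v (a j * z0 ^ j) ≤ v z0 ^ n := by
  classical
  have hw0 : 0 < v z0 := zero_lt_iff.2 ((v.ne_zero_iff).2 hz0)
  have hterm : ∀ j, a j ≠ 0 → ∃ n : ℤ, v (a j * z0 ^ j) = v z0 ^ ((p : ℤ) * n + j) := by
    intro j hj
    obtain ⟨n, hn⟩ := ha j hj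
    refine ⟨n, ?_⟩
    rw [map_mul, map_pow, hn, ← hpow, zpow_add₀ hw0.ne', zpow_mul, zpow_natCast, zpow_natCast]
  obtain ⟨j₁, hj₁, hj₁0⟩ : ∃ j ∈ Finset.range p, a j ≠ 0 := by
    by_contra hcon
    push Not at hcon
    apply hne
    exact Finset.sum_eq_zero fun j hj => by rw [hcon j hj, zero_mul]
  obtain ⟨j₀, hj₀, hmax⟩ := Finset.exists_max_image (Finset.range p) (fun j => v (a j * z0 ^ j))
    ⟨j₁, hj₁⟩
  have hj₀0 : a j₀ ≠ 0 := by
    intro h0
    have h1 := hmax j₁ hj₁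
    simp only [h0, zero_mul, map_zero, le_zero_iff] at h1
    rw [v.zero_iff] at h1
    exact (mul_ne_zero hj₁0 (pow_ne_zero _ hz0)) h1
  obtain ⟨n₀, hn₀⟩ := hterm j₀ hj₀0
  refine ⟨(p : ℤ) * n₀ + j₀, ?_, fun j hj => hn₀ ▸ hmax j hj⟩
  rw [← hn₀]
  refine Valuation.map_sum_eq_of_lt v hj₀ (fun i hi => ?_)
  rw [Finset.mem_sdiff, Finset.mem_singleton] at hi
  refine lt_of_le_of_ne (hmax i hi.1) (fun heq => hi.2 ?_)
  have hi0 : a i ≠ 0 := by
    intro h0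
    rw [h0, zero_mul, map_zero, hn₀] at heq
    exact (zpow_ne_zero _ hw0.ne') heq.symm
  obtain ⟨n, hn⟩ := hterm i hi0
  rw [hn, hn₀] at heq
  have h3 := zpow_right_injective₀ hw0 hlt.ne heq
  have hip := Finset.mem_range.1 hi.1
  have hjp := Finset.mem_range.1 hj₀
  have h4 : ((i : ℤ) - j₀) = (p : ℤ) * (n₀ - n) := by linarith
  have h5 : (p : ℤ) ∣ (i : ℤ) - j₀ := ⟨_, h4⟩
  have h6 : |(i : ℤ) - j₀| < p := by
    rw [abs_lt]; constructor <;> omega
  have h7 := Int.eq_zero_of_abs_lt_dvd h5 h6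
  omega

end Val

theorem val_pow_eq {H' : Subgroup GQ} {τ : GQ} {z0 : Qbar} (hp : p.Prime) (hz : IsZ0 A p H' τ z0) :
    A.valuation z0 ^ p = A.valuation (p : Qbar) := by
  have h := hz.pow
  have hp0 : (p : Qbar) ≠ 0 := by exact_mod_cast hp.ne_zero
  have hvp : A.valuation (p : Qbar) ≠ 0 := (A.valuation.ne_zero_iff).2 hp0
  rw [map_mul, map_inv₀, map_pow, mul_inv_eq_one₀ hvp] at h
  exact h

end Arith2

open Arith2

/-- **[ARITH-2]**, (K2) -/
theorem scale_of_z0_aux (hp : p.Prime) (hA : A.LiesOverPrime p) (H' : Subgroup GQ)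
    {τ : GQ} (hτ : τ ∈ A.inertiaSubgroupIn ℚ)
    (hcos : ∀ g ∈ A.inertiaSubgroupIn ℚ, ∃ i < p, ∃ h ∈ H', g = τ ^ i * h)
    {z0 : Qbar} (hz : IsZ0 A p H' τ z0) {c : Qbar} (hc : ∀ h ∈ H', h c = c) (hc0 : c ≠ 0) :
    ∃ n : ℤ, A.valuation (c * (z0 ^ n)⁻¹) = 1 := by
  obtain ⟨a, hfix, hsum⟩ := exists_coeffs hp H' hτ hcos hz hc
  obtain ⟨n, hn, -⟩ := exists_max_term A.valuation hz.ne hz.lt (val_pow_eq hp hz) a
    (fun j hj => S36.exists_zpow_of_inertia_fixed hp hA hj (hfix j)) (hsum ▸ hc0)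
  refine ⟨n, ?_⟩
  rw [← hsum] at hn
  have hw0 : A.valuation z0 ≠ 0 := (A.valuation.ne_zero_iff).2 hz.ne
  rw [map_mul, map_inv₀, map_zpow₀, hn, mul_inv_cancel₀ (zpow_ne_zero _ hw0)]

/-- **[ARITH-2]**, (K3) -/
theorem diff_of_z0_aux (hp : p.Prime) (hA : A.LiesOverPrime p) (H' : Subgroup GQ)
    {τ : GQ} (hτ : τ ∈ A.inertiaSubgroupIn ℚ)
    (hcos : ∀ g ∈ A.inertiaSubgroupIn ℚ, ∃ i < p, ∃ h ∈ H', g = τ ^ i * h)
    {z0 : Qbar} (hz : IsZ0 A p H' τ z0) {c : Qbar} (hc : ∀ h ∈ H', h c = c)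
    (hcA : A.valuation c ≤ 1) :
    A.valuation ((τ c - c) * (τ z0 - z0)⁻¹) ≤ 1 := by
  by_cases hc0 : c = 0
  · rw [hc0, map_zero, sub_zero, zero_mul, map_zero]
    exact zero_le_one
  obtain ⟨a, hfix, hsum⟩ := exists_coeffs hp H' hτ hcos hz hc
  have hpow := val_pow_eq hp hz
  have hval : ∀ j, a j ≠ 0 → ∃ n : ℤ, A.valuation (a j) = A.valuation (p : Qbar) ^ n :=
    fun j hj => S36.exists_zpow_of_inertia_fixed hp hA hj (hfix j)
  obtain ⟨n, hn, hle⟩ := exists_max_term A.valuation hz.ne hz.lt hpow a hval (hsum ▸ hc0)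
  rw [← hsum] at hn
  have hw0 : 0 < A.valuation z0 := zero_lt_iff.2 ((A.valuation.ne_zero_iff).2 hz.ne)
  -- the digits are integral
  have hint : ∀ j ∈ Finset.range p, A.valuation (a j) ≤ 1 := by
    intro j hj
    by_cases hj0 : a j = 0
    · rw [hj0, map_zero]; exact zero_le_one
    obtain ⟨m, hm⟩ := hval j hj0
    have h1 : A.valuation (a j * z0 ^ j) ≤ 1 := (hle j hj).trans (hn ▸ hcA)
    rw [map_mul, map_pow, hm, ← hpow, ← zpow_natCast, ← zpow_natCast, ← zpow_mul,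
      ← zpow_add₀ hw0.ne', zpow_le_one_iff_right_of_lt_one₀ hw0 hz.lt] at h1
    have hjp := Finset.mem_range.1 hj
    have hm0 : 0 ≤ m := by
      by_contra hneg
      push Not at hneg
      have : (p : ℤ) * m ≤ (p : ℤ) * (-1) :=
        mul_le_mul_of_nonneg_left (by omega) (by positivity)
      omega
    rw [hm, ← hpow, ← zpow_natCast, ← zpow_mul, zpow_le_one_iff_right_of_lt_one₀ hw0 hz.lt]
    positivity
  -- `τ z0` is integral
  have hμ : A.valuation (τ z0 - z0) ≤ 1 := by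
    have h1 : τ z0 - z0 = ((τ z0 - z0) * z0⁻¹) * z0 := by
      rw [mul_assoc, inv_mul_cancel₀ hz.ne, mul_one]
    rw [h1, map_mul]
    exact mul_le_one₀ hz.η_lt.le zero_le hz.lt.le
  have hτz : A.valuation (τ z0) ≤ 1 := by
    have h1 : τ z0 = (τ z0 - z0) + z0 := by ring
    rw [h1]
    exact (A.valuation.map_add _ _).trans (max_le hμ hz.lt.le)
  have hdiff : τ c - c = (∑ j ∈ Finset.range p,
      a j * ∑ i ∈ Finset.range j, τ z0 ^ i * z0 ^ (j - 1 - i)) * (τ z0 - z0) := by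
    conv_lhs => rw [hsum]
    rw [map_sum, ← Finset.sum_sub_distrib, Finset.sum_mul]
    refine Finset.sum_congr rfl fun j _ => ?_
    rw [map_mul, map_pow, hfix j τ hτ, mul_assoc, geom_sum₂_mul, mul_sub]
  rw [hdiff, mul_assoc, mul_inv_cancel₀ hz.μ_ne, mul_one]
  refine A.valuation.map_sum_le fun j hj => ?_
  rw [map_mul]
  refine mul_le_one₀ (hint j hj) zero_le ?_
  refine A.valuation.map_sum_le fun i _ => ?_
  rw [map_mul, map_pow, map_pow]
  exact mul_le_one₀ (pow_le_one₀ zero_le hτz) zero_le (pow_le_one₀ zero_le hz.lt.le)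

end Fermat.Agent.SSP
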