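import Fermat.Agent.SSP.RatON
import Fermat.Agent.SS.Z1.ON2

/-!
# SSP / [RATDIFF] : proof of `rat_diff` (uses only the statement `exists_rat_rep`)
-/

set_option autoImplicit false

open Polynomial AlgebraicCurve

namespace Fermat.Agent.SSP

open Fermat.Agent.SS Fermat.Agent.RED.Gauss Fermat.Agent.SS.SemiRed

variable {L : Type*} [Field L] {A : ValuationSubring L} {k : Type*} [Field k] {π : A →+* k}
  {F : Type*} [Field F] [Algebra L F] {Λ : Type*} [CommRing Λ] [Algebra k Λ] [Nontrivial Λ]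
  {R : SemiRed π F Λ} {ι : Type*} [Fintype ι] {t : F} {w : ι → F}

theorem rdf_exists_lift (A : ValuationSubring L) (Q : L[X]) (h : ∀ n, Q.coeff n ∈ A) :
    ∃ P : A[X], P.map A.subtype = Q := by
  have : Q ∈ Polynomial.lifts A.subtype := by
    rw [Polynomial.lifts_iff_coeff_lifts]
    intro n
    exact ⟨⟨_, h n⟩, rfl⟩
  exact (Polynomial.mem_lifts Q).1 this

omit [Nontrivial Λ] in
theorem rdf_aeval_mem (ht : t ∈ R.O) (Q : L[X]) (h : ∀ n, Q.coeff n ∈ A) : aeval t Q ∈ R.O := by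
  obtain ⟨P, rfl⟩ := rdf_exists_lift A Q h
  exact R.evF_mem ht P

theorem rdf_inv_aeval_mem (H : R.IsOrtho t w) (Q : L[X]) (h : ∀ n, Q.coeff n ∈ A) {n : ℕ}
    (hn : Q.coeff n = 1) : aeval t Q ≠ 0 ∧ (aeval t Q)⁻¹ ∈ R.O := by
  obtain ⟨P, rfl⟩ := rdf_exists_lift A Q h
  have hP : P.map π ≠ 0 := by
    intro h0
    have h1 : (P.map π).coeff n = 0 := by rw [h0, coeff_zero]
    rw [coeff_map] at h1 hn
    have h2 : P.coeff n = 1 := Subtype.ext hn
    rw [h2, map_one] at h1
    exact one_ne_zero h1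
  exact ⟨H.evF_ne_zero hP, R.inv_mem' (R.evF_mem H.t_mem P) (H.isUnit_rd_evF hP)⟩

theorem rdf_smul_aeval (τ : SemilinearAut L F) (hτt : τ • t = t) (Q : L[X]) :
    τ • aeval t Q = aeval t (Q.map ((SemilinearAut.baseAut τ : L ≃+* L) : L →+* L)) := by
  induction Q using Polynomial.induction_on' with
  | add p q hp hq => rw [map_add, smul_add, hp, hq, Polynomial.map_add, map_add]
  | monomial n a =>
    rw [aeval_monomial, smul_mul', smul_pow', hτt, SemilinearAut.smul_algebraMap,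
      Polynomial.map_monomial, aeval_monomial]
    rfl

omit [Nontrivial Λ] in
/-- orthonormality: an `L[t]`-combination of the `w i` which lies in `O` has integral coefficients -/
theorem rdf_coeff_mem (H : R.IsOrtho t w) (f : ι → L[X]) (hO : ∑ i, aeval t (f i) * w i ∈ R.O) :
    ∀ i n, (f i).coeff n ∈ A := by
  by_cases hf : ∃ i, f i ≠ 0
  · obtain ⟨c, p, hc, hp, hne⟩ := exists_normalize π f hf
    have h1 : ∑ i, aeval t (f i) * w i = algebraMap L F c * cmb t w p := by
      rw [cmb, Finset.mul_sum]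
      refine Finset.sum_congr rfl fun i _ => ?_
      rw [evF, hp i, map_mul, aeval_C, ← mul_assoc, ← mul_assoc, ← map_mul, mul_inv_cancel₀ hc,
        map_one, one_mul]
    have hcA : c ∈ A := (mem_O_iff_of_scale H.surj (R.cmb_mem H.t_mem H.w_mem p)
      (H.rd_cmb_ne_zero hne) h1).1 hO
    intro i n
    have h2 : f i = C c * (p i).map A.subtype := by
      rw [hp i, ← mul_assoc, ← C_mul, mul_inv_cancel₀ hc, C_1, one_mul]
    rw [h2, coeff_C_mul, coeff_map]
    exact A.mul_mem _ _ hcA ((p i).coeff n).2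
  · push Not at hf
    intro i n
    rw [hf i, coeff_zero]
    exact A.zero_mem

theorem rdf_field_identity {E : Type*} [Field E] (N D N' D' m : E) (hD : D ≠ 0) (hD' : D' ≠ 0)
    (hm : m ≠ 0) :
    (N' * D'⁻¹ - N * D⁻¹) * m⁻¹ =
      (((N' - N) * m⁻¹) * D - N * ((D' - D) * m⁻¹)) * D⁻¹ * D'⁻¹ := by
  field_simp
  ring

theorem rat_diff_aux (H : R.IsON t w) {κ : Type*} (g : κ → SemilinearAut L F)
    (ht : ∀ a, g a • t = t) (hw : ∀ a i, g a • w i = w i)
    (τ : SemilinearAut L F) (hτt : τ • t = t) (hτw : ∀ i, τ • w i = w i)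
    (hτA : ∀ c : L, SemilinearAut.baseAut τ c ∈ A ↔ c ∈ A) {μ : L} (hμ : μ ≠ 0)
    (K3 : ∀ c : L, (∀ a, SemilinearAut.baseAut (g a) c = c) → c ∈ A →
      (SemilinearAut.baseAut τ c - c) * μ⁻¹ ∈ A)
    {y : F} (hy : ∀ a, g a • y = y) (hyO : y ∈ R.O) :
    (τ • y - y) * (algebraMap L F μ)⁻¹ ∈ R.O := by
  classical
  obtain ⟨G, f, hG, hGr, hfr, hGf⟩ := exists_rat_rep H g ht hw hy
  -- rationality of the coefficients
  have hGc : ∀ a n, SemilinearAut.baseAut (g a) (G.coeff n) = G.coeff n := by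
    intro a n
    have := congrArg (fun Q => Q.coeff n) (hGr a)
    simpa [coeff_map] using this
  have hfc : ∀ a i n, SemilinearAut.baseAut (g a) ((f i).coeff n) = (f i).coeff n := by
    intro a i n
    have := congrArg (fun Q => Q.coeff n) (hfr a i)
    simpa [coeff_map] using this
  -- the pivot
  obtain ⟨j, -, hj0, hdiv, -⟩ := exists_pivot_val A G.support G.coeff
    ⟨G.natDegree, by
      rw [mem_support_iff, coeff_natDegree]; exact leadingCoeff_ne_zero.mpr hG, by
      rw [coeff_natDegree]; exact leadingCoeff_ne_zero.mpr hG⟩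
  set c := G.coeff j with hc
  set σ : L →+* L := ((SemilinearAut.baseAut τ : L ≃+* L) : L →+* L) with hσ
  set G' : L[X] := C c⁻¹ * G with hG'
  set f' : ι → L[X] := fun i => C c⁻¹ * f i with hf'
  have hrel : aeval t G' * y = ∑ i, aeval t (f' i) * w i := by
    rw [hG', map_mul, mul_assoc, hGf, Finset.mul_sum]
    refine Finset.sum_congr rfl fun i _ => ?_
    rw [hf', map_mul, mul_assoc]
  have hG'A : ∀ n, G'.coeff n ∈ A := by
    intro n
    rw [hG', coeff_C_mul]
    by_cases hn : n ∈ G.support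
    · have := hdiv n hn
      rwa [div_eq_inv_mul] at this
    · rw [notMem_support_iff.mp hn, mul_zero]
      exact A.zero_mem
  have hG'1 : G'.coeff j = 1 := by
    rw [hG', coeff_C_mul, ← hc, inv_mul_cancel₀ hj0]
  have hG'r : ∀ a n, SemilinearAut.baseAut (g a) (G'.coeff n) = G'.coeff n := by
    intro a n
    rw [hG', coeff_C_mul, map_mul, map_inv₀, hGc, hc, hGc]
  have hf'r : ∀ a i n, SemilinearAut.baseAut (g a) ((f' i).coeff n) = (f' i).coeff n := by
    intro a i n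
    rw [hf', coeff_C_mul, map_mul, map_inv₀, hfc, hc, hGc]
  set D : F := aeval t G' with hD
  set N : F := ∑ i, aeval t (f' i) * w i with hN
  have hDO : D ∈ R.O := rdf_aeval_mem H.t_mem G' hG'A
  obtain ⟨hD0, hDinv⟩ := rdf_inv_aeval_mem H.toIsOrtho G' hG'A hG'1
  have hNO : N ∈ R.O := by rw [← hrel]; exact R.O.mul_mem hDO hyO
  have hf'A : ∀ i n, (f' i).coeff n ∈ A := rdf_coeff_mem H.toIsOrtho f' hNO
  -- `τ D`
  have hτD : τ • D = aeval t (G'.map σ) := rdf_smul_aeval τ hτt G'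
  have hτN : τ • N = ∑ i, aeval t ((f' i).map σ) * w i := by
    rw [hN, Finset.smul_sum]
    refine Finset.sum_congr rfl fun i _ => ?_
    rw [smul_mul', hτw, rdf_smul_aeval τ hτt]
  obtain ⟨hτD0, hτDinv⟩ := rdf_inv_aeval_mem H.toIsOrtho (G'.map σ)
    (fun n => by rw [coeff_map]; exact (hτA _).2 (hG'A n)) (n := j)
    (by rw [coeff_map, hG'1, map_one])
  rw [← hτD] at hτD0 hτDinv
  have hμF : algebraMap L F μ ≠ 0 := by rw [Ne, map_eq_zero]; exact hμ
  -- the differences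
  have hdD : (τ • D - D) * (algebraMap L F μ)⁻¹ ∈ R.O := by
    have h1 : (τ • D - D) * (algebraMap L F μ)⁻¹ = aeval t (C μ⁻¹ * (G'.map σ - G')) := by
      rw [map_mul, aeval_C, map_sub, ← hτD, map_inv₀, mul_comm]
    rw [h1]
    refine rdf_aeval_mem H.t_mem _ fun n => ?_
    rw [coeff_C_mul, coeff_sub, coeff_map, mul_comm]
    exact K3 _ (fun a => hG'r a n) (hG'A n)
  have hdN : (τ • N - N) * (algebraMap L F μ)⁻¹ ∈ R.O := by
    have h1 : (τ • N - N) * (algebraMap L F μ)⁻¹ =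
        ∑ i, aeval t (C μ⁻¹ * ((f' i).map σ - f' i)) * w i := by
      rw [hτN, hN, ← Finset.sum_sub_distrib, Finset.sum_mul]
      refine Finset.sum_congr rfl fun i _ => ?_
      have e : aeval t (C μ⁻¹ * ((f' i).map σ - f' i)) =
          (algebraMap L F μ)⁻¹ * (aeval t ((f' i).map σ) - aeval t (f' i)) := by
        rw [map_mul, aeval_C, map_sub, map_inv₀]
      rw [e]
      ring
    rw [h1]
    refine R.O.sum_mem fun i _ => R.O.mul_mem (rdf_aeval_mem H.t_mem _ fun n => ?_) (H.w_mem i)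
    rw [coeff_C_mul, coeff_sub, coeff_map, mul_comm]
    exact K3 _ (fun a => hf'r a i n) (hf'A i n)
  have hyN : y = N * D⁻¹ := by
    rw [← hrel, mul_comm D y, mul_assoc, mul_inv_cancel₀ hD0, mul_one]
  have hτy : τ • y = (τ • N) * (τ • D)⁻¹ := by
    rw [hyN, smul_mul', smul_inv'']
  have key : (τ • y - y) * (algebraMap L F μ)⁻¹ =
      (((τ • N - N) * (algebraMap L F μ)⁻¹) * D - N * ((τ • D - D) * (algebraMap L F μ)⁻¹)) *
        D⁻¹ * (τ • D)⁻¹ := by
    rw [hτy]
    conv_lhs => rw [hyN]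
    exact rdf_field_identity N D (τ • N) (τ • D) _ hD0 hτD0 hμF
  rw [key]
  exact R.O.mul_mem (R.O.mul_mem (R.O.sub_mem (R.O.mul_mem hdN hDO) (R.O.mul_mem hNO hdD)) hDinv)
    hτDinv

end Fermat.Agent.SSP
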