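import Fermat.Agent.SSP.Wild

/-!
# SSP / [SUP] : from the sup-norm `max(|.|₁, |.|₂)` to the two valuations (the `s`-trick)

The concrete level gives (h1), (h2) only for the semi-local ring `T.O = O₁ ∩ O₂` (orthonormal basis):
`SupData`.  The function `s ∈ Rat`, `τ s = s`, `(|s|₁, |s|₂) = (1, |p|)` separates the two valuations.

* (h2) for `v₁` : `u ∈ Rat`, `u ≠ 0`.  For `N` large (`arch` + `exists_scale`) `|u s ^ N|₂ < |u s ^ N|₁`.
  `SupData.scale` : `y := u s ^ N / z0 ^ n ∈ T.O`, `red y ≠ 0`.  As `|y|₂ < |y|₁ ≤ 1`, `red₂ y = 0`, so `red₁ y ≠ 0`,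
  `|y|₁ = 1` and `|u / z0 ^ n|₁ = 1`.
* (h1) for `v₁` : `u ∈ Rat ∩ O₁`; for `N` large `u s ^ N ∈ T.O`; `(τ u - u) s ^ N / μ ∈ T.O ⊆ O₁`, `s` is a `v₁`-unit.
* for `v₂` use `p / s` instead of `s`.
* the statements on constants: `c ∈ T.A ↔ algebraMap c ∈ O₁ ↔ algebraMap c ∈ O₂` (`TwoRed.A`, `const_mem`).
-/

set_option autoImplicit false

open AlgebraicCurve

namespace Fermat.Agent.SSP

open Fermat.Agent.RED Fermat.Agent.S24 Fermat.Agent.SS

variable {K F k Fb : Type*} [Field K] [Field F] [Algebra K F] [Field k] [Field Fb] [Algebra k Fb]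

/-- (h1), (h2) for the sup-norm. -/
structure SupData (T : TwoRed K F k Fb) (τ : SemilinearAut K F) (Rat : Subfield F) (z0 μ : K) :
    Prop where
  scale : ∀ u ∈ Rat, u ≠ 0 →
    ∃ (n : ℤ) (h : u * (algebraMap K F z0 ^ n)⁻¹ ∈ T.O), T.red ⟨_, h⟩ ≠ 0
  diff : ∀ u ∈ Rat, u ∈ T.O → (τ • u - u) * (algebraMap K F μ)⁻¹ ∈ T.O

private theorem sup_lt_one_iff_inv {R Γ : Type*} [Field R] [LinearOrderedCommGroupWithZero Γ]
    (v : Valuation R Γ) {x : R} (hx : x ≠ 0) : v x < 1 ↔ ¬ v x⁻¹ ≤ 1 := by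
  rw [map_inv₀, inv_le_one₀ (zero_lt_iff.2 ((Valuation.ne_zero_iff v).2 hx)), not_le]

private theorem sup_const_le {A : ValuationSubring K} {O : ValuationSubring F}
    (hA : ∀ c : K, c ∈ A ↔ algebraMap K F c ∈ O) (c : K) :
    O.valuation (algebraMap K F c) ≤ 1 ↔ A.valuation c ≤ 1 := by
  rw [ValuationSubring.valuation_le_one_iff, ValuationSubring.valuation_le_one_iff, hA]

private theorem sup_const_lt {A : ValuationSubring K} {O : ValuationSubring F}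
    (hA : ∀ c : K, c ∈ A ↔ algebraMap K F c ∈ O) (c : K) :
    O.valuation (algebraMap K F c) < 1 ↔ A.valuation c < 1 := by
  rcases eq_or_ne c 0 with rfl | hc
  · simp
  · have hc' : algebraMap K F c ≠ 0 := by simpa using hc
    rw [sup_lt_one_iff_inv _ hc, sup_lt_one_iff_inv _ hc', ← map_inv₀, sup_const_le hA]

private theorem sup_const_eq {A : ValuationSubring K} {O : ValuationSubring F}
    (hA : ∀ c : K, c ∈ A ↔ algebraMap K F c ∈ O) (c : K) :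
    O.valuation (algebraMap K F c) = 1 ↔ A.valuation c = 1 := by
  have h1 := sup_const_le hA c
  have h2 := sup_const_lt hA c
  constructor
  · intro h
    exact le_antisymm (h1.1 h.le) (not_lt.1 fun h3 => absurd (h2.2 h3) (by rw [h]; exact lt_irrefl _))
  · intro h
    exact le_antisymm (h1.2 h.le) (not_lt.1 fun h3 => absurd (h2.1 h3) (by rw [h]; exact lt_irrefl _))

private theorem wildAt_half {A : ValuationSubring K} {O O' : ValuationSubring F}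
    (hA : ∀ c : K, c ∈ A ↔ algebraMap K F c ∈ O) (hA' : ∀ c : K, c ∈ A ↔ algebraMap K F c ∈ O')
    (sc : ∀ f : F, f ≠ 0 → ∃ c : K, O.valuation (algebraMap K F c * f) = 1)
    (sc' : ∀ f : F, f ≠ 0 → ∃ c : K, O'.valuation (algebraMap K F c * f) = 1)
    (arch : ∀ π c : K, c ≠ 0 → π ∈ A → π⁻¹ ∉ A → ∃ n : ℕ, π ^ n * c⁻¹ ∈ A)
    {τ : SemilinearAut K F} (hv : ∀ f : F, O.valuation (τ • f) = O.valuation f)
    {p : ℕ} {Rat : Subfield F} {z0 μ η : K} (hp0 : (p : K) ≠ 0) (hz0 : z0 ≠ 0)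
    (hz_lt : A.valuation z0 < 1) (hz_pow : A.valuation (z0 ^ p * (p : K)⁻¹) = 1)
    (hη : A.valuation η < 1) (hμ : A.valuation (μ * (η ^ p)⁻¹) ≤ 1)
    (hpη : A.valuation ((p : K) * (η ^ (p - 1))⁻¹) < 1)
    {s : F} (hsR : s ∈ Rat) (hsτ : τ • s = s) (hs : O.valuation s = 1)
    (hs' : O'.valuation (s * (p : F)⁻¹) = 1)
    (scale : ∀ u ∈ Rat, u ≠ 0 → ∃ n : ℤ, O.valuation (u * (algebraMap K F z0 ^ n)⁻¹) ≤ 1 ∧
      (O.valuation (u * (algebraMap K F z0 ^ n)⁻¹) = 1 ∨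
        O'.valuation (u * (algebraMap K F z0 ^ n)⁻¹) = 1))
    (diff : ∀ u ∈ Rat, u ∈ O → u ∈ O' → (τ • u - u) * (algebraMap K F μ)⁻¹ ∈ O) :
    WildAt O τ p Rat z0 μ η := by
  have hpF : (p : F) ≠ 0 := by
    have : (p : F) = algebraMap K F (p : K) := by simp
    rw [this]
    exact (map_ne_zero (algebraMap K F)).2 hp0
  have hZ0 : algebraMap K F z0 ≠ 0 := by simpa using hz0
  have hs0 : s ≠ 0 := by
    rintro rfl
    simp at hs
  have hpn : p ≠ 0 := by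
    rintro rfl
    simp at hp0
  -- `|p| < 1`
  have hpA : A.valuation (p : K) < 1 := by
    have h0 : A.valuation (p : K) ≠ 0 := (Valuation.ne_zero_iff _).2 hp0
    rw [map_mul, map_inv₀, map_pow, mul_inv_eq_one₀ h0] at hz_pow
    rw [← hz_pow]
    exact pow_lt_one₀ zero_le hz_lt hpn
  have hpmem : (p : K) ∈ A := (A.valuation_le_one_iff _).1 hpA.le
  have hpinv : (p : K)⁻¹ ∉ A := by
    rw [← A.valuation_le_one_iff]
    exact (sup_lt_one_iff_inv _ hp0).1 hpA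
  have key' : ∀ (u : F) (c₂ : K) (N : ℕ), c₂ ≠ 0 →
      u * s ^ N = (algebraMap K F c₂ * u) * (s * (p : F)⁻¹) ^ N *
        algebraMap K F ((p : K) ^ N * c₂⁻¹) := by
    intro u c₂ N hc₂
    have hc₂' : algebraMap K F c₂ ≠ 0 := by simpa using hc₂
    rw [map_mul, map_inv₀, map_pow, map_natCast, mul_pow, inv_pow]
    field_simp
  refine ⟨hv, (sup_const_lt hA _).2 hz_lt, (sup_const_eq hA _).2 hz_pow, (sup_const_lt hA _).2 hη,
    (sup_const_le hA _).2 hμ, (sup_const_lt hA _).2 hpη, ?_, ?_⟩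
  · -- (h1)
    intro u hu huO
    rcases eq_or_ne u 0 with rfl | hu0
    · simp
    obtain ⟨c₂, hc₂⟩ := sc' u hu0
    have hc₂0 : c₂ ≠ 0 := by
      rintro rfl
      simp at hc₂
    obtain ⟨N, hN⟩ := arch (p : K) c₂ hc₂0 hpmem hpinv
    have hsO : s ∈ O := (O.valuation_le_one_iff _).1 hs.le
    have h1 : u * s ^ N ∈ O := O.mul_mem _ _ huO (O.pow_mem hsO N)
    have h2 : u * s ^ N ∈ O' := by
      rw [key' u c₂ N hc₂0]
      refine O'.mul_mem _ _ (O'.mul_mem _ _ ((O'.valuation_le_one_iff _).1 hc₂.le)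
        (O'.pow_mem ((O'.valuation_le_one_iff _).1 hs'.le) N)) ((hA' _).1 hN)
    have h3 := diff (u * s ^ N) (Rat.mul_mem hu (Rat.pow_mem hsR N)) h1 h2
    rw [smul_mul', smul_pow', hsτ] at h3
    have hsi : s⁻¹ ∈ O := (O.valuation_le_one_iff _).1 (by rw [map_inv₀, hs, inv_one])
    have h4 := O.mul_mem _ _ h3 (O.pow_mem hsi N)
    have e : (τ • u * s ^ N - u * s ^ N) * (algebraMap K F μ)⁻¹ * s⁻¹ ^ N =
        (τ • u - u) * (algebraMap K F μ)⁻¹ := by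
      have : s ^ N ≠ 0 := pow_ne_zero _ hs0
      rw [inv_pow]
      field_simp
    rwa [e] at h4
  · -- (h2)
    intro u hu hu0
    obtain ⟨c₁, hc₁⟩ := sc u hu0
    obtain ⟨c₂, hc₂⟩ := sc' u hu0
    have hc₁0 : c₁ ≠ 0 := by
      rintro rfl
      simp at hc₁
    have hc₂0 : c₂ ≠ 0 := by
      rintro rfl
      simp at hc₂
    obtain ⟨N₀, hN₀⟩ := arch (p : K) (c₂ / c₁) (div_ne_zero hc₂0 hc₁0) hpmem hpinv
    set N := N₀ + 1 with hN
    obtain ⟨n, h1, h3⟩ := scale (u * s ^ N) (Rat.mul_mem hu (Rat.pow_mem hsR N))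
      (mul_ne_zero hu0 (pow_ne_zero _ hs0))
    have hZn : algebraMap K F z0 ^ n ≠ 0 := zpow_ne_zero _ hZ0
    have hc₁' : algebraMap K F c₁ ≠ 0 := by simpa using hc₁0
    -- the `O`-valuation
    have e1 : u * s ^ N * (algebraMap K F z0 ^ n)⁻¹ =
        (algebraMap K F c₁ * u) * s ^ N * algebraMap K F (c₁⁻¹ * (z0 ^ n)⁻¹) := by
      rw [map_mul, map_inv₀, map_inv₀, map_zpow₀]
      field_simp
    have ha : A.valuation (c₁⁻¹ * (z0 ^ n)⁻¹) ≤ 1 := by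
      rw [← sup_const_le hA]
      rw [e1, map_mul, map_mul, hc₁, map_pow, hs, one_pow, one_mul, one_mul] at h1
      exact h1
    have hb : A.valuation ((p : K) ^ N * (c₂ / c₁)⁻¹) < 1 := by
      rw [hN, pow_succ, mul_right_comm, map_mul, mul_comm]
      exact mul_lt_one_of_lt_of_le hpA ((A.valuation_le_one_iff _).2 hN₀)
    have e2 : u * s ^ N * (algebraMap K F z0 ^ n)⁻¹ =
        (algebraMap K F c₂ * u) * (s * (p : F)⁻¹) ^ N *
          algebraMap K F ((p : K) ^ N * (c₂ / c₁)⁻¹ * (c₁⁻¹ * (z0 ^ n)⁻¹)) := by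
      rw [key' u c₂ N hc₂0, mul_assoc _ _ (algebraMap K F z0 ^ n)⁻¹, ← map_zpow₀, ← map_inv₀,
        ← map_mul]
      congr 2
      field_simp
    have h4 : O'.valuation (u * s ^ N * (algebraMap K F z0 ^ n)⁻¹) < 1 := by
      rw [e2, map_mul, map_mul, hc₂, map_pow, hs', one_pow, one_mul, one_mul, sup_const_lt hA',
        map_mul]
      exact mul_lt_one_of_lt_of_le hb ha
    have h5 : O.valuation (u * s ^ N * (algebraMap K F z0 ^ n)⁻¹) = 1 :=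
      h3.resolve_right (ne_of_lt h4)
    refine ⟨n, ?_⟩
    rw [mul_right_comm, map_mul, map_pow, hs, one_pow, mul_one] at h5
    exact h5

private theorem sup_val_eq_one (R : RedData K F k Fb) {y : F} (h : y ∈ R.O)
    (hr : R.red ⟨y, h⟩ ≠ 0) : R.O.valuation y = 1 :=
  (ValuationSubring.valuation_eq_one_iff R.O ⟨y, h⟩).1 ((R.red_ne_zero_iff _).1 hr)

/-- **[SUP]** -/
theorem wildAt_of_sup {T : TwoRed K F k Fb}
    (arch : ∀ π c : K, c ≠ 0 → π ∈ T.A → π⁻¹ ∉ T.A → ∃ n : ℕ, π ^ n * c⁻¹ ∈ T.A)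
    {τ : SemilinearAut K F}
    (hv₁ : ∀ f : F, T.R₁.O.valuation (τ • f) = T.R₁.O.valuation f)
    (hv₂ : ∀ f : F, T.R₂.O.valuation (τ • f) = T.R₂.O.valuation f)
    {p : ℕ} {Rat : Subfield F} {z0 μ η : K} (hp0 : (p : K) ≠ 0) (hz0 : z0 ≠ 0) (hμ0 : μ ≠ 0)
    (hz_lt : T.A.valuation z0 < 1) (hz_pow : T.A.valuation (z0 ^ p * (p : K)⁻¹) = 1)
    (hη : T.A.valuation η < 1) (hμ : T.A.valuation (μ * (η ^ p)⁻¹) ≤ 1)
    (hpη : T.A.valuation ((p : K) * (η ^ (p - 1))⁻¹) < 1)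
    {s : F} (hsR : s ∈ Rat) (hsτ : τ • s = s) (hs₁ : T.R₁.O.valuation s = 1)
    (hs₂ : T.R₂.O.valuation (s * (p : F)⁻¹) = 1) (S : SupData T τ Rat z0 μ) :
    WildAt T.R₁.O τ p Rat z0 μ η ∧ WildAt T.R₂.O τ p Rat z0 μ η := by
  have hA₁ : ∀ c : K, c ∈ T.A ↔ algebraMap K F c ∈ T.R₁.O := fun _ => Iff.rfl
  have hA₂ : ∀ c : K, c ∈ T.A ↔ algebraMap K F c ∈ T.R₂.O := fun c => T.const_mem c
  have sc₁ : ∀ f : F, f ≠ 0 → ∃ c : K, T.R₁.O.valuation (algebraMap K F c * f) = 1 := by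
    intro f hf
    obtain ⟨c, h, hr⟩ := T.R₁.exists_scale f hf
    exact ⟨c, sup_val_eq_one T.R₁ h hr⟩
  have sc₂ : ∀ f : F, f ≠ 0 → ∃ c : K, T.R₂.O.valuation (algebraMap K F c * f) = 1 := by
    intro f hf
    obtain ⟨c, h, hr⟩ := T.R₂.exists_scale f hf
    exact ⟨c, sup_val_eq_one T.R₂ h hr⟩
  have hsc : ∀ u ∈ Rat, u ≠ 0 → ∃ n : ℤ,
      T.R₁.O.valuation (u * (algebraMap K F z0 ^ n)⁻¹) ≤ 1 ∧
      T.R₂.O.valuation (u * (algebraMap K F z0 ^ n)⁻¹) ≤ 1 ∧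
      (T.R₁.O.valuation (u * (algebraMap K F z0 ^ n)⁻¹) = 1 ∨
        T.R₂.O.valuation (u * (algebraMap K F z0 ^ n)⁻¹) = 1) := by
    intro u hu hu0
    obtain ⟨n, h, hr⟩ := S.scale u hu hu0
    refine ⟨n, (T.R₁.O.valuation_le_one_iff _).2 h.1, (T.R₂.O.valuation_le_one_iff _).2 h.2, ?_⟩
    by_cases h1 : (T.red ⟨_, h⟩).1 = 0
    · right
      refine sup_val_eq_one T.R₂ h.2 fun h2 => hr (Prod.ext h1 h2)
    · left
      exact sup_val_eq_one T.R₁ h.1 h1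
  have hpF : (p : F) ≠ 0 := by
    have : (p : F) = algebraMap K F (p : K) := by simp
    rw [this]
    exact (map_ne_zero (algebraMap K F)).2 hp0
  have hs0 : s ≠ 0 := by
    rintro rfl
    simp at hs₁
  refine ⟨wildAt_half hA₁ hA₂ sc₁ sc₂ arch hv₁ hp0 hz0 hz_lt hz_pow hη hμ hpη hsR hsτ hs₁ hs₂
    (fun u hu hu0 => by
      obtain ⟨n, h1, -, h3⟩ := hsc u hu hu0
      exact ⟨n, h1, h3⟩)
    (fun u hu h1 h2 => (S.diff u hu ⟨h1, h2⟩).1),
    wildAt_half (s := (p : F) * s⁻¹) hA₂ hA₁ sc₂ sc₁ arch hv₂ hp0 hz0 hz_lt hz_pow hη hμ hpη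
      (Rat.mul_mem (natCast_mem Rat p) (Rat.inv_mem hsR)) ?_ ?_ ?_
    (fun u hu hu0 => by
      obtain ⟨n, -, h2, h3⟩ := hsc u hu hu0
      exact ⟨n, h2, h3.symm⟩)
    (fun u hu h2 h1 => (S.diff u hu ⟨h1, h2⟩).2)⟩
  · have e : τ • (p : F) = (p : F) := by
      have : (p : F) = algebraMap K F (p : K) := by simp
      rw [this, SemilinearAut.smul_algebraMap, map_natCast]
    rw [smul_mul', smul_inv'', hsτ, e]
  · have e : (p : F) * s⁻¹ = (s * (p : F)⁻¹)⁻¹ := by rw [mul_inv, inv_inv, mul_comm]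
    rw [e, map_inv₀, hs₂, inv_one]
  · have e : (p : F) * s⁻¹ * (p : F)⁻¹ = s⁻¹ := by field_simp
    rw [e, map_inv₀, hs₁, inv_one]

end Fermat.Agent.SSP
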