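import Fermat.Agent.SS.Z1.Normal
import Fermat.Agent.S36.F0.Descent
import Fermat.Prelude.Def_AlgebraicCurve_BaseChangeGalois

/-!
# SSP / [RATON] : rational normal forms with respect to a rational orthonormal basis

`R : SemiRed π F Λ` with an orthonormal basis `w` of `F` over `L(t)` (`SS/Z1/Semi.lean`, `Normal.lean`).
`g a` (`a : κ`) semilinear automorphisms of `F / L` fixing `t` and the `w i` ("the basis is rational").
`L' := {c ∈ L | ∀ a, baseAut (g a) c = c}`.

## `exists_rat_rep`
`y ∈ F` fixed by all `g a`.  `V := L[X] × (ι → L[X])` with the coefficientwise semilinear maps; it is spanned by its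
invariants (monomials).  `W := {(G, f) | aeval t G * y = ∑ aeval t (f i) * w i}` is a stable subspace, `W ≠ 0`
(`IsON.span`), so by `S36.span_invariants_of_stable` it contains an invariant `(G, f) ≠ 0`; `G ≠ 0` because
`G = 0 ⟹ f = 0` (`IsOrtho.eq_zero_of_sum_eq_zero`).

## `exists_rat_scale`
Normalise `G` and `f` by a coefficient of maximal valuation (`SS.exists_pivot_val`): these coefficients are in `L'`.
Then copy the proof of `IsON.exists_normalForm'` / `IsON.hasScale`.

## `rat_diff`
`τ` one more semilinear automorphism fixing `t`, `w i`, preserving `A`; (K3): `(τ c - c) / μ ∈ A` for `c ∈ A ∩ L'`.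
`y ∈ O` fixed by the `g a`: `y = N / D`, `N = cmb t w p`, `D = evF t P`, `p i, P ∈ A[X]` with coefficients in `L'`,
`P.map π ≠ 0` (as in `exists_rat_scale`; the scaling constant is in `A` by `mem_O_iff_of_scale`, absorb it in `p`).
`τ y - y = ((τ N - N) D - N (τ D - D)) / (D τ D)`; `τ N - N = μ cmb t w p'`, `τ D - D = μ evF t P'` with `p', P'` integral;
`D`, `τ D = evF t (τ P)` are units of `O` (`IsOrtho.inv_evF_mem`; `(τ P).map π ≠ 0` because `τ` preserves the units of `A`).
-/

set_option autoImplicit false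

open Polynomial AlgebraicCurve

namespace Fermat.Agent.SSP

open Fermat.Agent.SS Fermat.Agent.RED.Gauss

variable {L : Type*} [Field L] {A : ValuationSubring L} {k : Type*} [Field k] {π : A →+* k}
  {F : Type*} [Field F] [Algebra L F] {Λ : Type*} [CommRing Λ] [Algebra k Λ] [Nontrivial Λ]
  {R : SemiRed π F Λ} {ι : Type*} [Fintype ι] {t : F} {w : ι → F}

omit [Nontrivial Λ] [Fintype ι] in
/-- a semilinear automorphism acts on `aeval t G` through the coefficients -/
theorem smul_aeval (g : SemilinearAut L F) (t : F) (G : L[X]) :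
    g • aeval t G = aeval (g • t) (G.map ((SemilinearAut.baseAut g : L ≃+* L) : L →+* L)) := by
  induction G using Polynomial.induction_on' with
  | add p q hp hq => rw [map_add, smul_add, hp, hq, Polynomial.map_add, map_add]
  | monomial n c =>
    rw [aeval_monomial, smul_mul', smul_pow', SemilinearAut.smul_algebraMap,
      Polynomial.map_monomial, aeval_monomial]
    rfl

/-- simultaneous normalisation of finitely many polynomials by one of their coefficients -/
theorem exists_normalize_coeff (π : A →+* k) (f : ι → L[X]) (hf : ∃ i, f i ≠ 0) :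
    ∃ (c : L) (p : ι → A[X]), c ≠ 0 ∧ (∃ i n, c = (f i).coeff n) ∧
      (∀ i, (p i).map A.subtype = C c⁻¹ * f i) ∧ ∃ i, (p i).map π ≠ 0 := by
  classical
  set S : Finset L := Finset.univ.biUnion (fun i => (f i).coeffs) with hS
  have hSne : S.Nonempty := by
    obtain ⟨i, hi⟩ := hf
    refine ⟨(f i).leadingCoeff, ?_⟩
    rw [hS, Finset.mem_biUnion]
    exact ⟨i, Finset.mem_univ _, Polynomial.coeff_mem_coeffs (by
      rw [Polynomial.coeff_natDegree]; exact Polynomial.leadingCoeff_ne_zero.mpr hi)⟩
  obtain ⟨c, hcS, hmax⟩ := Finset.exists_max_image S A.valuation hSne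
  rw [hS, Finset.mem_biUnion] at hcS
  obtain ⟨i₀, _, hi₀⟩ := hcS
  rw [Polynomial.mem_coeffs_iff] at hi₀
  obtain ⟨n₀, hn₀, hcn⟩ := hi₀
  have hc0 : c ≠ 0 := by
    rw [hcn]
    exact Polynomial.mem_support_iff.mp hn₀
  have hmem : ∀ i n, c⁻¹ * (f i).coeff n ∈ A := by
    intro i n
    by_cases h0 : (f i).coeff n = 0
    · rw [h0, mul_zero]; exact A.zero_mem
    · have hin : (f i).coeff n ∈ S := by
        rw [hS, Finset.mem_biUnion]
        exact ⟨i, Finset.mem_univ _, Polynomial.coeff_mem_coeffs h0⟩
      rw [← A.valuation_le_one_iff, map_mul, map_inv₀]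
      have hv : A.valuation c ≠ 0 := (Valuation.ne_zero_iff _).mpr hc0
      rw [inv_mul_le_iff₀ (zero_lt_iff.mpr hv), mul_one]
      exact hmax _ hin
  have hl : ∀ i, C c⁻¹ * f i ∈ Polynomial.lifts A.subtype := by
    intro i
    rw [Polynomial.lifts_iff_coeff_lifts]
    intro n
    rw [Polynomial.coeff_C_mul]
    exact ⟨⟨_, hmem i n⟩, rfl⟩
  choose p hp using fun i => (Polynomial.mem_lifts _).mp (hl i)
  refine ⟨c, p, hc0, ⟨i₀, n₀, hcn⟩, hp, i₀, fun h0 => ?_⟩
  have h1 : ((p i₀).coeff n₀ : L) = 1 := by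
    have := congrArg (fun q => q.coeff n₀) (hp i₀)
    simp only [Polynomial.coeff_map, Polynomial.coeff_C_mul] at this
    rw [← hcn, inv_mul_cancel₀ hc0] at this
    exact this
  have h2 : (p i₀).coeff n₀ = 1 := Subtype.ext h1
  have h3 := congrArg (fun q => q.coeff n₀) h0
  simp only [Polynomial.coeff_map, h2, map_one, Polynomial.coeff_zero] at h3
  exact one_ne_zero h3

/-- the coefficientwise action on `L[X] × (ι → L[X])` -/
private noncomputable def coeffAct (ι : Type*) (σ : L →+* L) : L[X] × (ι → L[X]) →+ L[X] × (ι → L[X]) where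
  toFun v := (v.1.map σ, fun i => (v.2 i).map σ)
  map_zero' := by
    ext1
    · simp
    · funext i; simp
  map_add' u v := by
    ext1
    · simp
    · funext i; simp

/-- **[RATON-1]** -/
theorem exists_rat_rep (H : R.IsON t w) {κ : Type*} (g : κ → SemilinearAut L F)
    (ht : ∀ a, g a • t = t) (hw : ∀ a i, g a • w i = w i) {y : F} (hy : ∀ a, g a • y = y) :
    ∃ (G : L[X]) (f : ι → L[X]), G ≠ 0 ∧
      (∀ a, G.map ((SemilinearAut.baseAut (g a) : L ≃+* L) : L →+* L) = G) ∧
      (∀ a i, (f i).map ((SemilinearAut.baseAut (g a) : L ≃+* L) : L →+* L) = f i) ∧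
      aeval t G * y = ∑ i, aeval t (f i) * w i := by
  classical
  let sK : κ → L →+* L := fun a => ((SemilinearAut.baseAut (g a) : L ≃+* L) : L →+* L)
  let W : Submodule L (L[X] × (ι → L[X])) :=
    { carrier := {v | aeval t v.1 * y = ∑ i, aeval t (v.2 i) * w i}
      zero_mem' := by simp
      add_mem' := by
        intro u v hu hv
        simp only [Set.mem_ofPred_eq, Prod.fst_add, Prod.snd_add, Pi.add_apply, map_add, add_mul,
          Finset.sum_add_distrib] at hu hv ⊢
        rw [hu, hv]
      smul_mem' := by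
        intro c v hv
        simp only [Set.mem_ofPred_eq, Prod.smul_fst, Prod.smul_snd, Pi.smul_apply, map_smul,
          smul_mul_assoc] at hv ⊢
        rw [hv, Finset.smul_sum] }
  have hsl : ∀ (a : κ) (c : L) (v : L[X] × (ι → L[X])),
      coeffAct ι (sK a) (c • v) = sK a c • coeffAct ι (sK a) v := by
    intro a c v
    ext1
    · simp [coeffAct, Polynomial.smul_eq_C_mul]
    · funext i
      simp [coeffAct, Polynomial.smul_eq_C_mul]
  have hspan : Submodule.span L {v : L[X] × (ι → L[X]) | ∀ a, coeffAct ι (sK a) v = v} = ⊤ := by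
    rw [eq_top_iff]
    rintro ⟨G, f⟩ -
    have h1 : ∀ G : L[X], ((G, 0) : L[X] × (ι → L[X])) ∈
        Submodule.span L {v : L[X] × (ι → L[X]) | ∀ a, coeffAct ι (sK a) v = v} := by
      intro G
      induction G using Polynomial.induction_on' with
      | add p q hp hq =>
        have : ((p + q, 0) : L[X] × (ι → L[X])) = (p, 0) + (q, 0) := by simp
        rw [this]
        exact Submodule.add_mem _ hp hq
      | monomial n c =>
        have : ((monomial n c, 0) : L[X] × (ι → L[X])) = c • ((X ^ n, 0) : L[X] × (ι → L[X])) := by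
          ext1
          · simp [Polynomial.smul_eq_C_mul, Polynomial.C_mul_X_pow_eq_monomial]
          · simp
        rw [this]
        refine Submodule.smul_mem _ _ (Submodule.subset_span fun a => ?_)
        ext1
        · simp [coeffAct]
        · funext i; simp [coeffAct]
    have h2 : ∀ (i : ι) (G : L[X]), ((0, Pi.single i G) : L[X] × (ι → L[X])) ∈
        Submodule.span L {v : L[X] × (ι → L[X]) | ∀ a, coeffAct ι (sK a) v = v} := by
      intro i G
      induction G using Polynomial.induction_on' with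
      | add p q hp hq =>
        have : ((0, Pi.single i (p + q)) : L[X] × (ι → L[X])) =
            (0, Pi.single i p) + (0, Pi.single i q) := by
          simp [Pi.single_add]
        rw [this]
        exact Submodule.add_mem _ hp hq
      | monomial n c =>
        have : ((0, Pi.single i (monomial n c)) : L[X] × (ι → L[X])) =
            c • ((0, Pi.single i (X ^ n)) : L[X] × (ι → L[X])) := by
          ext1
          · simp
          · funext j
            by_cases hj : j = i
            · subst hj
              simp [Polynomial.smul_eq_C_mul, Polynomial.C_mul_X_pow_eq_monomial]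
            · simp [Pi.single_eq_of_ne hj]
        rw [this]
        refine Submodule.smul_mem _ _ (Submodule.subset_span fun a => ?_)
        ext1
        · simp [coeffAct]
        · funext j
          by_cases hj : j = i
          · subst hj
            simp [coeffAct]
          · simp [coeffAct, Pi.single_eq_of_ne hj]
    have h3 : ((G, f) : L[X] × (ι → L[X])) = (G, 0) + ∑ i, (0, Pi.single i (f i)) := by
      ext1
      · simp [Prod.fst_sum]
      · simp [Prod.snd_sum, Finset.univ_sum_single]
    rw [h3]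
    exact Submodule.add_mem _ (h1 G) (Submodule.sum_mem _ fun i _ => h2 i (f i))
  have hW : ∀ a, ∀ v ∈ W, coeffAct ι (sK a) v ∈ W := by
    intro a v hv
    have h1 : aeval t v.1 * y = ∑ i, aeval t (v.2 i) * w i := hv
    have h2 := congrArg (fun z => g a • z) h1
    simp only [smul_mul', Finset.smul_sum, smul_aeval, ht, hy, hw] at h2
    exact h2
  have key := Fermat.Agent.S36.span_invariants_of_stable sK (fun a => coeffAct ι (sK a)) hsl hspan
    W hW
  obtain ⟨g₀, f₀, hg₀, hgf₀⟩ := H.span y
  have hmem : ((g₀, f₀) : L[X] × (ι → L[X])) ∈ W := hgf₀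
  -- there is a nonzero invariant
  have hex : ∃ v : L[X] × (ι → L[X]), v ∈ W ∧ (∀ a, coeffAct ι (sK a) v = v) ∧ v ≠ 0 := by
    by_contra hcon
    push Not at hcon
    have h0 : Submodule.span L {v : L[X] × (ι → L[X]) | v ∈ W ∧ ∀ a, coeffAct ι (sK a) v = v}
        = ⊥ := by
      rw [Submodule.span_eq_bot]
      exact fun v hv => hcon v hv.1 hv.2
    rw [h0] at key
    rw [← key, Submodule.mem_bot] at hmem
    exact hg₀ (congrArg Prod.fst hmem)
  obtain ⟨⟨G, f⟩, hv, hinv, hne⟩ := hex
  have hGf : aeval t G * y = ∑ i, aeval t (f i) * w i := hv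
  refine ⟨G, f, ?_, fun a => congrArg Prod.fst (hinv a),
    fun a i => congrFun (congrArg Prod.snd (hinv a)) i, hGf⟩
  rintro rfl
  apply hne
  rw [map_zero, zero_mul] at hGf
  have := H.toIsOrtho.eq_zero_of_sum_eq_zero hGf.symm
  ext1
  · rfl
  · funext i
    exact this i

/-- **rational normal form**: `y * evF t P = c * cmb t w p` with `c` and all the coefficients of
`P`, `p i` fixed by the `g a`. -/
theorem exists_rat_normalForm (H : R.IsON t w) {κ : Type*} (g : κ → SemilinearAut L F)
    (ht : ∀ a, g a • t = t) (hw : ∀ a i, g a • w i = w i) {y : F} (hy : ∀ a, g a • y = y)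
    (hy0 : y ≠ 0) :
    ∃ (c : L) (P : A[X]) (p : ι → A[X]), c ≠ 0 ∧ (∀ a, SemilinearAut.baseAut (g a) c = c) ∧
      P.map π ≠ 0 ∧ (∃ i, (p i).map π ≠ 0) ∧
      (∀ a n, SemilinearAut.baseAut (g a) ((P.coeff n : A) : L) = ((P.coeff n : A) : L)) ∧
      (∀ a i n, SemilinearAut.baseAut (g a) (((p i).coeff n : A) : L) = (((p i).coeff n : A) : L)) ∧
      y * SemiRed.evF t P = algebraMap L F c * SemiRed.cmb t w p := by
  obtain ⟨G, f, hG, hGinv, hfinv, hGf⟩ := exists_rat_rep H g ht hw hy
  have hf : ∃ i, f i ≠ 0 := by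
    by_contra hcon
    push Not at hcon
    have : aeval t G * y = 0 := by
      rw [hGf]; exact Finset.sum_eq_zero fun i _ => by rw [hcon i]; simp
    exact (mul_ne_zero (H.toIsOrtho.aeval_ne_zero hG) hy0) this
  have hGc : ∀ a n, SemilinearAut.baseAut (g a) (G.coeff n) = G.coeff n := by
    intro a n
    have := congrArg (fun q => q.coeff n) (hGinv a)
    simpa using this
  have hfc : ∀ a i n, SemilinearAut.baseAut (g a) ((f i).coeff n) = (f i).coeff n := by
    intro a i n
    have := congrArg (fun q => q.coeff n) (hfinv a i)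
    simpa using this
  obtain ⟨c, P, hc, ⟨_, n₁, hcn⟩, hP, ⟨_, hPne⟩⟩ :=
    exists_normalize_coeff π (fun _ : Unit => G) ⟨(), hG⟩
  obtain ⟨c', p, hc', ⟨i₂, n₂, hcn'⟩, hp, hpne⟩ := exists_normalize_coeff π f hf
  have hcfix : ∀ a, SemilinearAut.baseAut (g a) c = c := fun a => by rw [hcn]; exact hGc a n₁
  have hcfix' : ∀ a, SemilinearAut.baseAut (g a) c' = c' := fun a => by
    rw [hcn']; exact hfc a i₂ n₂
  have hPcoe : ∀ n, (((P ()).coeff n : A) : L) = c⁻¹ * G.coeff n := by
    intro n
    have := congrArg (fun q => q.coeff n) (hP ())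
    simpa using this
  have hpcoe : ∀ i n, (((p i).coeff n : A) : L) = c'⁻¹ * (f i).coeff n := by
    intro i n
    have := congrArg (fun q => q.coeff n) (hp i)
    simpa using this
  have h1 : aeval t G = algebraMap L F c * SemiRed.evF t (P ()) := by
    rw [SemiRed.evF, hP (), map_mul, aeval_C, ← mul_assoc, ← map_mul, mul_inv_cancel₀ hc, map_one,
      one_mul]
  have h2 : ∑ i, aeval t (f i) * w i = algebraMap L F c' * SemiRed.cmb t w p := by
    rw [SemiRed.cmb, Finset.mul_sum]
    refine Finset.sum_congr rfl fun i _ => ?_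
    rw [SemiRed.evF, hp i, map_mul, aeval_C, ← mul_assoc, ← mul_assoc, ← map_mul,
      mul_inv_cancel₀ hc', map_one, one_mul]
  refine ⟨c⁻¹ * c', P (), p, mul_ne_zero (inv_ne_zero hc) hc', fun a => ?_, hPne, hpne,
    fun a n => ?_, fun a i n => ?_, ?_⟩
  · rw [map_mul, map_inv₀, hcfix, hcfix']
  · rw [hPcoe, map_mul, map_inv₀, hcfix, hGc]
  · rw [hpcoe, map_mul, map_inv₀, hcfix', hfc]
  · rw [h1, h2] at hGf
    have hcL : algebraMap L F c ≠ 0 := by rw [Ne, map_eq_zero]; exact hc
    rw [map_mul, map_inv₀, mul_assoc, ← hGf]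
    field_simp

/-- **[RATON-2]** the scaling constant of a rational function can be chosen rational. -/
theorem exists_rat_scale (H : R.IsON t w) {κ : Type*} (g : κ → SemilinearAut L F)
    (ht : ∀ a, g a • t = t) (hw : ∀ a i, g a • w i = w i) {y : F} (hy : ∀ a, g a • y = y)
    (hy0 : y ≠ 0) :
    ∃ (c : L) (y' : F), c ≠ 0 ∧ (∀ a, SemilinearAut.baseAut (g a) c = c) ∧ y' ∈ R.O ∧
      R.rd y' ≠ 0 ∧ y = algebraMap L F c * y' := by
  obtain ⟨c, P, p, hc, hcfix, hP, hp, -, -, h⟩ := exists_rat_normalForm H g ht hw hy hy0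
  have hcL : algebraMap L F c ≠ 0 := by rw [Ne, map_eq_zero]; exact hc
  have h2 : (algebraMap L F c)⁻¹ * y * SemiRed.evF t P = SemiRed.cmb t w p := by
    rw [mul_assoc, h, inv_mul_cancel_left₀ hcL]
  have hz := R.cmb_mem H.t_mem H.w_mem p
  refine ⟨c, (algebraMap L F c)⁻¹ * y, hc, hcfix, H.toIsOrtho.mem_of_mul_evF_eq hP hz h2, ?_,
    by rw [mul_inv_cancel_left₀ hcL]⟩
  intro h0
  have := H.toIsOrtho.rd_mul_aeval_eq hP hz h2
  rw [h0, zero_mul] at this
  exact H.toIsOrtho.rd_cmb_ne_zero hp this.symm

/-! `rat_diff` : see `SSP/RatDiff.lean` (`rat_diff_aux`). -/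

end Fermat.Agent.SSP
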