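import Fermat.Agent.S36.K0

/-!
# SSP / [ARITH] : the constants `z0`, `μ`, `η` of the first difference method

`A` a valuation ring of `Qbar` over the odd prime `p`, `I = A.inertiaSubgroupIn ℚ`, `K₀ = Qbar^I`,
`H' ≤ I` a subgroup, `τ ∈ I` such that `I = ⋃_{i < p} τ ^ i H'`  (in the application `H' = Stab_I(x)`,
the orbit of `x` has `p` elements, `τ` fixes `ζ_p` and moves `x`), `K' = Qbar^{H'}`.
WITNESS (E''): `b ∈ A ∩ K'` with `v(ζ - 1) ≤ v(τ b - b)` (multiplicative valuation), i.e.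
`τ b - b ∉ (ζ - 1) 𝔪_A`.   `|x|` denotes `A.valuation x`, `λ = ζ - 1`, `|λ| ^ (p - 1) = |p|`.

## `exists_z0`
`w ∈ K₀` with `|b - w| < 1` (`S36.exists_inertia_fixed_residue`), `z0 := b - w`, `μ := τ z0 - z0 = τ b - b`,
`η := μ / z0`.
* `|λ| ≤ |μ| ≤ |z0| < 1` (`I` preserves the valuation: `SS.map_mem_iff_of_mem_decomposition` or
  `S36`/`Common` lemmas); in particular `μ ≠ 0`, `z0 ≠ 0`.
* (K1) `N := ∏_{i < p} τ ^ i z0` is `I`-fixed (`g ∈ I` permutes the cosets `τ ^ i H'` and `z0` is `H'`-fixed),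
  `|N| = |z0| ^ p`, `|N| = |p| ^ n` (`S36.exists_zpow_of_inertia_fixed`), `n ≥ 1` as `|z0| < 1`, and
  `|p| ^ n = |z0| ^ p ≥ |λ| ^ p = |p| |λ| > |p| ^ 2` (`p ≥ 3`), so `n = 1`.
* `η ∈ 𝔪` : `z0 ^ p = p u`, `u` a unit, `(1 + η) ^ p = τ (z0 ^ p) / z0 ^ p = τ u / u ≡ 1 mod 𝔪` (`τ ∈ I`); the residue
  field has characteristic `p`, so `η ^ p ≡ 0`.
* `|μ / η ^ p| = |z0 ^ p / μ ^ (p-1)| = |p| / |μ| ^ (p-1) ≤ |p| / |λ| ^ (p-1) = 1`.
* `|p / η ^ (p-1)| = (|p| / |μ| ^ (p-1)) |z0| ^ (p-1) < 1`.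
* the `τ ^ i z0`, `i < p`, are distinct: the `I`-orbit `Ω` of `z0` is `{τ ^ i z0}`; `∏_Ω` is `I`-fixed of absolute value
  `|z0| ^ #Ω = |p| ^ m`; with `|z0| ^ p = |p|` : `#Ω = p m`, so `#Ω = p`.

## `scale_of_z0`, `diff_of_z0`  ((K2), (K3))
`c ∈ K'`.  LAGRANGE: the polynomial `L` of degree `< p` with `L(τ ^ i z0) = τ ^ i c` (`Lagrange.interpolate`)
has `I`-fixed coefficients (apply `g ∈ I` : `g τ ^ i = τ ^ j h`, so `g L` interpolates the same data; uniqueness).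
So `c = ∑_{j < p} c_j z0 ^ j`, `c_j ∈ K₀`, `|c_j| ∈ |p| ^ ℤ = |z0| ^ (p ℤ)` or `c_j = 0` : the nonzero terms have pairwise
distinct absolute values `|z0| ^ (p a_j + j)`, so `|c|` is the largest one: (K2).  If `|c| ≤ 1` every term is `≤ 1`,
hence `|c_j| ≤ 1` (`p a_j + j ≥ 0`, `0 ≤ j < p` ⟹ `a_j ≥ 0`) and
`τ c - c = ∑ c_j ((z0 + μ) ^ j - z0 ^ j) ∈ μ A` : (K3).
-/

set_option autoImplicit false

namespace Fermat.Agent.SSP

local notation "Qbar" => AlgebraicClosure ℚ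
local notation "GQ" => (AlgebraicClosure ℚ ≃ₐ[ℚ] AlgebraicClosure ℚ)

variable {A : ValuationSubring Qbar} {p : ℕ}

/-- the properties of `z0` (constants only) -/
structure IsZ0 (A : ValuationSubring Qbar) (p : ℕ) (H' : Subgroup GQ) (τ : GQ) (z0 : Qbar) :
    Prop where
  fix : ∀ h ∈ H', h z0 = z0
  ne : z0 ≠ 0
  lt : A.valuation z0 < 1
  pow : A.valuation (z0 ^ p * (p : Qbar)⁻¹) = 1
  μ_ne : τ z0 - z0 ≠ 0
  η_lt : A.valuation ((τ z0 - z0) * z0⁻¹) < 1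
  μ_le : A.valuation ((τ z0 - z0) * ((((τ z0 - z0) * z0⁻¹)) ^ p)⁻¹) ≤ 1
  p_lt : A.valuation ((p : Qbar) * ((((τ z0 - z0) * z0⁻¹)) ^ (p - 1))⁻¹) < 1
  inj : ∀ i < p, ∀ j < p, (τ ^ i) z0 = (τ ^ j) z0 → i = j

/-! The theorems are in `SSP/Arith1.lean` (`exists_z0_aux`, with the extra hypothesis `hdist`) and
`SSP/Arith2.lean` (`scale_of_z0_aux`, `diff_of_z0_aux`). -/

end Fermat.Agent.SSP
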