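import Fermat.Agent.SSP.Wild

/-!
# SSP / [CALC] : the first difference calculus (J1)-(J4) for ONE valuation ring

Notation: `g(u) = τ u / u`, `c⋆ = η ^ p`, `𝔪` the maximal ideal of `O`.
Facts on the constants (from `WildAt`): `η ∈ 𝔪`, `μ / c⋆ ∈ O`, `p / η ^ (p-1) ∈ 𝔪`, `z0 ∈ 𝔪`,
`μ = η z0`, hence `p μ / c⋆ = (p / η ^ (p-1)) z0 ∈ 𝔪` and `μ ^ p / c⋆ = z0 ^ p ∈ 𝔪`.

* (J1) `u ∈ Rat` a unit of `O` : `g(u) = 1 + μ y`, `y = ((τ u - u) / μ) / u ∈ O` (`diff`), so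
  `g(u) ^ p = 1 + (μ y) ^ p + p (μ y) r` (`exists_add_pow_prime_eq`) `∈ 1 + c⋆ 𝔪`.
* (J2) `(1 + η) ^ p = 1 + η ^ p + p η r ∈ 1 + c⋆ + c⋆ 𝔪`.
* (J3) = `pow_diff` : `h = z0 ^ n u`, `g(h) ^ p = ((1 + η) ^ p) ^ n g(u) ^ p`, and
  `X ∈ 1 + c⋆ + c⋆ 𝔪 ⟹ X ^ n ∈ 1 + n c⋆ + c⋆ 𝔪` for `n : ℤ` (induction; `c⋆ ∈ 𝔪`).
* (J4) = `unit_diff` : `(g(U) - 1) / c⋆ = (μ / c⋆) ((τ U - U) / μ) / U`.
-/

set_option autoImplicit false

open AlgebraicCurve

namespace Fermat.Agent.SSP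

open Fermat.Agent.RED Fermat.Agent.S24 Fermat.Agent.SS

namespace Calc

variable {F : Type*} [Field F] (O : ValuationSubring F)

lemma lt_add {x y : F} (hx : O.valuation x < 1) (hy : O.valuation y < 1) :
    O.valuation (x + y) < 1 := Valuation.map_add_lt _ hx hy

lemma lt_mul {x y : F} (hx : O.valuation x < 1) (hy : y ∈ O) : O.valuation (x * y) < 1 := by
  rw [map_mul]
  calc O.valuation x * O.valuation y ≤ O.valuation x * 1 :=
        mul_le_mul' le_rfl ((O.valuation_le_one_iff y).2 hy)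
    _ < 1 := by rwa [mul_one]

lemma lt_mul' {x y : F} (hy : y ∈ O) (hx : O.valuation x < 1) : O.valuation (y * x) < 1 := by
  rw [mul_comm]; exact lt_mul O hx hy

lemma mem_of_lt {x : F} (hx : O.valuation x < 1) : x ∈ O :=
  (O.valuation_le_one_iff x).1 hx.le

/-- `X ∈ 1 + t c + c 𝔪` -/
def Cg (c X t : F) : Prop := ∃ ε, O.valuation ε < 1 ∧ X = 1 + t * c + c * ε

variable {O}

lemma Cg.mul {c X Y s t : F} (hc : O.valuation c < 1) (hs : s ∈ O) (ht : t ∈ O)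
    (hX : Cg O c X s) (hY : Cg O c Y t) : Cg O c (X * Y) (s + t) := by
  obtain ⟨ε, hε, rfl⟩ := hX
  obtain ⟨δ, hδ, rfl⟩ := hY
  refine ⟨ε + δ + c * ((s + ε) * (t + δ)), ?_, by ring⟩
  exact lt_add O (lt_add O hε hδ) (lt_mul O hc
    (O.mul_mem _ _ (O.add_mem _ _ hs (mem_of_lt O hε)) (O.add_mem _ _ ht (mem_of_lt O hδ))))

lemma Cg.one (c : F) : Cg O c 1 0 := ⟨0, by simp, by ring⟩

lemma Cg.val_eq_one {c X s : F} (hc : O.valuation c < 1) (hs : s ∈ O) (hX : Cg O c X s) :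
    O.valuation X = 1 := by
  obtain ⟨ε, hε, rfl⟩ := hX
  have h1 : O.valuation (s * c + c * ε) < 1 :=
    lt_add O (lt_mul' O hs hc) (lt_mul O hc (mem_of_lt O hε))
  rw [add_assoc, add_comm]
  have := Valuation.map_add_eq_of_lt_right O.valuation (x := s * c + c * ε) (y := 1)
    (by rwa [map_one])
  rw [this, map_one]

lemma Cg.inv {c X s : F} (hc : O.valuation c < 1) (hs : s ∈ O) (hX : Cg O c X s) :
    Cg O c X⁻¹ (-s) := by
  have hv := hX.val_eq_one hc hs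
  have hX0 : X ≠ 0 := by
    rintro rfl
    simp at hv
  obtain ⟨ε, hε, hXe⟩ := hX
  refine ⟨(-ε + s * (c * (s + ε))) * X⁻¹, ?_, ?_⟩
  · apply lt_mul O
    · refine lt_add O (by rwa [Valuation.map_neg]) (lt_mul' O hs (lt_mul O hc
        (O.add_mem _ _ hs (mem_of_lt O hε))))
    · rw [← O.valuation_le_one_iff, map_inv₀, hv, inv_one]
  · field_simp
    rw [hXe]
    ring

lemma Cg.pow {c X s : F} (hc : O.valuation c < 1) (hs : s ∈ O) (hX : Cg O c X s) (n : ℕ) :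
    Cg O c (X ^ n) (n * s) := by
  induction n with
  | zero => simpa using Cg.one c
  | succ n ih =>
    rw [pow_succ]
    have := ih.mul hc (O.mul_mem _ _ (natCast_mem O n) hs) hs hX
    convert this using 1
    push_cast; ring

lemma Cg.zpow {c X s : F} (hc : O.valuation c < 1) (hs : s ∈ O) (hX : Cg O c X s) (n : ℤ) :
    Cg O c (X ^ n) (n * s) := by
  cases n with
  | ofNat n => simpa using hX.pow hc hs n
  | negSucc n =>
    rw [zpow_negSucc]
    have := (hX.pow hc hs (n + 1)).inv hc (O.mul_mem _ _ (natCast_mem O _) hs)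
    convert this using 1
    push_cast; ring

/-- `(1 + x) ^ p = 1 + x ^ p + p x r` with `r ∈ O` -/
lemma exists_one_add_pow {p : ℕ} (hp : p.Prime) {x : F} (hx : x ∈ O) :
    ∃ r ∈ O, (1 + x) ^ p = 1 + x ^ p + p * x * r := by
  obtain ⟨r, hr⟩ := exists_add_pow_prime_eq hp (1 : O) ⟨x, hx⟩
  refine ⟨r, r.2, ?_⟩
  have := congrArg (fun z : O => (z : F)) hr
  simpa using this

lemma aux_ring (a z y r w q : F) (p : ℕ) :
    a ^ p * (z ^ p * y ^ p + q * w * (z * y * r))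
      = (a * z * y) ^ p + q * (a ^ p * w) * (z * y * r) := by
  rw [mul_pow, mul_pow]; ring

end Calc

variable {K F : Type*} [Field K] [Field F] [Algebra K F]
variable {O : ValuationSubring F} {τ : SemilinearAut K F} {p : ℕ} {Rat : Subfield F} {z0 μ η : K}

namespace WildAt

open Calc

/-- **(J4)**, integrality. -/
theorem unit_diff (W : WildAt O τ p Rat z0 μ η) (hμ : μ ≠ 0) {U : F} (hU : U ∈ Rat)
    (hU1 : O.valuation U = 1) :
    ((τ • U) * U⁻¹ - 1) * (algebraMap K F (η ^ p))⁻¹ ∈ O := by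
  have hU0 : U ≠ 0 := by
    rintro rfl
    simp at hU1
  have hm : algebraMap K F μ ≠ 0 := by simpa using hμ
  have h1 := W.diff U hU ((O.valuation_le_one_iff U).1 hU1.le)
  have h2 : algebraMap K F (μ * (η ^ p)⁻¹) ∈ O := (O.valuation_le_one_iff _).1 W.μ_le
  have h3 : U⁻¹ ∈ O := by rw [← O.valuation_le_one_iff, map_inv₀, hU1, inv_one]
  have : ((τ • U) * U⁻¹ - 1) * (algebraMap K F (η ^ p))⁻¹
      = ((τ • U - U) * (algebraMap K F μ)⁻¹) * algebraMap K F (μ * (η ^ p)⁻¹) * U⁻¹ := by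
    rw [map_mul, map_inv₀]
    generalize (algebraMap K F (η ^ p))⁻¹ = ci
    field_simp
  rw [this]
  exact O.mul_mem _ _ (O.mul_mem _ _ h1 h2) h3

/-- **(J3)** -/
theorem pow_diff (W : WildAt O τ p Rat z0 μ η) (hp : p.Prime) (hz0 : z0 ≠ 0) (hμ : μ ≠ 0)
    (hτ : SemilinearAut.baseAut τ z0 = z0 + μ) (hη : η * z0 = μ) (hz : algebraMap K F z0 ∈ Rat)
    {h : F} (hh : h ∈ Rat) {n : ℤ} (hn : O.valuation (h * (algebraMap K F z0 ^ n)⁻¹) = 1) :
    O.valuation ((((τ • h) * h⁻¹) ^ p - 1 - (n : F) * algebraMap K F (η ^ p)) *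
      (algebraMap K F (η ^ p))⁻¹) < 1 := by
  have hη0 : η ≠ 0 := by
    rintro rfl
    exact hμ (by rw [← hη, zero_mul])
  set a : F := algebraMap K F η with ha
  set z : F := algebraMap K F z0 with hzdef
  set m : F := algebraMap K F μ with hm
  have ha0 : a ≠ 0 := by simpa [ha] using hη0
  have hz0' : z ≠ 0 := by simpa [hzdef] using hz0
  have hm0 : m ≠ 0 := by simpa [hm] using hμ
  have hmaz : m = a * z := by rw [hm, ← hη, map_mul]
  have hc : algebraMap K F (η ^ p) = a ^ p := by rw [map_pow]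
  rw [hc]
  have hp1 : 1 ≤ p := hp.one_lt.le
  have hva : O.valuation a < 1 := W.η_lt
  have hvz : O.valuation z < 1 := W.z0_lt
  have haO : a ∈ O := mem_of_lt O hva
  have hzO : z ∈ O := mem_of_lt O hvz
  have hvc : O.valuation (a ^ p) < 1 := by
    obtain ⟨k, rfl⟩ : ∃ k, p = k + 1 := ⟨p - 1, by omega⟩
    rw [pow_succ]
    exact lt_mul' O (pow_mem haO k) hva
  have hc0 : a ^ p ≠ 0 := pow_ne_zero _ ha0
  have hpl : O.valuation ((p : F) * (a ^ (p - 1))⁻¹) < 1 := by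
    have := W.p_lt
    rwa [map_mul, map_inv₀, map_pow, map_natCast] at this
  have hapow : a ^ p = a ^ (p - 1) * a := by
    rw [← pow_succ]; congr 1; omega
  have hc10 : a ^ (p - 1) ≠ 0 := pow_ne_zero _ ha0
  -- (J2)
  have J2 : Cg O (a ^ p) ((1 + a) ^ p) 1 := by
    obtain ⟨r, hr, hr'⟩ := exists_one_add_pow hp haO
    refine ⟨((p : F) * (a ^ (p - 1))⁻¹) * r, lt_mul O hpl hr, ?_⟩
    rw [hr', hapow]
    field_simp
  -- the unit part
  set u : F := h * (z ^ n)⁻¹ with hu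
  have huR : u ∈ Rat := Rat.mul_mem hh (Rat.inv_mem (Rat.zpow_mem hz n))
  have hu0 : u ≠ 0 := by
    intro h0
    rw [h0] at hn
    simp at hn
  have huO : u ∈ O := (O.valuation_le_one_iff u).1 hn.le
  have huiO : u⁻¹ ∈ O := by rw [← O.valuation_le_one_iff, map_inv₀, hn, inv_one]
  -- (J1)
  have J1 : Cg O (a ^ p) (((τ • u) * u⁻¹) ^ p) 0 := by
    set y : F := ((τ • u - u) * m⁻¹) * u⁻¹ with hy
    have hyO : y ∈ O := O.mul_mem _ _ (W.diff u huR huO) huiO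
    have hg : (τ • u) * u⁻¹ = 1 + m * y := by
      rw [hy]; field_simp; ring
    have hmO : m ∈ O := by rw [hmaz]; exact O.mul_mem _ _ haO hzO
    obtain ⟨r, hr, hr'⟩ := exists_one_add_pow hp (O.mul_mem _ _ hmO hyO)
    refine ⟨z ^ p * y ^ p + ((p : F) * (a ^ (p - 1))⁻¹) * (z * y * r), ?_, ?_⟩
    · refine lt_add O ?_ (lt_mul O hpl (O.mul_mem _ _ (O.mul_mem _ _ hzO hyO) hr))
      obtain ⟨k, hk⟩ : ∃ k, p = k + 1 := ⟨p - 1, by omega⟩
      rw [hk, pow_succ z, mul_comm (z ^ k), mul_assoc]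
      exact lt_mul O hvz (O.mul_mem _ _ (pow_mem hzO k) (pow_mem hyO _))
    · rw [hg, hr', hmaz]
      have : a ^ p * (z ^ p * y ^ p + ↑p * (a ^ (p - 1))⁻¹ * (z * y * r))
          = (a * z * y) ^ p + p * (a ^ p * (a ^ (p - 1))⁻¹) * (z * y * r) :=
        aux_ring a z y r _ _ p
      have h2 : a ^ p * (a ^ (p - 1))⁻¹ = a := by
        rw [hapow, mul_comm (a ^ (p - 1)) a, mul_assoc a, mul_inv_cancel₀ hc10, mul_one]
      rw [this, h2]
      ring
  -- assemble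
  have hh0 : h ≠ 0 := by
    rintro rfl
    exact hu0 (by rw [hu, zero_mul])
  have hhu : h = z ^ n * u := by
    rw [hu]; field_simp
  have hτz : τ • z = z * (1 + a) := by
    rw [hzdef, SemilinearAut.smul_algebraMap, hτ, map_add, ← hzdef, ← hm, hmaz]; ring
  have hτh : (τ • h) * h⁻¹ = (1 + a) ^ n * ((τ • u) * u⁻¹) := by
    have h1 : τ • h = (τ • z) ^ n * τ • u := by
      rw [hhu, smul_mul', SemilinearAut.smul_def τ (z ^ n), map_zpow₀, ← SemilinearAut.smul_def]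
    rw [h1, hτz, mul_zpow, hhu]
    have hzn : z ^ n ≠ 0 := zpow_ne_zero _ hz0'
    field_simp
  have key : Cg O (a ^ p) (((τ • h) * h⁻¹) ^ p) ((n : F) * 1 + 0) := by
    rw [hτh, mul_pow, ← zpow_natCast ((1 + a) ^ n) p, ← zpow_mul, mul_comm n, zpow_mul,
      zpow_natCast]
    exact (J2.zpow hvc O.one_mem n).mul hvc (O.mul_mem _ _ (intCast_mem O n) O.one_mem)
      O.zero_mem J1
  obtain ⟨ε, hε, hX⟩ := key
  rw [hX]
  have : (1 + ((n : F) * 1 + 0) * a ^ p + a ^ p * ε - 1 - (n : F) * a ^ p) * (a ^ p)⁻¹ = ε := by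
    field_simp
    ring
  rwa [this]

end WildAt

end Fermat.Agent.SSP
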