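import Fermat.Agent.SSP.Wild
import Fermat.Agent.SS.Abs.Ev

/-!
# SSP / [SLOPE] : units at a node

`U ∈ F` without zero or pole at the places reducing to the node `e`.  If `U` is a `v₁`-unit whose
reduction has order `0` at the first branch `x₁ e`, then `U` is a `v₂`-unit as well (and its second
reduction has order `0` at `x₂ e`).

Proof.  `O₂` is a valuation ring.  If `U ∈ O₂` and `v₂(U) < 1` then `U ∈ O₁ ∩ O₂`,
`red U = (Ū₁, 0)`; `glue` gives `c` with `HasVal (x₂ e) 0 c`, so `c = 0`, and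
`HasVal (x₁ e) Ū₁ 0` contradicts `ord Ū₁ = 0` (`Ū₁ ≠ 0`).  If `U ∉ O₂`, apply the same argument
to `U⁻¹` (`red₁ U⁻¹ = Ū₁⁻¹` has order `0` too).
Second statement: `glue` for `U` and `U⁻¹` : both `Ū₂`, `Ū₂⁻¹` are regular at `x₂ e`.
-/

set_option autoImplicit false

open AlgebraicCurve

namespace Fermat.Agent.SSP

open Fermat.Agent.RED Fermat.Agent.S24 Fermat.Agent.SS

variable {K F k Fb : Type*} [Field K] [Field F] [Algebra K F] [Field k] [Field Fb] [Algebra k Fb]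
variable {T : TwoRed K F k Fb} {𝒩 : NodalData T}

namespace Geo

variable (𝒢 : Geo 𝒩)

/-- localised glue in the `rd` language: `u ∈ O₁ ∩ O₂` without pole at the places reducing to `e`. -/
theorem glue_rd (e : 𝒩.S) {u : F} (h1 : u ∈ T.R₁.O) (h2 : u ∈ T.R₂.O)
    (hu : ∀ P, 𝒢.Near e P → 0 ≤ P.ord u) :
    ∃ c : k, HasVal (𝒩.x₁ e) (rd₁ T u) c ∧ HasVal (𝒩.x₂ e) (rd₂ T u) c := by
  obtain ⟨c, hc1, hc2⟩ := 𝒢.glue e ⟨u, h1, h2⟩ (fun P hP1 hP2 => hu P ⟨hP1, hP2⟩)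
  refine ⟨c, ?_, ?_⟩
  · rw [rd₁, rd_of_mem h1]; exact hc1
  · rw [rd₂, rd_of_mem h2]; exact hc2

include 𝒢 in
theorem rd₁_inv {U : F} (h1 : T.R₁.O.valuation U = 1) : rd₁ T U⁻¹ = (rd₁ T U)⁻¹ := by
  rw [← one_div, rd₁, 𝒢.red₁.rd_div T.R₁.O.one_mem h1, rd_one, one_div]

include 𝒢 in
theorem rd₂_inv {U : F} (h2 : T.R₂.O.valuation U = 1) : rd₂ T U⁻¹ = (rd₂ T U)⁻¹ := by
  rw [← one_div, rd₂, 𝒢.red₂.rd_div T.R₂.O.one_mem h2, rd_one, one_div]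

theorem not_val₂_lt_of_unit₁ (e : 𝒩.S) {U : F} (h1 : T.R₁.O.valuation U = 1)
    (hU : ∀ P, 𝒢.Near e P → P.ord U = 0) (h0 : (𝒩.x₁ e).ord (rd₁ T U) = 0) :
    ¬ T.R₂.O.valuation U < 1 := by
  intro h2
  obtain ⟨c, hc1, hc2⟩ := 𝒢.glue_rd e (mem_of_val_le h1.le) (mem_of_val_le h2.le)
    (fun P hP => (hU P hP).ge)
  rw [rd₂, 𝒢.red₂.rd_eq_zero h2] at hc2
  have hc : c = 0 := hc2.unique (by simpa using HasVal.const (k := k) (Fb := Fb) 0)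
  subst hc
  rcases (hasVal_zero_iff _).1 hc1 with h | h
  · exact 𝒢.red₁.rd_ne_zero h1 h
  · omega

/-- **(SLOPE)**, unit form. -/
theorem unit₂_of_unit₁ (e : 𝒩.S) {U : F} (h1 : T.R₁.O.valuation U = 1)
    (hU : ∀ P, 𝒢.Near e P → P.ord U = 0) (h0 : (𝒩.x₁ e).ord (rd₁ T U) = 0) :
    T.R₂.O.valuation U = 1 := by
  rcases lt_trichotomy (T.R₂.O.valuation U) 1 with h | h | h
  · exact absurd h (𝒢.not_val₂_lt_of_unit₁ e h1 hU h0)
  · exact h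
  · refine absurd ?_ (𝒢.not_val₂_lt_of_unit₁ e (U := U⁻¹) (by rw [map_inv₀, h1, inv_one])
      (fun P hP => by rw [Place.ord_inv, hU P hP, neg_zero])
      (by rw [𝒢.rd₁_inv h1, Place.ord_inv, h0, neg_zero]))
    rw [map_inv₀]
    exact inv_lt_one_of_one_lt₀ h

theorem ord₂_eq_zero_of_unit (e : 𝒩.S) {U : F} (h1 : T.R₁.O.valuation U = 1)
    (h2 : T.R₂.O.valuation U = 1) (hU : ∀ P, 𝒢.Near e P → P.ord U = 0) :
    (𝒩.x₁ e).ord (rd₁ T U) = 0 ∧ (𝒩.x₂ e).ord (rd₂ T U) = 0 := by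
  obtain ⟨c, hc1, hc2⟩ := 𝒢.glue_rd e (mem_of_val_le h1.le) (mem_of_val_le h2.le)
    (fun P hP => (hU P hP).ge)
  obtain ⟨d, hd1, hd2⟩ := 𝒢.glue_rd e (u := U⁻¹)
    (mem_of_val_le (by rw [map_inv₀, h1, inv_one])) (mem_of_val_le (by rw [map_inv₀, h2, inv_one]))
    (fun P hP => by rw [Place.ord_inv, hU P hP, neg_zero])
  have a1 := hc1.ord_nonneg
  have a2 := hc2.ord_nonneg
  have b1 := hd1.ord_nonneg
  have b2 := hd2.ord_nonneg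
  rw [𝒢.rd₁_inv h1, Place.ord_inv] at b1
  rw [𝒢.rd₂_inv h2, Place.ord_inv] at b2
  constructor <;> omega

end Geo

end Fermat.Agent.SSP
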