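import Fermat.Agent.SSP.LocEq
import Fermat.Agent.SSP.Slope
import Fermat.Agent.RED.FF.Degree
import Fermat.Agent.RED.FF.Riemann
import Fermat.Agent.RED.NonSpecial
import Fermat.Agent.SS.Abs.Ev

/-!
# SSP / [SEP] + [THICK] : the annulus coordinate

## [THICK] `ord₁_eq_one`
`s` with `(v₁, v₂)(s) = (0, v(p))`, no zero/pole near the node `e`.  `red s = (s̄₁, 0)`, so `glue` gives
`s̄₁(x₁ e) = 0` : `ord ≥ 1`.  If `u ∈ O₁`, `v₂(u) ≥ v(p)`, `u` regular near `e`, `ord_{x₁ e} (rd₁ u) = 1`,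
then `u / s ∈ O₁ ∩ O₂` is regular near `e`, so `rd₁ (u / s)` is regular at `x₁ e` (`glue`) and
`1 = ord (rd₁ u) = ord s̄₁ + ord (rd₁ (u / s)) ≥ ord s̄₁`.

## [SEP] `SlopeFn.isCoord`
`P₀` near `e₀`, `c := s(P₀)` (`exists_value`; `c ≠ 0` as `ord_{P₀} s = 0`).
(a) `|c| < 1` : if `c ∉ A` then `s / c - 1 ∈ O₁ ∩ O₂` is regular near `e₀`, vanishes at `P₀` and has first
reduction `-1`, against `evN`; so `c ∈ A`, and `evN` for `s - c` gives `s̄₁(x₁ e₀) - c̄ = 0`, i.e. `c̄ = 0`.
(b) `|p / c| < 1` : the same for `p / s` (`red (p / s) = (0, *)`), value `p / c` at `P₀`.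
(c) `y := s - c`.  `rd₁ y = s̄₁`; `rd₂ (y / (-c)) = 1`.  By (P1) on both components
`∑_{P : r₁ P good} ord_P y = ∑_{Q good} ord_Q s̄₁ = - ∑_e ord_{x₁ e} s̄₁ = - #S`
(degree of a principal divisor of `Fb`), `∑_{P : r₂ P good} ord_P y = 0`; `∑_P ord_P y = 0`; with
`cases`, `disj` : `∑_e Z_e = #S`, `Z_e := ∑_{P near e} ord_P y` (all terms `≥ 0` : `s` has no pole there).
(d) `Z_e ≥ 1` for every `e` : otherwise `c / (s - c) ∈ O₁ ∩ O₂` is regular near `e` with reduction `(0, -1)`,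
against `glue`.  Hence `Z_e = 1` for all `e`.
-/

set_option autoImplicit false

open AlgebraicCurve

namespace Fermat.Agent.SSP

open Fermat.Agent.RED Fermat.Agent.S24 Fermat.Agent.SS

variable {K F k Fb : Type*} [Field K] [Field F] [Algebra K F] [Field k] [Field Fb] [Algebra k Fb]

/-! ### constants and the two valuations -/

section Const

variable (T : TwoRed K F k Fb)

theorem const_le_iff (c : K) : T.R₁.O.valuation (algebraMap K F c) ≤ 1 ↔
    T.R₂.O.valuation (algebraMap K F c) ≤ 1 := by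
  rw [ValuationSubring.valuation_le_one_iff, ValuationSubring.valuation_le_one_iff]
  exact T.const_mem c

theorem const_lt_iff (c : K) : T.R₁.O.valuation (algebraMap K F c) < 1 ↔
    T.R₂.O.valuation (algebraMap K F c) < 1 := by
  rcases eq_or_ne c 0 with rfl | hc
  · simp
  have hcF : algebraMap K F c ≠ 0 := by simpa using hc
  have key : ∀ O : ValuationSubring F, O.valuation (algebraMap K F c) < 1 ↔
      ¬ O.valuation (algebraMap K F c⁻¹) ≤ 1 := by
    intro O
    have h0 : 0 < O.valuation (algebraMap K F c) :=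
      zero_lt_iff.mpr ((Valuation.ne_zero_iff _).mpr hcF)
    rw [map_inv₀, map_inv₀, inv_le_one₀ h0, not_le]
  rw [key, key, const_le_iff]

end Const

/-- a nonzero function with a value `0` has positive order; convenient form -/
theorem not_hasVal_neg_one_zero (Q : Place k Fb) : ¬ HasVal Q (-1 : Fb) 0 := by
  intro h
  have h1 : HasVal Q (-1 : Fb) (-1) := by
    have := (HasVal.const (Q := Q) (1 : k)).neg
    simpa using this
  have := h.unique h1
  exact one_ne_zero (neg_eq_zero.mp this.symm)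

theorem hasVal_zero_left {Q : Place k Fb} {c : k} (h : HasVal Q (0 : Fb) c) : c = 0 := by
  have h1 : HasVal Q (0 : Fb) 0 := by
    have := HasVal.const (Q := Q) (0 : k)
    simpa using this
  exact h.unique h1

variable {T : TwoRed K F k Fb} {𝒩 : NodalData T} (𝒢 : Geo 𝒩)

/-- **[THICK]** -/
theorem ord₁_eq_one {p : ℕ} (e : 𝒩.S) {s : F} (h1 : T.R₁.O.valuation s = 1)
    (h2 : T.R₂.O.valuation (s * (p : F)⁻¹) = 1) (hp : T.R₂.O.valuation (p : F) < 1)
    (hs : ∀ P, 𝒢.Near e P → P.ord s = 0)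
    {u : F} (hu1 : u ∈ T.R₁.O) (hu2 : T.R₂.O.valuation (u * (p : F)⁻¹) ≤ 1)
    (hu : ∀ P, 𝒢.Near e P → 0 ≤ P.ord u) (hu' : (𝒩.x₁ e).ord (rd₁ T u) = 1) :
    (𝒩.x₁ e).ord (rd₁ T s) = 1 := by
  have hs0 : s ≠ 0 := by
    rintro rfl
    simp at h1
  have hp0 : (p : F) ≠ 0 := by
    intro h
    rw [h] at h2
    simp at h2
  have hvp : T.R₂.O.valuation (p : F) ≠ 0 := (Valuation.ne_zero_iff _).mpr hp0
  -- `v₂ s = v₂ p`
  have hs2 : T.R₂.O.valuation s = T.R₂.O.valuation (p : F) := by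
    rw [map_mul, map_inv₀] at h2
    exact (mul_inv_eq_one₀ hvp).mp h2
  have hs2lt : T.R₂.O.valuation s < 1 := hs2 ▸ hp
  have hsO1 : s ∈ T.R₁.O := mem_of_val_le h1.le
  have hsO2 : s ∈ T.R₂.O := mem_of_val_le hs2lt.le
  have hrs : rd₁ T s ≠ 0 := 𝒢.red₁.rd_ne_zero h1
  -- `ord ≥ 1`
  have hge : 0 < (𝒩.x₁ e).ord (rd₁ T s) := by
    obtain ⟨c, hc1, hc2⟩ := 𝒢.glue_rd e hsO1 hsO2 (fun P hP => (hs P hP).ge)
    rw [rd₂, 𝒢.red₂.rd_eq_zero hs2lt] at hc2
    rw [hasVal_zero_left hc2] at hc1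
    rcases (hasVal_zero_iff _).mp hc1 with h | h
    · exact absurd h hrs
    · exact h
  -- `u ≠ 0`
  have hru : rd₁ T u ≠ 0 := by
    intro h
    rw [h] at hu'
    simp at hu'
  have hu0 : u ≠ 0 := by
    rintro rfl
    apply hru
    rw [rd₁, rd_of_mem hu1]
    exact map_zero _
  -- `w = u / s`
  set w : F := u * s⁻¹ with hw
  have hw1 : w ∈ T.R₁.O := by
    apply mem_of_val_le
    rw [hw, map_mul, map_inv₀, h1, inv_one, mul_one]
    exact val_le_of_mem hu1
  have hw2 : w ∈ T.R₂.O := by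
    apply mem_of_val_le
    rw [hw, map_mul, map_inv₀, hs2, ← map_inv₀, ← map_mul]
    exact hu2
  have hwreg : ∀ P, 𝒢.Near e P → 0 ≤ P.ord w := by
    intro P hP
    rw [hw, P.ord_mul hu0 (inv_ne_zero hs0), P.ord_inv, hs P hP]
    simpa using hu P hP
  obtain ⟨c, hc1, -⟩ := 𝒢.glue_rd e hw1 hw2 hwreg
  have hwn := hc1.ord_nonneg
  have hmul : rd₁ T u = rd₁ T w * rd₁ T s := by
    rw [rd₁, rd₁, rd₁, ← rd_mul hw1 hsO1, hw, inv_mul_cancel_right₀ hs0]
  have hrw : rd₁ T w ≠ 0 := by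
    intro h
    rw [h, zero_mul] at hmul
    exact hru hmul
  rw [hmul, (𝒩.x₁ e).ord_mul hrw hrs] at hu'
  omega

/-! ### [SEP] -/

section Fin

variable {α β : Type*}

theorem mapDomain_filter_comm (r : α → β) (G : Set β) [DecidablePred fun P => r P ∈ G]
    [DecidablePred fun Q => Q ∈ G] (D : α →₀ ℤ) :
    (D.filter (fun P => r P ∈ G)).mapDomain r = (D.mapDomain r).filter (fun Q => Q ∈ G) := by
  induction D using Finsupp.induction with
  | zero => rw [Finsupp.filter_zero, Finsupp.mapDomain_zero, Finsupp.filter_zero]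
  | single_add P n D _ _ ih =>
    rw [Finsupp.filter_add, Finsupp.mapDomain_add, Finsupp.mapDomain_add, Finsupp.filter_add, ih,
      Finsupp.mapDomain_single]
    congr 1
    by_cases h : r P ∈ G
    · rw [Finsupp.filter_single_of_pos (fun P => r P ∈ G) h,
        Finsupp.filter_single_of_pos (fun Q => Q ∈ G) h, Finsupp.mapDomain_single]
    · rw [Finsupp.filter_single_of_neg (fun P => r P ∈ G) h,
        Finsupp.filter_single_of_neg (fun Q => Q ∈ G) h, Finsupp.mapDomain_zero]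

end Fin

namespace Geo

/-- `evN` in the `rd` language -/
theorem evN_rd (e : 𝒩.S) {u : F} (h1 : u ∈ T.R₁.O) (h2 : u ∈ T.R₂.O)
    (hu : ∀ P, 𝒢.Near e P → 0 ≤ P.ord u) {P₀ : Place K F} (hP₀ : 𝒢.Near e P₀)
    (h0 : 0 < P₀.ord u) : HasVal (𝒩.x₁ e) (rd₁ T u) 0 := by
  have := 𝒢.evN e ⟨u, h1, h2⟩ (fun P hP1 hP2 => hu P ⟨hP1, hP2⟩) ⟨P₀, hP₀.1, hP₀.2, h0⟩
  rw [rd₁, rd_of_mem h1]
  exact this

end Geo

/-- a function of the shape `small - 1` cannot vanish at a place near a node -/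
theorem not_vanish_of_small (e : 𝒩.S) {a : F} (h1 : T.R₁.O.valuation a < 1)
    (h2 : T.R₂.O.valuation a < 1) (hu : ∀ P, 𝒢.Near e P → 0 ≤ P.ord (a - 1))
    {P₀ : Place K F} (hP₀ : 𝒢.Near e P₀) (h0 : 0 < P₀.ord (a - 1)) : False := by
  have m1 : a ∈ T.R₁.O := mem_of_val_le h1.le
  have m2 : a ∈ T.R₂.O := mem_of_val_le h2.le
  have h := 𝒢.evN_rd e (T.R₁.O.sub_mem m1 T.R₁.O.one_mem) (T.R₂.O.sub_mem m2 T.R₂.O.one_mem)
    hu hP₀ h0
  rw [rd₁, rd_sub m1 T.R₁.O.one_mem, 𝒢.red₁.rd_eq_zero h1, rd_one, zero_sub] at h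
  exact not_hasVal_neg_one_zero _ h

/-- if `b - C d` (`b` small for `v₁`, integral for `v₂`, `d` integral) vanishes at a place near a
node, then `d` is small. -/
theorem const_small_of_vanish (e : 𝒩.S) {b : F} {d : K} (h1 : T.R₁.O.valuation b < 1)
    (h2 : b ∈ T.R₂.O) (hd : T.R₁.O.valuation (algebraMap K F d) ≤ 1)
    (hu : ∀ P, 𝒢.Near e P → 0 ≤ P.ord (b - algebraMap K F d))
    {P₀ : Place K F} (hP₀ : 𝒢.Near e P₀) (h0 : 0 < P₀.ord (b - algebraMap K F d)) :
    T.R₁.O.valuation (algebraMap K F d) < 1 := by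
  have m1 : b ∈ T.R₁.O := mem_of_val_le h1.le
  have d1 : algebraMap K F d ∈ T.R₁.O := mem_of_val_le hd
  have d2 : algebraMap K F d ∈ T.R₂.O := (T.const_mem d).mp d1
  have h := 𝒢.evN_rd e (T.R₁.O.sub_mem m1 d1) (T.R₂.O.sub_mem h2 d2) hu hP₀ h0
  rw [rd₁, rd_sub m1 d1, 𝒢.red₁.rd_eq_zero h1, zero_sub] at h
  obtain ⟨a, ha⟩ := 𝒢.red₁.rd_const d
  rw [← ha] at h
  have h' := (HasVal.const (Q := 𝒩.x₁ e) a).neg
  have := h.unique h'
  have ha0 : a = 0 := by simpa using this.symm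
  rw [← 𝒢.red₁.rd_eq_zero_iff d1, ← ha, ha0, map_zero]

/-- **[SEP]** -/
theorem SlopeFn.isCoord [IsAlgClosed K] [IsAlgClosed k] {x : F} (hx : IsSepParam K x) {tb : Fb}
    (hb : IsSepParam k tb) {p : ℕ} (hp0 : (p : F) ≠ 0) (hp₁ : T.R₁.O.valuation (p : F) < 1)
    {s : F} (hs : SlopeFn 𝒢 p s) (e : 𝒩.S) :
    IsCoord {P | 𝒢.Near e P} s := by
  classical
  intro P₀ hP₀
  have hP₀ : 𝒢.Near e P₀ := hP₀
  have hs0 : s ≠ 0 := by
    rintro rfl
    have := hs.val₁
    simp at this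
  have hpK : algebraMap K F (p : K) = (p : F) := map_natCast _ _
  have hpK0 : (p : K) ≠ 0 := by
    intro h
    rw [h, map_zero] at hpK
    exact hp0 hpK.symm
  have hp₂ : T.R₂.O.valuation (p : F) < 1 := by
    rw [← hpK] at hp₁ ⊢
    exact (const_lt_iff T _).mp hp₁
  have hvp : T.R₂.O.valuation (p : F) ≠ 0 := (Valuation.ne_zero_iff _).mpr hp0
  have hs2 : T.R₂.O.valuation s = T.R₂.O.valuation (p : F) := by
    have := hs.val₂
    rw [map_mul, map_inv₀] at this
    exact (mul_inv_eq_one₀ hvp).mp this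
  have hs2lt : T.R₂.O.valuation s < 1 := hs2 ▸ hp₂
  have hsO1 : s ∈ T.R₁.O := mem_of_val_le hs.val₁.le
  have hsO2 : s ∈ T.R₂.O := mem_of_val_le hs2lt.le
  -- the value `c = s(P₀)`
  have hsP : s ∈ P₀.toValuationSubring :=
    (Place.mem_iff_ord_nonneg P₀ hs0).mpr (hs.near e P₀ hP₀).ge
  obtain ⟨c, hc⟩ := 𝒢.red₁.exists_value P₀ s hsP
  have hc : 0 < P₀.ord (s - algebraMap K F c) := by
    rcases hc with hc | hc
    · exfalso
      obtain ⟨a, ha⟩ := 𝒢.red₁.rd_const c
      have h1 := hs.ord₁ e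
      rw [rd₁, hc, ← ha, Place.ord_algebraMap] at h1
      exact zero_ne_one h1
    · exact hc
  have hc0 : c ≠ 0 := by
    rintro rfl
    rw [map_zero, sub_zero, hs.near e P₀ hP₀] at hc
    exact lt_irrefl _ hc
  have hcF : algebraMap K F c ≠ 0 := by simpa using hc0
  set y : F := s - algebraMap K F c with hy
  have hy0 : y ≠ 0 := by
    intro h
    rw [h] at hc
    simp at hc
  have hyreg : ∀ e' P, 𝒢.Near e' P → 0 ≤ P.ord y := by
    intro e' P hP
    have h1 := Place.ord_add_ge P hs0 (neg_ne_zero.mpr hcF) (by rwa [← sub_eq_add_neg])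
    rw [Place.ord_neg, Place.ord_algebraMap, hs.near e' P hP, ← sub_eq_add_neg, min_self] at h1
    exact h1
  have ordC : ∀ (P : Place K F) (a : K), a ≠ 0 → ∀ f : F, f ≠ 0 →
      P.ord (f * algebraMap K F a) = P.ord f := by
    intro P a ha f hf
    rw [P.ord_mul hf (by simpa using ha), Place.ord_algebraMap, add_zero]
  -- (a) `|c| < 1`
  have hc1 : T.R₁.O.valuation (algebraMap K F c) < 1 := by
    by_cases hle : T.R₁.O.valuation (algebraMap K F c) ≤ 1
    · -- `c ∈ A`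
      have d1 : algebraMap K F c ∈ T.R₁.O := mem_of_val_le hle
      have d2 : algebraMap K F c ∈ T.R₂.O := (T.const_mem c).mp d1
      have h := 𝒢.evN_rd e (T.R₁.O.sub_mem hsO1 d1) (T.R₂.O.sub_mem hsO2 d2) (hyreg e) hP₀ hc
      rw [rd₁, rd_sub hsO1 d1] at h
      have h1 : HasVal (𝒩.x₁ e) (rd₁ T s) 0 :=
        (hasVal_zero_iff _).mpr (Or.inr (by rw [hs.ord₁ e]; exact one_pos))
      obtain ⟨a, ha⟩ := 𝒢.red₁.rd_const c
      have h2 := h1.sub h
      rw [rd₁, sub_sub_cancel, ← ha] at h2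
      have h3 := h2.unique (HasVal.const (Q := 𝒩.x₁ e) a)
      have ha0 : a = 0 := by simpa using h3.symm
      rw [← 𝒢.red₁.rd_eq_zero_iff d1, ← ha, ha0, map_zero]
    · exfalso
      rw [not_le] at hle
      have hi1 : T.R₁.O.valuation (algebraMap K F c⁻¹) < 1 := by
        rw [map_inv₀, map_inv₀]
        exact inv_lt_one_of_one_lt₀ hle
      have hi2 := (const_lt_iff T _).mp hi1
      have e1 : s * algebraMap K F c⁻¹ - 1 = y * algebraMap K F c⁻¹ := by
        rw [hy, map_inv₀]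
        field_simp
      refine not_vanish_of_small 𝒢 e (a := s * algebraMap K F c⁻¹) ?_ ?_ ?_ hP₀ ?_
      · rw [map_mul, hs.val₁, one_mul]
        exact hi1
      · rw [map_mul]
        exact mul_lt_one_of_nonneg_of_lt_one_left zero_le hs2lt hi2.le
      · intro P hP
        rw [e1, ordC P _ (inv_ne_zero hc0) y hy0]
        exact hyreg e P hP
      · rw [e1, ordC P₀ _ (inv_ne_zero hc0) y hy0]
        exact hc
  have hc2 : T.R₂.O.valuation (algebraMap K F c) < 1 := (const_lt_iff T _).mp hc1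
  -- (b) `|p / c| < 1`
  set d : K := (p : K) * c⁻¹ with hd
  have hd0 : d ≠ 0 := mul_ne_zero hpK0 (inv_ne_zero hc0)
  have hdF : algebraMap K F d = (p : F) * (algebraMap K F c)⁻¹ := by
    rw [hd, map_mul, hpK, map_inv₀]
  have hps2 : T.R₂.O.valuation ((p : F) * s⁻¹) = 1 := by
    rw [map_mul, map_inv₀, hs2]
    exact mul_inv_cancel₀ hvp
  have hd1 : T.R₁.O.valuation (algebraMap K F d) < 1 := by
    by_cases hle : T.R₁.O.valuation (algebraMap K F d) ≤ 1
    · have e1 : (p : F) * s⁻¹ - algebraMap K F d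
          = (y * s⁻¹) * algebraMap K F (-d) := by
        rw [map_neg, hdF, hy]
        field_simp
        ring
      have hys : y * s⁻¹ ≠ 0 := mul_ne_zero hy0 (inv_ne_zero hs0)
      have eo : ∀ e' P, 𝒢.Near e' P → P.ord ((p : F) * s⁻¹ - algebraMap K F d) = P.ord y := by
        intro e' P hP
        rw [e1, ordC P _ (neg_ne_zero.mpr hd0) _ hys, P.ord_mul hy0 (inv_ne_zero hs0), P.ord_inv,
          hs.near e' P hP, neg_zero, add_zero]
      refine const_small_of_vanish 𝒢 e (b := (p : F) * s⁻¹) ?_ (mem_of_val_le hps2.le) hle ?_ hP₀ ?_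
      · rw [map_mul, map_inv₀, hs.val₁, inv_one, mul_one]
        exact hp₁
      · intro P hP
        rw [eo e P hP]
        exact hyreg e P hP
      · rw [eo e P₀ hP₀]
        exact hc
    · exfalso
      rw [not_le] at hle
      have hi1 : T.R₁.O.valuation (algebraMap K F d⁻¹) < 1 := by
        rw [map_inv₀, map_inv₀]
        exact inv_lt_one_of_one_lt₀ hle
      have hi2 := (const_lt_iff T _).mp hi1
      have e1 : algebraMap K F c * s⁻¹ - 1 = (y * s⁻¹) * algebraMap K F (-1) := by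
        rw [map_neg, map_one, hy]
        field_simp
        ring
      have e2 : algebraMap K F c * s⁻¹ = algebraMap K F d⁻¹ * ((p : F) * s⁻¹) := by
        rw [map_inv₀, hdF]
        field_simp
      have hys : y * s⁻¹ ≠ 0 := mul_ne_zero hy0 (inv_ne_zero hs0)
      have eo : ∀ P, 𝒢.Near e P → P.ord (algebraMap K F c * s⁻¹ - 1) = P.ord y := by
        intro P hP
        rw [e1, ordC P _ (neg_ne_zero.mpr one_ne_zero) _ hys, P.ord_mul hy0 (inv_ne_zero hs0),
          P.ord_inv, hs.near e P hP, neg_zero, add_zero]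
      refine not_vanish_of_small 𝒢 e (a := algebraMap K F c * s⁻¹) ?_ ?_ ?_ hP₀ ?_
      · rw [map_mul, map_inv₀, hs.val₁, inv_one, mul_one]
        exact hc1
      · rw [e2, map_mul, hps2, mul_one]
        exact hi2
      · intro P hP
        rw [eo P hP]
        exact hyreg e P hP
      · rw [eo P₀ hP₀]
        exact hc
  have hd2 : T.R₂.O.valuation (algebraMap K F d) < 1 := (const_lt_iff T _).mp hd1
  -- (c) reductions of `y`
  have hcO1 : algebraMap K F c ∈ T.R₁.O := mem_of_val_le hc1.le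
  have hry : rd₁ T y = rd₁ T s := by
    rw [rd₁, hy, rd_sub hsO1 hcO1, 𝒢.red₁.rd_eq_zero hc1, sub_zero]
  have hrs : rd₁ T s ≠ 0 := 𝒢.red₁.rd_ne_zero hs.val₁
  have hy1 : T.R₁.O.valuation y = 1 :=
    𝒢.red₁.val_eq_one_of_rd_ne_zero (by rw [← rd₁, hry]; exact hrs)
  set y₂ : F := y * algebraMap K F (-c)⁻¹ with hy₂
  have hsc : T.R₂.O.valuation (s * (algebraMap K F c)⁻¹) < 1 := by
    have : s * (algebraMap K F c)⁻¹ = (s * (p : F)⁻¹) * algebraMap K F d := by
      rw [hdF]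
      field_simp
    rw [this, map_mul, hs.val₂, one_mul]
    exact hd2
  have hy₂e : y₂ = 1 - s * (algebraMap K F c)⁻¹ := by
    rw [hy₂, hy, map_inv₀, map_neg]
    field_simp
    ring
  have hscO : s * (algebraMap K F c)⁻¹ ∈ T.R₂.O := mem_of_val_le hsc.le
  have hry₂ : rd₂ T y₂ = 1 := by
    rw [rd₂, hy₂e, rd_sub T.R₂.O.one_mem hscO, rd_one, 𝒢.red₂.rd_eq_zero hsc, sub_zero]
  have hy₂1 : T.R₂.O.valuation y₂ = 1 :=
    𝒢.red₂.val_eq_one_of_rd_ne_zero (by rw [← rd₂, hry₂]; exact one_ne_zero)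
  -- the divisors
  set D : Divisor K F := dv K y with hD
  have hDy : ∀ P, D P = P.ord y := fun P => hx.dv_apply y P
  have hDy₂ : ∀ P, D P = P.ord y₂ := by
    intro P
    rw [hDy, hy₂, ordC P _ (inv_ne_zero (neg_ne_zero.mpr hc0)) y hy0]
  have hdegD : Divisor.degree D = 0 := hx.degree_dv y
  set B : Divisor k Fb := dv k (rd₁ T s) with hB
  have hBa : ∀ Q, B Q = Q.ord (rd₁ T s) := fun Q => hb.dv_apply _ Q
  have hdegB : Divisor.degree B = 0 := hb.degree_dv _
  set D1 : Divisor K F := D.filter (fun P => 𝒢.r₁ P ∈ (Set.range 𝒩.x₁)ᶜ) with hD1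
  set D2 : Divisor K F := D.filter (fun P => 𝒢.r₂ P ∈ (Set.range 𝒩.x₂)ᶜ) with hD2
  let De : 𝒩.S → Divisor K F := fun e' => D.filter (fun P => 𝒢.Near e' P)
  -- degree of `D1`
  have hdeg1 : Divisor.degree D1 = -(Fintype.card 𝒩.S : ℤ) := by
    rw [← degree_mapDomain_of_deg_eq_one 𝒢.r₁ hx.deg_eq_one hb.deg_eq_one, hD1,
      mapDomain_filter_comm 𝒢.r₁ (Set.range 𝒩.x₁)ᶜ D]
    have h1 : (D.mapDomain 𝒢.r₁).filter (fun Q => Q ∈ (Set.range 𝒩.x₁)ᶜ)
        = B.filter (fun Q => Q ∈ (Set.range 𝒩.x₁)ᶜ) := by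
      ext Q
      rw [Finsupp.filter_apply, Finsupp.filter_apply]
      split_ifs with hQ
      · rw [hBa, ← hry, 𝒢.red₁.ord_rd hy1 D hDy hQ]
      · rfl
    rw [h1]
    have h2 := Finsupp.filter_pos_add_filter_neg B (fun Q => Q ∈ (Set.range 𝒩.x₁)ᶜ)
    have h3 : Divisor.degree (B.filter (fun Q => ¬ Q ∈ (Set.range 𝒩.x₁)ᶜ))
        = (Fintype.card 𝒩.S : ℤ) := by
      rw [hb.degree_eq_sum_of_subset _ (Finset.univ.image 𝒩.x₁)]
      · rw [Finset.sum_image (fun a _ b _ h => 𝒩.x₁_inj h)]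
        have : ∀ e' ∈ (Finset.univ : Finset 𝒩.S),
            (B.filter (fun Q => ¬ Q ∈ (Set.range 𝒩.x₁)ᶜ)) (𝒩.x₁ e') = 1 := by
          intro e' _
          rw [Finsupp.filter_apply, if_pos (by simp), hBa, hs.ord₁ e']
        rw [Finset.sum_congr rfl this]
        simp
      · intro Q hQ
        rw [Finsupp.support_filter, Finset.mem_filter] at hQ
        have := hQ.2
        simp only [Set.mem_compl_iff, not_not] at this
        obtain ⟨e', rfl⟩ := this
        exact Finset.mem_image_of_mem _ (Finset.mem_univ _)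
    have h4 := congrArg Divisor.degree h2
    rw [map_add, h3, hdegB] at h4
    linarith
  -- degree of `D2`
  have hdeg2 : Divisor.degree D2 = 0 := by
    rw [← degree_mapDomain_of_deg_eq_one 𝒢.r₂ hx.deg_eq_one hb.deg_eq_one, hD2,
      mapDomain_filter_comm 𝒢.r₂ (Set.range 𝒩.x₂)ᶜ D]
    have h1 : (D.mapDomain 𝒢.r₂).filter (fun Q => Q ∈ (Set.range 𝒩.x₂)ᶜ) = 0 := by
      ext Q
      rw [Finsupp.filter_apply]
      split_ifs with hQ
      · rw [← 𝒢.red₂.ord_rd hy₂1 D hDy₂ hQ, ← rd₂, hry₂]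
        simp
      · rfl
    rw [h1, map_zero]
  -- decomposition
  have hdec : D = D1 + D2 + ∑ e', De e' := by
    ext P
    rw [Finsupp.add_apply, Finsupp.add_apply, Finsupp.finset_sum_apply, hD1, hD2,
      Finsupp.filter_apply, Finsupp.filter_apply]
    simp only [De, Finsupp.filter_apply]
    by_cases t1 : 𝒢.r₁ P ∈ (Set.range 𝒩.x₁)ᶜ
    · have t2 : ¬ 𝒢.r₂ P ∈ (Set.range 𝒩.x₂)ᶜ := fun t2 => 𝒢.disj P t1 t2
      rw [if_pos t1, if_neg t2, Finset.sum_eq_zero, add_zero, add_zero]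
      intro e' _
      rw [if_neg]
      intro hN
      exact t1 ⟨e', hN.1.symm⟩
    · by_cases t2 : 𝒢.r₂ P ∈ (Set.range 𝒩.x₂)ᶜ
      · rw [if_neg t1, if_pos t2, Finset.sum_eq_zero, add_zero, zero_add]
        intro e' _
        rw [if_neg]
        intro hN
        exact t2 ⟨e', hN.2.symm⟩
      · rw [if_neg t1, if_neg t2, zero_add, zero_add]
        rcases 𝒢.cases P with h | h | ⟨e₁, h⟩
        · exact absurd h t1
        · exact absurd h t2
        · rw [Finset.sum_eq_single e₁, if_pos (show 𝒢.Near e₁ P from h)]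
          · intro e' _ hne
            rw [if_neg]
            intro hN
            exact hne (𝒩.x₁_inj (hN.1.symm.trans h.1))
          · intro h'
            exact absurd (Finset.mem_univ _) h'
  have hDe0 : ∀ e', 0 ≤ De e' := by
    intro e' P
    simp only [De, Finsupp.filter_apply, Finsupp.coe_zero, Pi.zero_apply]
    split_ifs with hN
    · rw [hDy]
      exact hyreg e' P hN
    · exact le_rfl
  -- (d)
  have hDe1 : ∀ e', 1 ≤ Divisor.degree (De e') := by
    intro e'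
    have h0 := hx.degree_nonneg (hDe0 e')
    rcases h0.lt_or_eq with h | h
    · omega
    exfalso
    have hz := hx.eq_zero_of_degree_eq_zero (hDe0 e') h.symm
    have hord : ∀ P, 𝒢.Near e' P → P.ord y = 0 := by
      intro P hP
      have := DFunLike.congr_fun hz P
      simp only [De, Finsupp.filter_apply, if_pos hP, Finsupp.coe_zero, Pi.zero_apply] at this
      rw [← hDy]
      exact this
    set t : F := algebraMap K F c * y⁻¹ with ht
    have ht1 : T.R₁.O.valuation t < 1 := by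
      rw [ht, map_mul, map_inv₀, hy1, inv_one, mul_one]
      exact hc1
    have hty : t * y₂ = -1 := by
      rw [ht, hy₂, map_inv₀, map_neg]
      field_simp
    have ht2 : T.R₂.O.valuation t = 1 := by
      have := congrArg T.R₂.O.valuation hty
      rwa [map_mul, hy₂1, mul_one, Valuation.map_neg, map_one] at this
    have htO2 : t ∈ T.R₂.O := mem_of_val_le ht2.le
    have hrt : rd₂ T t = -1 := by
      have := rd_mul (red := T.R₂.red) htO2 (mem_of_val_le hy₂1.le)
      rw [hty, rd_neg T.R₂.O.one_mem, rd_one] at this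
      rw [← rd₂, ← rd₂, hry₂, mul_one] at this
      exact this.symm
    obtain ⟨c', h1, h2⟩ := 𝒢.glue_rd e' (mem_of_val_le ht1.le) htO2 (by
      intro P hP
      rw [ht, P.ord_mul hcF (inv_ne_zero hy0), Place.ord_algebraMap, P.ord_inv, hord P hP]
      simp)
    rw [rd₁, 𝒢.red₁.rd_eq_zero ht1] at h1
    rw [hasVal_zero_left h1, hrt] at h2
    exact not_hasVal_neg_one_zero _ h2
  -- count
  have hsum : ∑ e', Divisor.degree (De e') = (Fintype.card 𝒩.S : ℤ) := by
    have := congrArg Divisor.degree hdec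
    rw [map_add, map_add, map_sum, hdegD, hdeg1, hdeg2] at this
    linarith
  have hone : Divisor.degree (De e) = 1 := by
    have h1 : ∑ e', (Divisor.degree (De e') - 1) = 0 := by
      rw [Finset.sum_sub_distrib, hsum]
      simp
    have h2 := (Finset.sum_eq_zero_iff_of_nonneg
      (fun e' _ => sub_nonneg.mpr (hDe1 e'))).mp h1 e (Finset.mem_univ _)
    linarith
  -- conclusion
  have hfin : De e - Finsupp.single P₀ 1 = 0 := by
    apply hx.eq_zero_of_degree_eq_zero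
    · intro P
      rw [Finsupp.sub_apply, Finsupp.coe_zero, Pi.zero_apply, sub_nonneg, Finsupp.single_apply]
      split_ifs with hP
      · subst hP
        simp only [De, Finsupp.filter_apply, if_pos hP₀]
        rw [hDy]
        omega
      · exact hDe0 e P
    · rw [map_sub, hone, hx.degree_single, sub_self]
  have hval : ∀ P, 𝒢.Near e P → P.ord y = if P₀ = P then 1 else 0 := by
    intro P hP
    have := DFunLike.congr_fun hfin P
    rw [Finsupp.sub_apply, Finsupp.coe_zero, Pi.zero_apply, Finsupp.single_apply] at this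
    simp only [De, Finsupp.filter_apply, if_pos hP] at this
    rw [← hDy]
    linarith
  refine ⟨c, ?_, ?_⟩
  · rw [← hy, hval P₀ hP₀, if_pos rfl]
  · intro P' hP' hne
    rw [← hy, hval P' hP', if_neg (fun h => hne h.symm)]

end Fermat.Agent.SSP
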