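import Fermat.Agent.SSP.First
import Fermat.Agent.SSP.Sep

/-!
# SSP / [FD] : the three statements consumed by the assembly of (PL_p) (helper87 #1876 (3))

`LocEqs 𝒢 Rat D` : the divisor `D` has local equations in `Rat` on every residue class.

* `fdA`  : `f ∈ Rat`, `div f = p D`.  After division by a power of `z0` : `f` is a `v₁`-unit, `f / z0 ^ (p m)` is a
  `v₂`-unit, `Ω(f) = (τ f / f - 1) / η ^ p` is in `O₁ ∩ O₂` and its two reductions are CONSTANTS.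
* `fdB`  : if moreover `f` is a unit for both valuations and the two constants are equal, then the divisors of `rd₁ f`, `rd₂ f`
  are divisible by `p` (at ALL points, nodes included).
* `fd0B` : the unramified analogue (`Rat` = functions fixed by the whole inertia group, scale `p ^ n`).

## Proofs
`node_decomp` (no `τ`) : as in the first half of the proof of `omega_node_aux` (`SSP/FirstNode.lean`) :
`w := f / h ^ p`, `a := ord_{x₁ e} (rd₁ w)`, `U := w / s ^ a`; `Geo.unit₂_of_unit₁`.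

`node_dvd` : `a = p a'`, `g := s ^ a' * h`, `f = U g ^ p`; `v₂(g) ^ p = v₂(f) / v₂(U) = 1`, so `v₂(g) = 1`
(`pow_eq_one_iff_of_ne_zero`/linear order); `v₁(g) = 1`; `rd_i f = rd_i U * (rd_i g) ^ p` and `ord (rd_i U) = 0` at the two
branches (`Geo.ord₂_eq_zero_of_unit`).

`good_dvd` (one valuation, abstract `IsReductionOn`) : `h' := h / c` with `c` a constant, `v(h') = 1`
(`IsReductionOn.scale`); `U := f / h' ^ p` is a unit without zero or pole over `Q`, so `ord_Q (rd U) = 0`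
(`IsReductionOn.div_red` : the push-forward of `div U` at `Q` is a sum of zeros; see the proof of `good_aux` in
`SSP/FirstGood.lean`), `ord_Q (rd f) = p ord_Q (rd h')`.

`fdA` : `n` from `𝒲.at₁.scale f`; `f' := f / z0 ^ n ∈ Rat`, `ord_P f' = ord_P f`.  Take a node `e₀` : `omega_node` gives the
integrality of `Ω(f')` and `m := a + n`.  `rd₁ Ω` is regular at the good points (`omega_good₁`) and at the `x₁ e`
(`omega_node`, `HasVal.ord_nonneg`), so it is constant (`IsSepParam.mem_range_of_forall_ord_nonneg`); same for `rd₂` (`omega_good₂` with `m`).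

`fdB` : good points: `good_dvd`.  Node `e` : `omega_node` gives `a n c` with `HasVal (x₁ e) (algebraMap b) c`,
`HasVal (x₂ e) (algebraMap b) (c + n)`, so `c = b = c + n` (`HasVal.unique`, `HasVal.const`), `(n : k) = 0`, `p ∣ n`
(`CharP.intCast_eq_zero_iff`); `v₂ (f / z0 ^ (p (a + n))) = 1 = v₂ f` and `v₂ z0 < 1` give `a + n = 0`; so `p ∣ a`, `p ∣ ord_{x₁ e} (rd₁ f)`.
Now `node_decomp` with `h' = h / z0 ^ n₁(h)` : its `a'` is `≡ ord_{x₁ e} (rd₁ f) ≡ 0`; `node_dvd`.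

`fd0B` : good points: `good_dvd`.  Node `e` : `h' := h / p ^ n₁(h)`; `node_decomp` : `f = U s ^ a h' ^ p`;
`1 = v₂ f = v₂(p) ^ a v₂(p) ^ (p n₂(h'))`, `v₂ p < 1`, so `a = - p n₂(h')`; `node_dvd`.
-/

set_option autoImplicit false

open AlgebraicCurve

namespace Fermat.Agent.SSP

open Fermat.Agent.RED Fermat.Agent.S24 Fermat.Agent.SS

variable {K F k Fb : Type*} [Field K] [Field F] [Algebra K F] [Field k] [Field Fb] [Algebra k Fb]
variable {T : TwoRed K F k Fb} {𝒩 : NodalData T} (𝒢 : Geo 𝒩)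

/-- `D` has local equations in `Rat` on every residue class. -/
structure LocEqs (Rat : Subfield F) (D : Divisor K F) : Prop where
  good₁ : ∀ Q : Place k Fb, Q ∉ Set.range 𝒩.x₁ →
    ∃ h ∈ Rat, h ≠ 0 ∧ ∀ P, 𝒢.r₁ P = Q → P.ord h = D P
  good₂ : ∀ Q : Place k Fb, Q ∉ Set.range 𝒩.x₂ →
    ∃ h ∈ Rat, h ≠ 0 ∧ ∀ P, 𝒢.r₂ P = Q → P.ord h = D P
  node : ∀ e : 𝒩.S, ∃ h ∈ Rat, h ≠ 0 ∧ ∀ P, 𝒢.Near e P → P.ord h = D P

/-- the local structure at a node -/
theorem node_decomp {p : ℕ} {s : F} (hs : SlopeFn 𝒢 p s) {f : F} (hf1 : T.R₁.O.valuation f = 1)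
    (D : Divisor K F) (hD : ∀ P : Place K F, P.ord f = p * D P) (e : 𝒩.S) {h : F}
    (hh1 : T.R₁.O.valuation h = 1) (hhD : ∀ P, 𝒢.Near e P → P.ord h = D P) :
    ∃ (a : ℤ) (U : F), f = U * s ^ a * h ^ p ∧ T.R₁.O.valuation U = 1 ∧ T.R₂.O.valuation U = 1 ∧
      (∀ P, 𝒢.Near e P → P.ord U = 0) ∧
      (𝒩.x₁ e).ord (rd₁ T f) = a + p * (𝒩.x₁ e).ord (rd₁ T h) := by
  have H1 := 𝒢.red₁
  have hf0 : f ≠ 0 := ne_zero_of_val_one hf1
  have hs0 : s ≠ 0 := ne_zero_of_val_one hs.val₁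
  have hh0 : h ≠ 0 := ne_zero_of_val_one hh1
  set w : F := f * (h ^ p)⁻¹ with hw
  have hw1 : T.R₁.O.valuation w = 1 :=
    val_mul_eq_one hf1 (val_inv_eq_one (val_pow_eq_one hh1 p))
  have hw0 : w ≠ 0 := ne_zero_of_val_one hw1
  have hrdw : rd₁ T w = rd₁ T f * (rd₁ T h ^ p)⁻¹ := by
    rw [rd₁, hw, rd_mul (mem_of_val_le hf1.le)
      (mem_of_val_le (val_inv_eq_one (val_pow_eq_one hh1 p)).le),
      rdOn_inv H1 (val_pow_eq_one hh1 p), rd_pow (mem_of_val_le hh1.le)]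
  set a : ℤ := (𝒩.x₁ e).ord (rd₁ T w) with ha
  set U : F := w * (s ^ a)⁻¹ with hU
  have hU1 : T.R₁.O.valuation U = 1 :=
    val_mul_eq_one hw1 (val_inv_eq_one (val_zpow_eq_one hs.val₁ a))
  have hrdU : rd₁ T U = rd₁ T w * (rd₁ T s ^ a)⁻¹ := by
    rw [rd₁, hU, rd_mul (mem_of_val_le hw1.le)
      (mem_of_val_le (val_inv_eq_one (val_zpow_eq_one hs.val₁ a)).le),
      rdOn_inv H1 (val_zpow_eq_one hs.val₁ a), rdOn_zpow H1 hs.val₁]
  have hordU : (𝒩.x₁ e).ord (rd₁ T U) = 0 := by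
    rw [hrdU, Place.ord_mul _ (H1.rd_ne_zero hw1)
      (inv_ne_zero (zpow_ne_zero _ (H1.rd_ne_zero hs.val₁))), Place.ord_inv, Place.ord_zpow,
      hs.ord₁ e, ← ha]
    ring
  have hUnear : ∀ P, 𝒢.Near e P → P.ord U = 0 := by
    intro P hP
    rw [hU, hw, Place.ord_mul _ (mul_ne_zero hf0 (inv_ne_zero (pow_ne_zero _ hh0)))
      (inv_ne_zero (zpow_ne_zero _ hs0)), Place.ord_mul _ hf0 (inv_ne_zero (pow_ne_zero _ hh0)),
      Place.ord_inv, Place.ord_inv, Place.ord_zpow, Place.ord_pow, hs.near e P hP, hD,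
      hhD P hP]
    ring
  have hU2 : T.R₂.O.valuation U = 1 := 𝒢.unit₂_of_unit₁ e hU1 hUnear hordU
  refine ⟨a, U, ?_, hU1, hU2, hUnear, ?_⟩
  · rw [hU, hw]
    field_simp
  · rw [ha, hrdw, Place.ord_mul _ (H1.rd_ne_zero hf1)
      (inv_ne_zero (pow_ne_zero _ (H1.rd_ne_zero hh1))), Place.ord_inv, Place.ord_pow]
    ring

theorem node_dvd {p : ℕ} (hp : p ≠ 0) {s : F} (hs : SlopeFn 𝒢 p s) {f : F}
    (hf1 : T.R₁.O.valuation f = 1) (hf2 : T.R₂.O.valuation f = 1) (e : 𝒩.S) {h U : F} {a : ℤ}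
    (hh1 : T.R₁.O.valuation h = 1) (hfU : f = U * s ^ a * h ^ p) (hU1 : T.R₁.O.valuation U = 1)
    (hU2 : T.R₂.O.valuation U = 1) (hU : ∀ P, 𝒢.Near e P → P.ord U = 0) (ha : (p : ℤ) ∣ a) :
    (p : ℤ) ∣ (𝒩.x₁ e).ord (rd₁ T f) ∧ (p : ℤ) ∣ (𝒩.x₂ e).ord (rd₂ T f) := by
  have H1 := 𝒢.red₁
  have H2 := 𝒢.red₂
  obtain ⟨a', rfl⟩ := ha
  have hs0 : s ≠ 0 := ne_zero_of_val_one hs.val₁
  set g : F := s ^ a' * h with hg
  have hfg : f = U * g ^ p := by
    rw [hfU, hg, mul_pow, ← zpow_natCast (s ^ a') p, ← zpow_mul, mul_comm a' (p : ℤ), mul_assoc]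
  have hg1 : T.R₁.O.valuation g = 1 := val_mul_eq_one (val_zpow_eq_one hs.val₁ a') hh1
  have hg2 : T.R₂.O.valuation g = 1 := by
    have h1 : T.R₂.O.valuation g ^ p = 1 := by
      have h2 := hf2
      rw [hfg, map_mul, hU2, one_mul, map_pow] at h2
      exact h2
    exact (pow_eq_one_iff.1 h1).resolve_right hp
  obtain ⟨hz1, hz2⟩ := 𝒢.ord₂_eq_zero_of_unit e hU1 hU2 hU
  constructor
  · refine ⟨(𝒩.x₁ e).ord (rd₁ T g), ?_⟩
    rw [hfg, rd₁, rd_mul (mem_of_val_le hU1.le) (mem_of_val_le (val_pow_eq_one hg1 p).le),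
      rd_pow (mem_of_val_le hg1.le), Place.ord_mul _ (H1.rd_ne_zero hU1)
      (pow_ne_zero _ (H1.rd_ne_zero hg1)), Place.ord_pow]
    rw [rd₁] at hz1
    rw [hz1, zero_add]
  · refine ⟨(𝒩.x₂ e).ord (rd₂ T g), ?_⟩
    rw [hfg, rd₂, rd_mul (mem_of_val_le hU2.le) (mem_of_val_le (val_pow_eq_one hg2 p).le),
      rd_pow (mem_of_val_le hg2.le), Place.ord_mul _ (H2.rd_ne_zero hU2)
      (pow_ne_zero _ (H2.rd_ne_zero hg2)), Place.ord_pow]
    rw [rd₂] at hz2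
    rw [hz2, zero_add]

theorem good_dvd {O : ValuationSubring F} {red : O →+* Fb} {r : Place K F → Place k Fb}
    {G : Set (Place k Fb)} (hR : IsReductionOn O red r G) {p : ℕ} {f : F}
    (hf1 : O.valuation f = 1) (D : Divisor K F) (hD : ∀ P : Place K F, P.ord f = p * D P)
    {Q : Place k Fb} (hQ : Q ∈ G) {h : F} (hh0 : h ≠ 0) (hhD : ∀ P, r P = Q → P.ord h = D P) :
    (p : ℤ) ∣ Q.ord (rd O red f) := by
  have hf0 : f ≠ 0 := ne_zero_of_val_one hf1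
  obtain ⟨c, hc⟩ := hR.scale h hh0
  have hvh0 : O.valuation h ≠ 0 := (Valuation.ne_zero_iff _).2 hh0
  have hc0 : c ≠ 0 := by
    rintro rfl
    rw [map_zero, map_zero] at hc
    exact hvh0 hc
  set h' : F := h * algebraMap K F c⁻¹ with hh'
  have hh'1 : O.valuation h' = 1 := by
    rw [hh', map_mul, map_inv₀, map_inv₀, ← hc, mul_inv_cancel₀ hvh0]
  have hh'0 : h' ≠ 0 := ne_zero_of_val_one hh'1
  have hh'ord : ∀ P : Place K F, P.ord h' = P.ord h := fun P =>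
    ord_mul_const P h (inv_ne_zero hc0)
  set U : F := f * (h' ^ p)⁻¹ with hU
  have hU1 : O.valuation U = 1 := val_mul_eq_one hf1 (val_inv_eq_one (val_pow_eq_one hh'1 p))
  have hUord : ∀ P, r P = Q → P.ord U = 0 := by
    intro P hP
    rw [hU, Place.ord_mul _ hf0 (inv_ne_zero (pow_ne_zero _ hh'0)), Place.ord_inv, Place.ord_pow,
      hD, hh'ord, hhD P hP]
    ring
  have hz := hR.ord_rd_eq_zero hU1 hQ hUord
  have hfU : f = U * h' ^ p := by
    rw [hU]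
    field_simp
  refine ⟨Q.ord (rd O red h'), ?_⟩
  rw [hfU, rd_mul (mem_of_val_le hU1.le) (mem_of_val_le (val_pow_eq_one hh'1 p).le),
    rd_pow (mem_of_val_le hh'1.le), Place.ord_mul _ (hR.rd_ne_zero hU1)
    (pow_ne_zero _ (hR.rd_ne_zero hh'1)), Place.ord_pow, hz, zero_add]

end Fermat.Agent.SSP
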