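import Fermat.Agent.SSP.FD

/-!
# SSP / [FD-A] : see the header of `SSP/FD.lean` for the proof
-/

set_option autoImplicit false

open AlgebraicCurve

namespace Fermat.Agent.SSP

open Fermat.Agent.RED Fermat.Agent.S24 Fermat.Agent.SS

variable {K F k Fb : Type*} [Field K] [Field F] [Algebra K F] [Field k] [Field Fb] [Algebra k Fb]
variable {T : TwoRed K F k Fb} {𝒩 : NodalData T} (𝒢 : Geo 𝒩)
variable {τ : SemilinearAut K F} {p : ℕ} (𝒲 : Wild T τ p)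

/-- **(FD-A)** -/
theorem fdA [IsAlgClosed k] {tb : Fb} (hb : IsSepParam k tb) [Nonempty 𝒩.S] (hp : p.Prime)
    (hτ : IsInert 𝒢 τ) {s : F} (hs : SlopeFn 𝒢 p s) (hsR : s ∈ 𝒲.Rat) (hsτ : τ • s = s) {f : F}
    (hf : f ∈ 𝒲.Rat) (hf0 : f ≠ 0) (D : Divisor K F) (hD : ∀ P : Place K F, P.ord f = p * D P)
    (hloc : LocEqs 𝒢 𝒲.Rat D) :
    ∃ (n m : ℤ) (b₁ b₂ : k),
      T.R₁.O.valuation (f * (algebraMap K F 𝒲.z0 ^ n)⁻¹) = 1 ∧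
      T.R₂.O.valuation (f * (algebraMap K F 𝒲.z0 ^ n)⁻¹ *
        (algebraMap K F 𝒲.z0 ^ ((p : ℤ) * m))⁻¹) = 1 ∧
      𝒲.Om (f * (algebraMap K F 𝒲.z0 ^ n)⁻¹) ∈ T.R₁.O ∧
      𝒲.Om (f * (algebraMap K F 𝒲.z0 ^ n)⁻¹) ∈ T.R₂.O ∧
      rd₁ T (𝒲.Om (f * (algebraMap K F 𝒲.z0 ^ n)⁻¹)) = algebraMap k Fb b₁ ∧
      rd₂ T (𝒲.Om (f * (algebraMap K F 𝒲.z0 ^ n)⁻¹)) = algebraMap k Fb b₂ := by
  obtain ⟨n, hn⟩ := 𝒲.at₁.scale f hf hf0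
  set f' : F := f * (algebraMap K F 𝒲.z0 ^ n)⁻¹ with hf'
  have hf'R : f' ∈ 𝒲.Rat := mul_mem hf (inv_mem (zpow_mem 𝒲.z0_rat n))
  have hf'ord : ∀ P : Place K F, P.ord f' = P.ord f := by
    intro P
    have : (algebraMap K F 𝒲.z0 ^ n)⁻¹ = algebraMap K F ((𝒲.z0 ^ n)⁻¹) := by
      rw [map_inv₀, map_zpow₀]
    rw [hf', this]
    exact ord_mul_const P f (inv_ne_zero (zpow_ne_zero _ 𝒲.z0_ne))
  have hD' : ∀ P : Place K F, P.ord f' = p * D P := fun P => by rw [hf'ord P, hD P]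
  have hnode : ∀ e : 𝒩.S, ∃ a n : ℤ, 𝒲.Om f' ∈ T.R₁.O ∧ 𝒲.Om f' ∈ T.R₂.O ∧
      (∃ c : k, HasVal (𝒩.x₁ e) (rd₁ T (𝒲.Om f')) c ∧
        HasVal (𝒩.x₂ e) (rd₂ T (𝒲.Om f')) (c + n)) ∧
      T.R₂.O.valuation (f' * (algebraMap K F 𝒲.z0 ^ ((p : ℤ) * (a + n)))⁻¹) = 1 ∧
      (p : ℤ) ∣ (𝒩.x₁ e).ord (rd₁ T f') - a := by
    intro e
    obtain ⟨h, hh, hh0, hhD⟩ := hloc.node e
    exact omega_node 𝒢 𝒲 hp hτ hs hsR hsτ hf'R hn D hD' e hh hh0 hhD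
  obtain ⟨e₀⟩ := (inferInstance : Nonempty 𝒩.S)
  obtain ⟨a, n', hO1, hO2, -, hm, -⟩ := hnode e₀
  have hreg1 : ∀ Q : Place k Fb, 0 ≤ Q.ord (rd₁ T (𝒲.Om f')) := by
    intro Q
    by_cases hQ : Q ∈ Set.range 𝒩.x₁
    · obtain ⟨e, rfl⟩ := hQ
      obtain ⟨_, _, _, _, ⟨c, hc1, _⟩, _, _⟩ := hnode e
      exact hc1.ord_nonneg
    · obtain ⟨h, hh, hh0, hhD⟩ := hloc.good₁ Q hQ
      exact omega_good₁ 𝒢 𝒲 hp hτ hf'R hn D hD' hQ hh hh0 hhD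
  have hreg2 : ∀ Q : Place k Fb, 0 ≤ Q.ord (rd₂ T (𝒲.Om f')) := by
    intro Q
    by_cases hQ : Q ∈ Set.range 𝒩.x₂
    · obtain ⟨e, rfl⟩ := hQ
      obtain ⟨_, _, _, _, ⟨c, _, hc2⟩, _, _⟩ := hnode e
      exact hc2.ord_nonneg
    · obtain ⟨h, hh, hh0, hhD⟩ := hloc.good₂ Q hQ
      exact omega_good₂ 𝒢 𝒲 hp hτ hf'R (a + n') hm D hD' hQ hh hh0 hhD
  obtain ⟨b₁, hb₁⟩ := hb.mem_range_of_forall_ord_nonneg hreg1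
  obtain ⟨b₂, hb₂⟩ := hb.mem_range_of_forall_ord_nonneg hreg2
  exact ⟨n, a + n', b₁, b₂, hn, hm, hO1, hO2, hb₁.symm, hb₂.symm⟩

end Fermat.Agent.SSP
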