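import Fermat.Agent.SSP.Calc
import Fermat.Agent.SSP.Slope

/-!
# SSP / [FIRST-GOOD] : `Ω = (τ f / f - 1) / η ^ p` is regular at the good points

One statement `good_aux` for ONE valuation ring `O` with an `IsReductionOn` structure, then the two
instances `omega_good₁_aux`, `omega_good₂_aux` (the statements of `omega_good₁`, `omega_good₂` of
`SSP/First.lean` with `Wild.Om` unfolded).

Proof.  `v(h / z0 ^ n) = 1` (`WildAt.scale`), `h₁ := h z0 ^ (m - n)`, `U := f / h₁ ^ p` : a unit of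
`Rat` without zero/pole over `Q`; `τ f / f = g(h₁) ^ p g(U)`,
`Ω = ((g(h₁) ^ p - 1) / c⋆) g(U) + (g(U) - 1) / c⋆`, the first factor has reduction the constant
`m` (`WildAt.pow_diff`), `g(U)` has reduction `1`, the last term is integral (`WildAt.unit_diff`)
without pole over `Q`.
-/

set_option autoImplicit false

open AlgebraicCurve

namespace Fermat.Agent.SSP

open Fermat.Agent.RED Fermat.Agent.S24 Fermat.Agent.SS

variable {K F k Fb : Type*} [Field K] [Field F] [Algebra K F] [Field k] [Field Fb] [Algebra k Fb]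

theorem good_aux {O : ValuationSubring F} {red : O →+* Fb} {r : Place K F → Place k Fb}
    {G : Set (Place k Fb)} (hR : IsReductionOn O red r G) {τ : SemilinearAut K F} {p : ℕ}
    {Rat : Subfield F} {z0 μ η : K} (W : WildAt O τ p Rat z0 μ η) (hp : p.Prime) (hz0 : z0 ≠ 0)
    (hμ : μ ≠ 0) (hτz : SemilinearAut.baseAut τ z0 = z0 + μ) (hη : η * z0 = μ)
    (hz : algebraMap K F z0 ∈ Rat) (hrd : ∀ f : F, rd O red (τ • f) = rd O red f)
    (hr : ∀ P : Place K F, r (τ • P) = r P) {f : F} (hf : f ∈ Rat) (m : ℤ)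
    (hfm : O.valuation (f * (algebraMap K F z0 ^ ((p : ℤ) * m))⁻¹) = 1) (D : Divisor K F)
    (hD : ∀ P : Place K F, P.ord f = p * D P) {Q : Place k Fb} (hQ : Q ∈ G) {h : F}
    (hh : h ∈ Rat) (hh0 : h ≠ 0) (hhD : ∀ P, r P = Q → P.ord h = D P) :
    0 ≤ Q.ord (rd O red (((τ • f) * f⁻¹ - 1) * (algebraMap K F (η ^ p))⁻¹)) := by
  have hη0 : η ≠ 0 := by
    rintro rfl
    rw [zero_mul] at hη
    exact hμ hη.symm
  set Z : F := algebraMap K F z0 with hZ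
  have hZ0 : Z ≠ 0 := by rw [hZ]; simpa using hz0
  set c : F := algebraMap K F (η ^ p) with hc
  have hc0 : c ≠ 0 := by rw [hc]; simpa using pow_ne_zero p hη0
  obtain ⟨n, hn⟩ := W.scale h hh hh0
  have hf0 : f ≠ 0 := by
    rintro rfl
    simp at hfm
  -- the normalised local equation
  set h₁ : F := h * Z ^ (m - n) with hh₁
  clear_value h₁
  have hh₁R : h₁ ∈ Rat := by rw [hh₁]; exact Rat.mul_mem hh (zpow_mem hz _)
  have hh₁0 : h₁ ≠ 0 := by rw [hh₁]; exact mul_ne_zero hh0 (zpow_ne_zero _ hZ0)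
  have hh₁v : O.valuation (h₁ * (Z ^ m)⁻¹) = 1 := by
    have e : h₁ * (Z ^ m)⁻¹ = h * (Z ^ n)⁻¹ := by
      rw [hh₁, zpow_sub₀ hZ0]
      field_simp
    rw [e, hn]
  -- the unit
  set U : F := f * (h₁ ^ p)⁻¹ with hU
  clear_value U
  have hUR : U ∈ Rat := by rw [hU]; exact Rat.mul_mem hf (Rat.inv_mem (Rat.pow_mem hh₁R p))
  have hU1 : O.valuation U = 1 := by
    have e : U = (f * (Z ^ ((p : ℤ) * m))⁻¹) * ((h₁ * (Z ^ m)⁻¹) ^ p)⁻¹ := by
      have e1 : Z ^ ((p : ℤ) * m) = (Z ^ m) ^ p := by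
        rw [mul_comm, zpow_mul, zpow_natCast]
      have e2 : (Z ^ m) ^ p ≠ 0 := pow_ne_zero _ (zpow_ne_zero _ hZ0)
      rw [hU, e1, mul_pow, inv_pow, mul_inv, inv_inv]
      field_simp
    rw [e, map_mul, hfm, map_inv₀, map_pow, hh₁v, one_pow, inv_one, one_mul]
  have hU0 : U ≠ 0 := IsReductionOn.ne_zero_of_val_eq_one hU1
  have hfU : f = h₁ ^ p * U := by
    rw [hU]
    field_simp
  have hτU1 : O.valuation (τ • U) = 1 := by rw [W.val_τ, hU1]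
  have hτU0 : τ • U ≠ 0 := IsReductionOn.ne_zero_of_val_eq_one hτU1
  set gh : F := (τ • h₁) * h₁⁻¹ with hgh
  set gU : F := (τ • U) * U⁻¹ with hgU
  have hgf : (τ • f) * f⁻¹ = gh ^ p * gU := by
    rw [hfU, smul_mul', smul_pow', hgh, hgU, mul_pow, inv_pow, mul_inv]
    ring
  set A : F := (gh ^ p - 1) * c⁻¹ with hA
  set B : F := (gU - 1) * c⁻¹ with hB
  have hΩ : ((τ • f) * f⁻¹ - 1) * c⁻¹ = A * gU + B := by
    rw [hgf, hA, hB]
    ring
  -- `A`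
  have hδ := W.pow_diff hp hz0 hμ hτz hη hz hh₁R hh₁v
  rw [← hgh, ← hc] at hδ
  set δ : F := (gh ^ p - 1 - (m : F) * c) * c⁻¹ with hδdef
  have hAδ : A = (m : F) + δ := by
    rw [hA, hδdef]
    field_simp
    ring
  have hmO : (m : F) ∈ O := intCast_mem O m
  have hδO : δ ∈ O := mem_of_val_le hδ.le
  have hAO : A ∈ O := by rw [hAδ]; exact O.add_mem _ _ hmO hδO
  have hrdA : rd O red A = rd O red (m : F) := by
    rw [hAδ, rd_add hmO hδO, hR.rd_eq_zero hδ, add_zero]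
  have hordA : Q.ord (rd O red A) = 0 := by
    rw [hrdA]
    have e : (m : F) = algebraMap K F (m : K) := by simp
    rw [e]
    exact ord_of_mem_range Q (hR.rd_const _)
  -- `gU`
  have hgUO : gU ∈ O := mem_of_val_le (by rw [hgU, map_mul, map_inv₀, hτU1, hU1, inv_one, one_mul])
  have hrdgU : rd O red gU = 1 := by
    rw [hgU, ← div_eq_mul_inv, hR.rd_div (mem_of_val_le hτU1.le) hU1, hrd, div_self (hR.rd_ne_zero hU1)]
  -- `B`
  have hBO : B ∈ O := W.unit_diff hμ hUR hU1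
  have hordU : ∀ P, r P = Q → P.ord U = 0 := by
    intro P hP
    have e1 : P.ord h₁ = D P := by
      have e : Z ^ (m - n) = algebraMap K F (z0 ^ (m - n)) := by rw [map_zpow₀]
      rw [hh₁, e, ord_mul_const _ _ (zpow_ne_zero _ hz0), hhD P hP]
    rw [hU, P.ord_mul hf0 (inv_ne_zero (pow_ne_zero _ hh₁0)), P.ord_inv, S24.Place.ord_pow, hD, e1]
    ring
  have hordτU : ∀ P, r P = Q → P.ord (τ • U) = 0 := by
    intro P hP
    have e1 := SemilinearAut.ord_smul τ (τ⁻¹ • P) U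
    rw [smul_inv_smul] at e1
    rw [e1]
    apply hordU
    rw [← hr, smul_inv_smul, hP]
  have hordB : 0 ≤ Q.ord (rd O red B) := by
    refine hR.ord_rd_nonneg hBO hQ fun P hP => ?_
    have e : c⁻¹ = algebraMap K F (η ^ p)⁻¹ := by rw [hc, map_inv₀]
    rw [hB, e, ord_mul_const _ _ (inv_ne_zero (pow_ne_zero p hη0))]
    have e2 : P.ord gU = 0 := by
      rw [hgU, P.ord_mul hτU0 (inv_ne_zero hU0), P.ord_inv, hordτU P hP, hordU P hP]
      ring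
    have := ord_sub_const_nonneg P (x := gU) (by rw [e2]) (1 : K)
    rwa [map_one] at this
  rw [hΩ, rd_add (O.mul_mem _ _ hAO hgUO) hBO, rd_mul hAO hgUO, hrdgU, mul_one]
  exact ord_add_ge' Q le_rfl hordA.ge hordB

variable {T : TwoRed K F k Fb} {𝒩 : NodalData T} (𝒢 : Geo 𝒩)
variable {τ : SemilinearAut K F} {p : ℕ} (𝒲 : Wild T τ p)

theorem omega_good₁_aux (hp : p.Prime) (hτ : IsInert 𝒢 τ) {f : F} (hf : f ∈ 𝒲.Rat)
    (hf1 : T.R₁.O.valuation f = 1) (D : Divisor K F) (hD : ∀ P : Place K F, P.ord f = p * D P)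
    {Q : Place k Fb} (hQ : Q ∉ Set.range 𝒩.x₁) {h : F} (hh : h ∈ 𝒲.Rat) (hh0 : h ≠ 0)
    (hhD : ∀ P, 𝒢.r₁ P = Q → P.ord h = D P) :
    0 ≤ Q.ord (rd₁ T (((τ • f) * f⁻¹ - 1) * (algebraMap K F (𝒲.η ^ p))⁻¹)) :=
  good_aux 𝒢.red₁ 𝒲.at₁ hp 𝒲.z0_ne 𝒲.μ_ne 𝒲.τ_z0 𝒲.η_mul 𝒲.z0_rat hτ.rd₁ hτ.r₁ hf 0
    (by simpa using hf1) D hD hQ hh hh0 hhD

theorem omega_good₂_aux (hp : p.Prime) (hτ : IsInert 𝒢 τ) {f : F} (hf : f ∈ 𝒲.Rat) (m : ℤ)
    (hf2 : T.R₂.O.valuation (f * (algebraMap K F 𝒲.z0 ^ ((p : ℤ) * m))⁻¹) = 1)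
    (D : Divisor K F) (hD : ∀ P : Place K F, P.ord f = p * D P)
    {Q : Place k Fb} (hQ : Q ∉ Set.range 𝒩.x₂) {h : F} (hh : h ∈ 𝒲.Rat) (hh0 : h ≠ 0)
    (hhD : ∀ P, 𝒢.r₂ P = Q → P.ord h = D P) :
    0 ≤ Q.ord (rd₂ T (((τ • f) * f⁻¹ - 1) * (algebraMap K F (𝒲.η ^ p))⁻¹)) :=
  good_aux 𝒢.red₂ 𝒲.at₂ hp 𝒲.z0_ne 𝒲.μ_ne 𝒲.τ_z0 𝒲.η_mul 𝒲.z0_rat hτ.rd₂ hτ.r₂ hf m
    hf2 D hD hQ hh hh0 hhD

end Fermat.Agent.SSP
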