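import Fermat.Agent.SSP.Calc
import Fermat.Agent.SSP.Slope
import Fermat.Agent.SS.Abs.Ev

/-!
# SSP / [FIRST] : the node relation (`omega_node_aux`)

See the header of `SSP/First.lean` for the proof.
-/

set_option autoImplicit false

open AlgebraicCurve

namespace Fermat.Agent.SSP

open Fermat.Agent.RED Fermat.Agent.S24 Fermat.Agent.SS

section Aux

variable {L F k Fb : Type*} [Field L] [Field F] [Algebra L F] [Field k] [Field Fb] [Algebra k Fb]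
variable {O : ValuationSubring F} {red : O →+* Fb} {r : Place L F → Place k Fb}
  {G : Set (Place k Fb)}

theorem val_mul_eq_one {x y : F} (hx : O.valuation x = 1) (hy : O.valuation y = 1) :
    O.valuation (x * y) = 1 := by rw [map_mul, hx, hy, one_mul]

theorem val_inv_eq_one {x : F} (hx : O.valuation x = 1) : O.valuation x⁻¹ = 1 := by
  rw [map_inv₀, hx, inv_one]

theorem val_pow_eq_one {x : F} (hx : O.valuation x = 1) (n : ℕ) : O.valuation (x ^ n) = 1 := by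
  rw [map_pow, hx, one_pow]

theorem val_zpow_eq_one {x : F} (hx : O.valuation x = 1) (n : ℤ) : O.valuation (x ^ n) = 1 := by
  rw [map_zpow₀, hx, one_zpow]

theorem ne_zero_of_val_one {x : F} (hx : O.valuation x = 1) : x ≠ 0 := by
  rintro rfl
  simp at hx

theorem eq_of_mul_inv_one {Γ : Type*} [GroupWithZero Γ] {x y : Γ} (hy : y ≠ 0)
    (h : x * y⁻¹ = 1) : x = y := by
  have := congrArg (· * y) h
  simpa [hy] using this

theorem quot_decomp (tU U sa th h : F) (p : ℕ) (hU : U ≠ 0) (hsa : sa ≠ 0) (hh : h ≠ 0) :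
    (tU * sa * th ^ p) * (U * sa * h ^ p)⁻¹ = (th * h⁻¹) ^ p * (tU * U⁻¹) := by
  rw [mul_pow, inv_pow]
  field_simp

theorem rdOn_inv (H : IsReductionOn O red r G) {x : F} (hx : O.valuation x = 1) :
    rd O red x⁻¹ = (rd O red x)⁻¹ := by
  have := H.rd_div O.one_mem hx
  rwa [one_div, rd_one, one_div] at this

theorem rdOn_zpow (H : IsReductionOn O red r G) {x : F} (hx : O.valuation x = 1) (n : ℤ) :
    rd O red (x ^ n) = (rd O red x) ^ n := by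
  have hxO : x ∈ O := mem_of_val_le hx.le
  cases n with
  | ofNat m => rw [Int.ofNat_eq_natCast, zpow_natCast, zpow_natCast, rd_pow hxO]
  | negSucc m =>
    rw [zpow_negSucc, zpow_negSucc, rdOn_inv H (val_pow_eq_one hx _), rd_pow hxO]

theorem rd_intCast (n : ℤ) : rd O red (n : F) = (n : Fb) := by
  have hn : (n : F) ∈ O := intCast_mem O n
  rw [rd_of_mem hn]
  have : (⟨(n : F), hn⟩ : O) = (n : O) := Subtype.ext (by push_cast; rfl)
  rw [this, map_intCast]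

end Aux

variable {K F k Fb : Type*} [Field K] [Field F] [Algebra K F] [Field k] [Field Fb] [Algebra k Fb]
variable {T : TwoRed K F k Fb} {𝒩 : NodalData T} (𝒢 : Geo 𝒩)
variable {τ : SemilinearAut K F} {p : ℕ} (𝒲 : Wild T τ p)

theorem IsInert.near_inv {𝒢 : Geo 𝒩} (hτ : IsInert 𝒢 τ) {e : 𝒩.S} {P : Place K F}
    (hP : 𝒢.Near e P) : 𝒢.Near e (τ⁻¹ • P) := by
  refine ⟨?_, ?_⟩
  · rw [← hτ.r₁ (τ⁻¹ • P), smul_inv_smul]; exact hP.1
  · rw [← hτ.r₂ (τ⁻¹ • P), smul_inv_smul]; exact hP.2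

theorem ord_smul_eq (P : Place K F) (u : F) : P.ord (τ • u) = (τ⁻¹ • P).ord u := by
  conv_lhs => rw [← smul_inv_smul τ P]
  exact SemilinearAut.ord_smul τ _ u

/-- the node relation -/
theorem omega_node_aux (hp : p.Prime) (hτ : IsInert 𝒢 τ) {s : F} (hs : SlopeFn 𝒢 p s)
    (hsR : s ∈ 𝒲.Rat) (hsτ : τ • s = s) {f : F} (hf : f ∈ 𝒲.Rat)
    (hf1 : T.R₁.O.valuation f = 1) (D : Divisor K F) (hD : ∀ P : Place K F, P.ord f = p * D P)
    (e : 𝒩.S) {h : F} (hh : h ∈ 𝒲.Rat) (hh0 : h ≠ 0) (hhD : ∀ P, 𝒢.Near e P → P.ord h = D P) :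
    ∃ a n : ℤ,
      ((τ • f) * f⁻¹ - 1) * (algebraMap K F (𝒲.η ^ p))⁻¹ ∈ T.R₁.O ∧
      ((τ • f) * f⁻¹ - 1) * (algebraMap K F (𝒲.η ^ p))⁻¹ ∈ T.R₂.O ∧
      (∃ c : k,
        HasVal (𝒩.x₁ e) (rd₁ T (((τ • f) * f⁻¹ - 1) * (algebraMap K F (𝒲.η ^ p))⁻¹)) c ∧
        HasVal (𝒩.x₂ e) (rd₂ T (((τ • f) * f⁻¹ - 1) * (algebraMap K F (𝒲.η ^ p))⁻¹)) (c + n)) ∧
      T.R₂.O.valuation (f * (algebraMap K F 𝒲.z0 ^ ((p : ℤ) * (a + n)))⁻¹) = 1 ∧
      (p : ℤ) ∣ (𝒩.x₁ e).ord (rd₁ T f) - a := by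
  have H1 := 𝒢.red₁
  have H2 := 𝒢.red₂
  set Z : F := algebraMap K F 𝒲.z0 with hZ
  set C : F := algebraMap K F (𝒲.η ^ p) with hC
  have hZ0 : Z ≠ 0 := by rw [hZ]; simpa using 𝒲.z0_ne
  have hη0 : 𝒲.η ≠ 0 := by
    intro h0
    apply 𝒲.μ_ne
    rw [← 𝒲.η_mul, h0, zero_mul]
  have hC0 : C ≠ 0 := by
    rw [hC, map_pow]
    exact pow_ne_zero _ (by simpa using hη0)
  have hZR : Z ∈ 𝒲.Rat := 𝒲.z0_rat
  have hf0 : f ≠ 0 := ne_zero_of_val_one hf1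
  have hs0 : s ≠ 0 := ne_zero_of_val_one hs.val₁
  -- normalise `h`
  obtain ⟨n₁, hn₁⟩ := 𝒲.at₁.scale h hh hh0
  set h' : F := h * (Z ^ n₁)⁻¹ with hh'
  have hh'R : h' ∈ 𝒲.Rat := mul_mem hh (inv_mem (zpow_mem hZR n₁))
  have hh'0 : h' ≠ 0 := mul_ne_zero hh0 (inv_ne_zero (zpow_ne_zero _ hZ0))
  have hh'ord : ∀ P : Place K F, P.ord h' = P.ord h := by
    intro P
    have : (Z ^ n₁)⁻¹ = algebraMap K F ((𝒲.z0 ^ n₁)⁻¹) := by rw [map_inv₀, map_zpow₀]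
    rw [hh', this]
    exact ord_mul_const P h (inv_ne_zero (zpow_ne_zero _ 𝒲.z0_ne))
  -- `w` and `U`
  set w : F := f * (h' ^ p)⁻¹ with hw
  have hw1 : T.R₁.O.valuation w = 1 :=
    val_mul_eq_one hf1 (val_inv_eq_one (val_pow_eq_one hn₁ p))
  have hw0 : w ≠ 0 := ne_zero_of_val_one hw1
  have hrdw : rd₁ T w = rd₁ T f * (rd₁ T h' ^ p)⁻¹ := by
    rw [rd₁, hw, rd_mul (mem_of_val_le hf1.le)
      (mem_of_val_le (val_inv_eq_one (val_pow_eq_one hn₁ p)).le),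
      rdOn_inv H1 (val_pow_eq_one hn₁ p), rd_pow (mem_of_val_le hn₁.le)]
  set a : ℤ := (𝒩.x₁ e).ord (rd₁ T w) with ha
  set U : F := w * (s ^ a)⁻¹ with hU
  have hU1 : T.R₁.O.valuation U = 1 :=
    val_mul_eq_one hw1 (val_inv_eq_one (val_zpow_eq_one hs.val₁ a))
  have hU0 : U ≠ 0 := ne_zero_of_val_one hU1
  have hUR : U ∈ 𝒲.Rat :=
    mul_mem (mul_mem hf (inv_mem (pow_mem hh'R p))) (inv_mem (zpow_mem hsR a))
  have hrdU : rd₁ T U = rd₁ T w * (rd₁ T s ^ a)⁻¹ := by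
    rw [rd₁, hU, rd_mul (mem_of_val_le hw1.le)
      (mem_of_val_le (val_inv_eq_one (val_zpow_eq_one hs.val₁ a)).le),
      rdOn_inv H1 (val_zpow_eq_one hs.val₁ a), rdOn_zpow H1 hs.val₁]
  have hordU : (𝒩.x₁ e).ord (rd₁ T U) = 0 := by
    rw [hrdU, Place.ord_mul _ (H1.rd_ne_zero hw1)
      (inv_ne_zero (zpow_ne_zero _ (H1.rd_ne_zero hs.val₁))), Place.ord_inv, Place.ord_zpow,
      hs.ord₁ e, ← ha]
    ring
  have hUnear : ∀ P, 𝒢.Near e P → P.ord U = 0 := by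
    intro P hP
    rw [hU, hw, Place.ord_mul _ (mul_ne_zero hf0 (inv_ne_zero (pow_ne_zero _ hh'0)))
      (inv_ne_zero (zpow_ne_zero _ hs0)), Place.ord_mul _ hf0 (inv_ne_zero (pow_ne_zero _ hh'0)),
      Place.ord_inv, Place.ord_inv, Place.ord_zpow, Place.ord_pow, hs.near e P hP, hD, hh'ord,
      hhD P hP]
    ring
  have hU2 : T.R₂.O.valuation U = 1 := 𝒢.unit₂_of_unit₁ e hU1 hUnear hordU
  obtain ⟨n, hn⟩ := 𝒲.at₂.scale h' hh'R hh'0
  refine ⟨a, n, ?_⟩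
  -- the decomposition
  set gh : F := (τ • h') * h'⁻¹ with hgh
  set gU : F := (τ • U) * U⁻¹ with hgU
  have hfdec : f = U * s ^ a * h' ^ p := by
    rw [hU, hw]
    field_simp
  have hτf : (τ • f) * f⁻¹ = gh ^ p * gU := by
    have h1 : τ • f = (τ • U) * s ^ a * (τ • h') ^ p := by
      conv_lhs => rw [hfdec]
      rw [smul_mul', smul_mul', smul_pow']
      congr 2
      have : τ • (s ^ a) = (τ • s) ^ a := by
        rw [SemilinearAut.smul_def, SemilinearAut.smul_def, map_zpow₀]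
      rw [this, hsτ]
    rw [h1, hgh, hgU]
    conv_lhs => rw [hfdec]
    exact quot_decomp _ _ _ _ _ p hU0 (zpow_ne_zero _ hs0) hh'0
  set X : F := (gh ^ p - 1) * C⁻¹ with hX
  set Y : F := (gU - 1) * C⁻¹ with hY
  have hΩ : ((τ • f) * f⁻¹ - 1) * C⁻¹ = X * gU + Y := by
    rw [hτf, hX, hY]; ring
  rw [hΩ]
  -- `X`
  have hX1 : T.R₁.O.valuation X < 1 := by
    have := 𝒲.at₁.pow_diff hp 𝒲.z0_ne 𝒲.μ_ne 𝒲.τ_z0 𝒲.η_mul 𝒲.z0_rat hh'R (n := 0)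
      (by simpa using hn₁)
    rw [Int.cast_zero, zero_mul, sub_zero] at this
    exact this
  have hX2 : T.R₂.O.valuation (X - (n : F)) < 1 := by
    have := 𝒲.at₂.pow_diff hp 𝒲.z0_ne 𝒲.μ_ne 𝒲.τ_z0 𝒲.η_mul 𝒲.z0_rat hh'R hn
    have h2 : (gh ^ p - 1 - (n : F) * C) * C⁻¹ = X - (n : F) := by
      rw [hX]; field_simp
    rwa [h2] at this
  have hnO2 : (n : F) ∈ T.R₂.O := intCast_mem _ n
  have hXO1 : X ∈ T.R₁.O := mem_of_val_le hX1.le
  have hXO2 : X ∈ T.R₂.O := by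
    have := T.R₂.O.add_mem _ _ (mem_of_val_le hX2.le) hnO2
    rwa [sub_add_cancel] at this
  have hrdX1 : rd₁ T X = 0 := H1.rd_eq_zero hX1
  have hrdX2 : rd₂ T X = (n : Fb) := by
    have h3 : rd₂ T (X - (n : F)) = 0 := H2.rd_eq_zero hX2
    rw [rd₂, rd_sub hXO2 hnO2, rd_intCast, sub_eq_zero] at h3
    exact h3
  -- `gU`
  have hτU1 : T.R₁.O.valuation (τ • U) = 1 := by rw [hτ.val₁, hU1]
  have hτU2 : T.R₂.O.valuation (τ • U) = 1 := by rw [hτ.val₂, hU2]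
  have hgU1 : T.R₁.O.valuation gU = 1 := val_mul_eq_one hτU1 (val_inv_eq_one hU1)
  have hgU2 : T.R₂.O.valuation gU = 1 := val_mul_eq_one hτU2 (val_inv_eq_one hU2)
  have hrdgU1 : rd₁ T gU = 1 := by
    rw [rd₁, hgU, rd_mul (mem_of_val_le hτU1.le) (mem_of_val_le (val_inv_eq_one hU1).le),
      rdOn_inv H1 hU1]
    have := hτ.rd₁ U
    rw [rd₁, rd₁] at this
    rw [this, mul_inv_cancel₀ (H1.rd_ne_zero hU1)]
  have hrdgU2 : rd₂ T gU = 1 := by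
    rw [rd₂, hgU, rd_mul (mem_of_val_le hτU2.le) (mem_of_val_le (val_inv_eq_one hU2).le),
      rdOn_inv H2 hU2]
    have := hτ.rd₂ U
    rw [rd₂, rd₂] at this
    rw [this, mul_inv_cancel₀ (H2.rd_ne_zero hU2)]
  -- `Y`
  have hYO1 : Y ∈ T.R₁.O := 𝒲.at₁.unit_diff 𝒲.μ_ne hUR hU1
  have hYO2 : Y ∈ T.R₂.O := 𝒲.at₂.unit_diff 𝒲.μ_ne hUR hU2
  have hYnear : ∀ P, 𝒢.Near e P → 0 ≤ P.ord Y := by
    intro P hP
    have h1 : P.ord (τ • U) = 0 := by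
      rw [ord_smul_eq]; exact hUnear _ (hτ.near_inv hP)
    have hτU0 : τ • U ≠ 0 := ne_zero_of_val_one hτU1
    have h2 : P.ord gU = 0 := by
      rw [hgU, Place.ord_mul _ hτU0 (inv_ne_zero hU0), Place.ord_inv, h1, hUnear P hP]; ring
    have h3 : 0 ≤ P.ord (gU - 1) := by
      have := ord_sub_const_nonneg P h2.ge (1 : K)
      rwa [map_one] at this
    have h4 : C⁻¹ = algebraMap K F ((𝒲.η ^ p)⁻¹) := by rw [map_inv₀]
    rw [hY, h4, ord_mul_const P _ (inv_ne_zero (pow_ne_zero _ hη0))]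
    exact h3
  obtain ⟨c, hc1, hc2⟩ := 𝒢.glue_rd e hYO1 hYO2 hYnear
  have hXg1 : X * gU ∈ T.R₁.O := T.R₁.O.mul_mem _ _ hXO1 (mem_of_val_le hgU1.le)
  have hXg2 : X * gU ∈ T.R₂.O := T.R₂.O.mul_mem _ _ hXO2 (mem_of_val_le hgU2.le)
  refine ⟨T.R₁.O.add_mem _ _ hXg1 hYO1, T.R₂.O.add_mem _ _ hXg2 hYO2, ⟨c, ?_, ?_⟩, ?_, ?_⟩
  · have : rd₁ T (X * gU + Y) = rd₁ T Y := by
      rw [rd₁, rd_add hXg1 hYO1, rd_mul hXO1 (mem_of_val_le hgU1.le)]
      rw [rd₁] at hrdX1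
      rw [hrdX1, zero_mul, zero_add]
    rw [this]; exact hc1
  · have : rd₂ T (X * gU + Y) = rd₂ T Y + algebraMap k Fb (n : k) := by
      rw [rd₂, rd_add hXg2 hYO2, rd_mul hXO2 (mem_of_val_le hgU2.le)]
      rw [rd₂] at hrdX2 hrdgU2
      rw [hrdX2, hrdgU2, mul_one, map_intCast, add_comm]
    rw [this]; exact hc2.add (HasVal.const _)
  · have hvZ0 : T.R₂.O.valuation Z ≠ 0 := (Valuation.ne_zero_iff _).2 hZ0
    have hpF : (p : F) ≠ 0 := by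
      have := 𝒲.p_ne
      intro h0
      apply this
      have h5 : algebraMap K F (p : K) = 0 := by rw [map_natCast]; exact h0
      exact (map_eq_zero (algebraMap K F)).1 h5
    have hvp0 : T.R₂.O.valuation (p : F) ≠ 0 := (Valuation.ne_zero_iff _).2 hpF
    have hvs : T.R₂.O.valuation s = T.R₂.O.valuation (p : F) := by
      have := hs.val₂
      rw [map_mul, map_inv₀] at this
      exact eq_of_mul_inv_one hvp0 this
    have hvZp : T.R₂.O.valuation Z ^ p = T.R₂.O.valuation (p : F) := by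
      have := 𝒲.at₂.z0_pow
      rw [map_mul, map_inv₀, map_pow, map_natCast, map_mul, map_inv₀, map_pow] at this
      exact eq_of_mul_inv_one hvp0 this
    have hvh : T.R₂.O.valuation h' = T.R₂.O.valuation Z ^ n := by
      rw [map_mul, map_inv₀, map_zpow₀] at hn
      exact eq_of_mul_inv_one (zpow_ne_zero _ hvZ0) hn
    rw [map_mul, map_inv₀, map_zpow₀]
    conv_lhs => rw [hfdec]
    rw [map_mul, map_mul, hU2, one_mul, map_zpow₀, map_pow, hvs, ← hvZp, hvh,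
      ← zpow_natCast (T.R₂.O.valuation Z) p, ← zpow_mul, ← zpow_natCast _ p, ← zpow_mul,
      ← zpow_add₀ hvZ0]
    have : (p : ℤ) * a + n * (p : ℤ) = (p : ℤ) * (a + n) := by ring
    rw [this, mul_inv_cancel₀ (zpow_ne_zero _ hvZ0)]
  · refine ⟨(𝒩.x₁ e).ord (rd₁ T h'), ?_⟩
    rw [ha, hrdw, Place.ord_mul _ (H1.rd_ne_zero hf1)
      (inv_ne_zero (pow_ne_zero _ (H1.rd_ne_zero hn₁))), Place.ord_inv, Place.ord_pow]
    ring

end Fermat.Agent.SSP
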