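import Fermat.Agent.SSP.Calc
import Fermat.Agent.SSP.Slope
import Fermat.Agent.RED.FF.LSpace
import Fermat.Agent.SSP.FirstNode
import Fermat.Agent.SSP.FirstGood

/-!
# SSP / [FIRST] : the slopes of a "little ramified" `p`-torsion class are constant mod `p`

`f ∈ Rat` with `div f = p D`, `Ω := (τ f / f - 1) / c⋆`, `c⋆ = η ^ p`, `g(u) := τ u / u`,
`n_i(u) ∈ ℤ` the exponent with `u / z0 ^ n_i(u)` a `v_i`-unit (`WildAt.scale`; it is unique because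
`z0` is not a unit).  WLOG (divide `f` by `z0 ^ n₁(f)`) `f` is a `v₁`-unit.

**Node `e`** (`omega_node`).  `h ∈ Rat` a local equation of `D` at `e`; WLOG (divide by
`z0 ^ n₁(h)`) `h` is a `v₁`-unit.  `w := f / h ^ p ∈ Rat` is a `v₁`-unit without zero/pole near `e`;
`a := ord_{x₁ e} (rd₁ w)`; `U := w / s ^ a` is a `v₁`-unit of order `0` at `x₁ e` without zero/pole
near `e`, so a `v₂`-unit (`Geo.unit₂_of_unit₁`).  `f = s ^ a h ^ p U`, `τ s = s`, hence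
`τ f / f = g(h) ^ p g(U)` and
`Ω = ((g(h) ^ p - 1) / c⋆) g(U) + (g(U) - 1) / c⋆`.
By `WildAt.pow_diff` the first factor is in `O₁ ∩ O₂` with reduction `(0, n)`, `n := n₂(h)`;
`g(U)` has reduction `(1, 1)` (`IsInert.rd₁/rd₂`); `(g(U) - 1) / c⋆ ∈ O₁ ∩ O₂` (`WildAt.unit_diff`)
has no pole near `e` (`ord_P (τ U) = ord_{τ⁻¹ P} U`, `IsInert.r₁/r₂`), so it is glued
(`Geo.glue_rd`).  Moreover `n₂(f) = p a + p n` (`s ∼₂ p ∼ z0 ^ p`) and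
`ord_{x₁ e} (rd₁ f) = a + p ord_{x₁ e} (rd₁ h)`.

**Good point `Q` of the component `i`** (`omega_good₁`, `omega_good₂`).  `h` a local equation,
WLOG a `v_i`-unit; `U := f / h ^ p` (`i = 1`), `U := f / (h ^ p p ^ m)` (`i = 2`, `n₂(f) = p m`,
`p ^ m ∼ z0 ^ (p m)`, `τ p = p`) is a `v_i`-unit of `Rat` without zero/pole over `Q`;
`rd_i Ω = 0 + rd_i ((g(U) - 1) / c⋆)` is regular at `Q` (`IsReductionOn.ord_rd_nonneg`).

**End.**  `rd₁ Ω`, `rd₂ Ω` are regular everywhere, so constants `β₁, β₂`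
(`IsSepParam.mem_range_of_forall_ord_nonneg`); the node relation gives `(n_e : k) = β₂ - β₁`, so
`n_e mod p` does not depend on `e` (`CharP k p`); `a_e + n_e = n₂(f) / p` does not depend on `e`.
-/

set_option autoImplicit false

open AlgebraicCurve

namespace Fermat.Agent.SSP

open Fermat.Agent.RED Fermat.Agent.S24 Fermat.Agent.SS

variable {K F k Fb : Type*} [Field K] [Field F] [Algebra K F] [Field k] [Field Fb] [Algebra k Fb]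
variable {T : TwoRed K F k Fb} {𝒩 : NodalData T} (𝒢 : Geo 𝒩)
variable {τ : SemilinearAut K F} {p : ℕ} (𝒲 : Wild T τ p)

/-- `Ω = (τ f / f - 1) / η ^ p` -/
noncomputable def Wild.Om (f : F) : F :=
  ((τ • f) * f⁻¹ - 1) * (algebraMap K F (𝒲.η ^ p))⁻¹

/-- the node relation -/
theorem omega_node (hp : p.Prime) (hτ : IsInert 𝒢 τ) {s : F} (hs : SlopeFn 𝒢 p s)
    (hsR : s ∈ 𝒲.Rat) (hsτ : τ • s = s) {f : F} (hf : f ∈ 𝒲.Rat)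
    (hf1 : T.R₁.O.valuation f = 1) (D : Divisor K F) (hD : ∀ P : Place K F, P.ord f = p * D P)
    (e : 𝒩.S) {h : F} (hh : h ∈ 𝒲.Rat) (hh0 : h ≠ 0) (hhD : ∀ P, 𝒢.Near e P → P.ord h = D P) :
    ∃ a n : ℤ, 𝒲.Om f ∈ T.R₁.O ∧ 𝒲.Om f ∈ T.R₂.O ∧
      (∃ c : k, HasVal (𝒩.x₁ e) (rd₁ T (𝒲.Om f)) c ∧ HasVal (𝒩.x₂ e) (rd₂ T (𝒲.Om f)) (c + n)) ∧
      T.R₂.O.valuation (f * (algebraMap K F 𝒲.z0 ^ ((p : ℤ) * (a + n)))⁻¹) = 1 ∧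
      (p : ℤ) ∣ (𝒩.x₁ e).ord (rd₁ T f) - a :=
  omega_node_aux 𝒢 𝒲 hp hτ hs hsR hsτ hf hf1 D hD e hh hh0 hhD

theorem omega_good₁ (hp : p.Prime) (hτ : IsInert 𝒢 τ) {f : F} (hf : f ∈ 𝒲.Rat)
    (hf1 : T.R₁.O.valuation f = 1) (D : Divisor K F) (hD : ∀ P : Place K F, P.ord f = p * D P)
    {Q : Place k Fb} (hQ : Q ∉ Set.range 𝒩.x₁) {h : F} (hh : h ∈ 𝒲.Rat) (hh0 : h ≠ 0)
    (hhD : ∀ P, 𝒢.r₁ P = Q → P.ord h = D P) :
    0 ≤ Q.ord (rd₁ T (𝒲.Om f)) :=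
  omega_good₁_aux 𝒢 𝒲 hp hτ hf hf1 D hD hQ hh hh0 hhD

theorem omega_good₂ (hp : p.Prime) (hτ : IsInert 𝒢 τ) {f : F} (hf : f ∈ 𝒲.Rat) (m : ℤ)
    (hf2 : T.R₂.O.valuation (f * (algebraMap K F 𝒲.z0 ^ ((p : ℤ) * m))⁻¹) = 1)
    (D : Divisor K F) (hD : ∀ P : Place K F, P.ord f = p * D P)
    {Q : Place k Fb} (hQ : Q ∉ Set.range 𝒩.x₂) {h : F} (hh : h ∈ 𝒲.Rat) (hh0 : h ≠ 0)
    (hhD : ∀ P, 𝒢.r₂ P = Q → P.ord h = D P) :
    0 ≤ Q.ord (rd₂ T (𝒲.Om f)) :=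
  omega_good₂_aux 𝒢 𝒲 hp hτ hf m hf2 D hD hQ hh hh0 hhD

end Fermat.Agent.SSP
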