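import Fermat.Agent.SSP.FD
import Fermat.Agent.SSP.NG.Inert

/-!
# SSP / [LOC], [THICK2] : local equations and the slope function from `ND.Rat`

`𝒢 = geo hx hb s₀`.  `hR : ND.Rat 𝒩 II` (every glued section on `n P` lifts to an `II`-fixed integral function).

## `locEqs_of_rat`
`H'` a subgroup of semilinear automorphisms contained in `II`.
* good point `Q` of the component `1` : `hR.exists_isLocalParam₁` gives an `II`-fixed `Tq` with
  `IsLocalParam T.R₁.O T.R₁.red (ND.r₁ 𝒩 s₀) Q Tq` (fields `mem`, `reg`, `ord`); the fibres of `gr₁` and `ND.r₁` over `Q` are the same (`gr₁_eq_iff`,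
  `G₁_eq_compl`); `coord_good₁`; the fibre is `H'`-stable (`(isInert_of_isCompat hx hb s₀ (hR.compat g _)).r₁`); `exists_locEq`.
* node `e` : `SlopeFn.isCoord`, `{P | Near e P}` is `H'`-stable (`IsInert.r₁`, `IsInert.r₂`); `exists_locEq` with `z = s`.

## `slopeFn_of_rat`
`near` : `(geo_near_iff ..).1` + `NodeTo.not_smooth` + `hnear`.
`ord₁` : let `n` be large (`≥ n₀` of `hR.lift`, `≥ n' + #S + 2`, `n'` large).  As in the proof of `ND.exists_fst` (`ND/LLGen.lean`), with `Q := x₁ e` :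
`E := X₁ n 0 - sumPts 𝒩.x₁`; `L(E - x₁ e) < L(E)` by `hn.2`; take `w₁ ∈ L(E)`, `∉ L(E - x₁ e)` : `ord_{x₁ e} w₁ = - E (x₁ e) = 1`
(`ord_eq_of_mem_L_of_notMem`, `sumPts_apply_self`, `off₁_X₁`), `(w₁, 0) ∈ LL (X₁ n 0) (X₂ n 0)`.
`u` := an `II`-fixed lift in `L(X n 0) ∩ O` (`hR.lift`).  `rd₁ u = w₁`, `rd₂ u = 0`, so `v₂ u < 1` and `v₂ (u / p) ≤ 1` by `scale0`.
`u` is regular at the places near `e` : `ord_v u ≥ - X n 0 v`, and `X n 0 v ≠ 0` implies `Smooth 𝒩 v` (`ND.smooth_of_X_ne_zero`), which is excluded by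
`NodeTo.not_smooth`.  Conclude with `ord₁_eq_one` (`SSP/Sep.lean`).
-/

set_option autoImplicit false

open AlgebraicCurve

namespace Fermat.Agent.SSP

open Fermat.Agent.RED Fermat.Agent.S24 Fermat.Agent.SS Fermat.Agent.ND

variable {K F k Fb : Type*} [Field K] [Field F] [Algebra K F] [Field k] [Field Fb] [Algebra k Fb]
variable {T : TwoRed K F k Fb} {𝒩 : NodalData T} [IsAlgClosed K] [IsAlgClosed k] {x : F} {t : Fb}

/-- **[LOC]** -/
theorem locEqs_of_rat (hx : IsSepParam K x) (hb : IsSepParam k t) (s₀ : 𝒩.S)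
    {II : Set (SemilinearAut K F)} (hR : ND.Rat 𝒩 II) (H' : Subgroup (SemilinearAut K F))
    (hH : ∀ g ∈ H', g ∈ II) {p : ℕ} (hp0 : (p : F) ≠ 0) (hp₁ : T.R₁.O.valuation (p : F) < 1)
    {s : F} (hs : SlopeFn (geo hx hb s₀) p s) (hsfix : ∀ g ∈ H', g • s = s)
    (Rat : Subfield F) (hRat : ∀ f : F, (∀ g ∈ H', g • f = f) → f ∈ Rat)
    (D : Divisor K F) (hD : ∀ g ∈ H', g • D = D) : LocEqs (geo hx hb s₀) Rat D := by
  have hin : ∀ g ∈ H', IsInert (geo hx hb s₀) g := fun g hg =>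
    isInert_of_isCompat hx hb s₀ (hR.compat g (hH g hg))
  refine ⟨fun Q hQ => ?_, fun Q hQ => ?_, fun e => ?_⟩
  · have hQ' : Q ∈ G₁ 𝒩 := by rw [G₁_eq_compl]; exact hQ
    obtain ⟨Tq, hfix, hT⟩ := hR.exists_isLocalParam₁ hx hb s₀ hQ'
    have hco : IsCoord {P | (geo hx hb s₀).r₁ P = Q} Tq :=
      coord_good₁ (geo hx hb s₀) hQ hT.mem
        (fun P hP => hT.reg P ((gr₁_eq_iff hx hb s₀ P hQ').1 hP)) hT.ord
    obtain ⟨h, h1, h2, h3⟩ := exists_locEq H' {P | (geo hx hb s₀).r₁ P = Q}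
      (fun σ hσ P hP => by
        show (geo hx hb s₀).r₁ (σ • P) = Q
        rw [(hin σ hσ).r₁]; exact hP)
      (fun σ hσ => hfix σ (hH σ hσ)) hco D hD
    exact ⟨h, hRat h h1, h2, fun P hP => h3 P hP⟩
  · have hQ' : Q ∈ G₂ 𝒩 := by rw [G₂_eq_compl]; exact hQ
    obtain ⟨Tq, hfix, hT⟩ := hR.exists_isLocalParam₂ hx hb s₀ hQ'
    have hco : IsCoord {P | (geo hx hb s₀).r₂ P = Q} Tq :=
      coord_good₂ (geo hx hb s₀) hQ hT.mem
        (fun P hP => hT.reg P ((gr₂_eq_iff hx hb s₀ P hQ').1 hP)) hT.ord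
    obtain ⟨h, h1, h2, h3⟩ := exists_locEq H' {P | (geo hx hb s₀).r₂ P = Q}
      (fun σ hσ P hP => by
        show (geo hx hb s₀).r₂ (σ • P) = Q
        rw [(hin σ hσ).r₂]; exact hP)
      (fun σ hσ => hfix σ (hH σ hσ)) hco D hD
    exact ⟨h, hRat h h1, h2, fun P hP => h3 P hP⟩
  · have hco := hs.isCoord (geo hx hb s₀) hx hb hp0 hp₁ e
    obtain ⟨h, h1, h2, h3⟩ := exists_locEq H' {P | (geo hx hb s₀).Near e P}
      (fun σ hσ P hP => by
        have hP : (geo hx hb s₀).Near e P := hP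
        show (geo hx hb s₀).r₁ (σ • P) = 𝒩.x₁ e ∧ (geo hx hb s₀).r₂ (σ • P) = 𝒩.x₂ e
        rw [(hin σ hσ).r₁, (hin σ hσ).r₂]; exact hP)
      hsfix hco D hD
    exact ⟨h, hRat h h1, h2, fun P hP => h3 P hP⟩

end Fermat.Agent.SSP
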