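import Fermat.Agent.SSP.Wild

/-!
# SSP / [LOCEQ] : invariant local equations of an invariant divisor

`C` a set of places (a residue class `D(ξ)`), stable under the group `H'`; `z` an `H'`-invariant
function which is a *coordinate* on `C` : for every `P ∈ C` there is a constant `c` (`= z(P)`)
such that `z - c` has a simple zero at `P` and no other zero or pole in `C`.
Then every `H'`-invariant divisor `D` has an `H'`-invariant local equation on `C` :
`h := ∏_{P ∈ supp D ∩ C} (z - z(P)) ^ D(P)`.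

Proof of the invariance: `c` is determined by `P` (if `z - c`, `z - c'` both vanish at `P` then the
constant `c - c'` vanishes at `P`); `ord_{σ P} (z - σ c) = ord_{σ P} (σ • (z - c)) = ord_P (z - c)`
(`SemilinearAut.ord_smul`), so `z(σ P) = σ (z(P))`; `σ` permutes `supp D ∩ C` and `D (σ P) = D P`
(`SemilinearAut.divisor_smul_apply_smul`); reindex the product.

`coord_good₁/₂` : a function `z ∈ O_i`, regular over the good point `Q`, whose reduction has a simple
zero at `Q`, is a coordinate on `{P | r_i P = Q}` : `c := z(P)` (`IsReductionOn.exists_value`) is in the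
maximal ideal of `A` (`IsReductionOn.val_value_le_one` + `ord_rd_pos`), so `rd (z - c) = rd z`, and
(P1) = `IsReductionOn.div_red` gives `∑_{r P' = Q} ord_{P'} (z - c) = 1` with nonnegative terms.
-/

set_option autoImplicit false

open AlgebraicCurve

namespace Fermat.Agent.SSP

open Fermat.Agent.RED Fermat.Agent.S24 Fermat.Agent.SS

variable {K F k Fb : Type*} [Field K] [Field F] [Algebra K F] [Field k] [Field Fb] [Algebra k Fb]

/-- `z` is a coordinate on the set of places `C`. -/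
def IsCoord (C : Set (Place K F)) (z : F) : Prop :=
  ∀ P ∈ C, ∃ c : K, P.ord (z - algebraMap K F c) = 1 ∧
    ∀ P' ∈ C, P' ≠ P → P'.ord (z - algebraMap K F c) = 0

theorem ord_finset_prod_ssp (P : Place K F) {ι : Type*} (s : Finset ι) (y : ι → F)
    (hy : ∀ i ∈ s, y i ≠ 0) : P.ord (∏ i ∈ s, y i) = ∑ i ∈ s, P.ord (y i) := by
  classical
  induction s using Finset.induction_on with
  | empty => simp
  | insert i s hi ih =>
    rw [Finset.prod_insert hi, Finset.sum_insert hi,
      P.ord_mul (hy i (Finset.mem_insert_self i s))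
        (Finset.prod_ne_zero_iff.2 fun j hj => hy j (Finset.mem_insert_of_mem hj)),
      ih fun j hj => hy j (Finset.mem_insert_of_mem hj)]

/-- the value of a function at a place is unique -/
theorem const_eq_of_ord_pos (P : Place K F) {z : F} {a b : K}
    (ha : 0 < P.ord (z - algebraMap K F a)) (hb : 0 < P.ord (z - algebraMap K F b)) : a = b := by
  by_contra hne
  have hx1 : z - algebraMap K F a ≠ 0 := ne_zero_of_ord_ne_zero _ ha.ne'
  have hx2 : z - algebraMap K F b ≠ 0 := ne_zero_of_ord_ne_zero _ hb.ne'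
  have hd : (z - algebraMap K F a) + -(z - algebraMap K F b) = algebraMap K F (b - a) := by
    rw [map_sub]; ring
  have hd0 : algebraMap K F (b - a) ≠ 0 := by
    simpa [sub_eq_zero] using (Ne.symm hne)
  have := Place.ord_add_ge P hx1 (neg_ne_zero.mpr hx2) (by rw [hd]; exact hd0)
  rw [hd, Place.ord_algebraMap, Place.ord_neg] at this
  have := lt_min ha hb
  omega

/-- **[LOCEQ]** -/
theorem exists_locEq (H' : Subgroup (SemilinearAut K F)) (C : Set (Place K F))
    (hC : ∀ σ ∈ H', ∀ P ∈ C, σ • P ∈ C) {z : F} (hz : ∀ σ ∈ H', σ • z = z) (hzC : IsCoord C z)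
    (D : Divisor K F) (hD : ∀ σ ∈ H', σ • D = D) :
    ∃ h : F, (∀ σ ∈ H', σ • h = h) ∧ h ≠ 0 ∧ ∀ P ∈ C, P.ord h = D P := by
  classical
  obtain ⟨cc, hcc⟩ : ∃ cc : Place K F → K, ∀ P ∈ C, P.ord (z - algebraMap K F (cc P)) = 1 ∧
      ∀ P' ∈ C, P' ≠ P → P'.ord (z - algebraMap K F (cc P)) = 0 := by
    refine ⟨fun P => if h : P ∈ C then (hzC P h).choose else 0, fun P hP => ?_⟩
    simp only [dif_pos hP]
    exact (hzC P hP).choose_spec
  set S : Finset (Place K F) := D.support.filter (· ∈ C) with hS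
  have hSC : ∀ P ∈ S, P ∈ C := fun P hP => (Finset.mem_filter.1 hP).2
  have hne : ∀ P ∈ S, (z - algebraMap K F (cc P)) ^ (D P) ≠ 0 := fun P hP =>
    zpow_ne_zero _ (ne_zero_of_ord_ne_zero P (by rw [(hcc P (hSC P hP)).1]; norm_num))
  have hDσ : ∀ σ ∈ H', ∀ P, D (σ • P) = D P := by
    intro σ hσ P
    conv_lhs => rw [← hD σ hσ]
    exact SemilinearAut.divisor_smul_apply_smul σ D P
  have hCσ : ∀ σ ∈ H', ∀ P, σ • P ∈ C ↔ P ∈ C := by
    intro σ hσ P
    refine ⟨fun h => ?_, hC σ hσ P⟩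
    have := hC σ⁻¹ (H'.inv_mem hσ) _ h
    rwa [inv_smul_smul] at this
  refine ⟨∏ P ∈ S, (z - algebraMap K F (cc P)) ^ (D P), fun σ hσ => ?_,
    Finset.prod_ne_zero_iff.2 hne, fun P hP => ?_⟩
  · have hcσ : ∀ P ∈ C, SemilinearAut.baseAut σ (cc P) = cc (σ • P) := by
      intro P hP
      refine const_eq_of_ord_pos (σ • P) (z := z) ?_ ?_
      · rw [← SemilinearAut.smul_algebraMap, ← hz σ hσ, ← smul_sub, SemilinearAut.ord_smul,
          (hcc P hP).1]
        norm_num
      · rw [(hcc _ (hC σ hσ P hP)).1]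
        norm_num
    rw [Finset.smul_prod']
    refine Finset.prod_equiv (MulAction.toPerm σ) (fun P => ?_) (fun P hP => ?_)
    · simp only [hS, Finset.mem_filter, Finsupp.mem_support_iff, MulAction.toPerm_apply,
        hDσ σ hσ, hCσ σ hσ]
    · rw [MulAction.toPerm_apply, hDσ σ hσ, ← hcσ P (hSC P hP), SemilinearAut.smul_def, map_zpow₀,
        ← SemilinearAut.smul_def, smul_sub, hz σ hσ, SemilinearAut.smul_algebraMap]
  · rw [ord_finset_prod_ssp P S _ hne]
    have h1 : ∀ P' ∈ S, P.ord ((z - algebraMap K F (cc P')) ^ (D P')) =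
        if P' = P then D P else 0 := by
      intro P' hP'
      rw [Place.ord_zpow]
      split_ifs with h
      · subst h; rw [(hcc P' hP).1, mul_one]
      · rw [(hcc P' (hSC P' hP')).2 P hP (Ne.symm h), mul_zero]
    rw [Finset.sum_congr rfl h1, Finset.sum_ite_eq' S P]
    split_ifs with h
    · rfl
    · have : P ∉ D.support := fun h' => h (Finset.mem_filter.2 ⟨h', hP⟩)
      exact (Finsupp.notMem_support_iff.1 this).symm

variable {T : TwoRed K F k Fb} {𝒩 : NodalData T} (𝒢 : Geo 𝒩)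

theorem coord_good₁ {Q : Place k Fb} (hQ : Q ∉ Set.range 𝒩.x₁) {z : F} (hz : z ∈ T.R₁.O)
    (hreg : ∀ P, 𝒢.r₁ P = Q → 0 ≤ P.ord z) (h1 : Q.ord (rd₁ T z) = 1) :
    IsCoord {P | 𝒢.r₁ P = Q} z := by
  intro P hP
  obtain ⟨a, -, ha1, ha0⟩ := 𝒢.red₁.exists_shift hQ ⟨hz, hreg, h1⟩ hP
  exact ⟨a, ha1, fun P' hP' hne => ha0 P' hP' hne⟩

theorem coord_good₂ {Q : Place k Fb} (hQ : Q ∉ Set.range 𝒩.x₂) {z : F} (hz : z ∈ T.R₂.O)
    (hreg : ∀ P, 𝒢.r₂ P = Q → 0 ≤ P.ord z) (h1 : Q.ord (rd₂ T z) = 1) :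
    IsCoord {P | 𝒢.r₂ P = Q} z := by
  intro P hP
  obtain ⟨a, -, ha1, ha0⟩ := 𝒢.red₂.exists_shift hQ ⟨hz, hreg, h1⟩ hP
  exact ⟨a, ha1, fun P' hP' hne => ha0 P' hP' hne⟩

end Fermat.Agent.SSP
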