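import Fermat.Agent.SSP.Sup

/-!
# SSP / [SUP2] : the `s`-trick for the scale, general uniformiser `ϖ`

Same proof as the part (h2) of `wildAt_half` in `SSP/Sup.lean` (copy it; there `ϖ = z0`; the only property of `z0` which is used in
that part is `z0 ≠ 0`).  For `v₂` use `p / s` instead of `s` (as in `wildAt_of_sup`).
-/

set_option autoImplicit false

open AlgebraicCurve

namespace Fermat.Agent.SSP

open Fermat.Agent.RED Fermat.Agent.S24 Fermat.Agent.SS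

variable {K F k Fb : Type*} [Field K] [Field F] [Algebra K F] [Field k] [Field Fb] [Algebra k Fb]

private theorem sup2_lt_one_iff_inv {R Γ : Type*} [Field R] [LinearOrderedCommGroupWithZero Γ]
    (v : Valuation R Γ) {x : R} (hx : x ≠ 0) : v x < 1 ↔ ¬ v x⁻¹ ≤ 1 := by
  rw [map_inv₀, inv_le_one₀ (zero_lt_iff.2 ((Valuation.ne_zero_iff v).2 hx)), not_le]

private theorem sup2_const_le {A : ValuationSubring K} {O : ValuationSubring F}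
    (hA : ∀ c : K, c ∈ A ↔ algebraMap K F c ∈ O) (c : K) :
    O.valuation (algebraMap K F c) ≤ 1 ↔ A.valuation c ≤ 1 := by
  rw [ValuationSubring.valuation_le_one_iff, ValuationSubring.valuation_le_one_iff, hA]

private theorem sup2_const_lt {A : ValuationSubring K} {O : ValuationSubring F}
    (hA : ∀ c : K, c ∈ A ↔ algebraMap K F c ∈ O) (c : K) :
    O.valuation (algebraMap K F c) < 1 ↔ A.valuation c < 1 := by
  rcases eq_or_ne c 0 with rfl | hc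
  · simp
  · have hc' : algebraMap K F c ≠ 0 := by simpa using hc
    rw [sup2_lt_one_iff_inv _ hc, sup2_lt_one_iff_inv _ hc', ← map_inv₀, sup2_const_le hA]

private theorem sup2_val_eq_one (R : RedData K F k Fb) {y : F} (h : y ∈ R.O)
    (hr : R.red ⟨y, h⟩ ≠ 0) : R.O.valuation y = 1 :=
  (ValuationSubring.valuation_eq_one_iff R.O ⟨y, h⟩).1 ((R.red_ne_zero_iff _).1 hr)

/-- one half of `scale_of_sup`. -/
private theorem scale_half {A : ValuationSubring K} {O O' : ValuationSubring F}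
    (hA : ∀ c : K, c ∈ A ↔ algebraMap K F c ∈ O) (hA' : ∀ c : K, c ∈ A ↔ algebraMap K F c ∈ O')
    (sc : ∀ f : F, f ≠ 0 → ∃ c : K, O.valuation (algebraMap K F c * f) = 1)
    (sc' : ∀ f : F, f ≠ 0 → ∃ c : K, O'.valuation (algebraMap K F c * f) = 1)
    (arch : ∀ π c : K, c ≠ 0 → π ∈ A → π⁻¹ ∉ A → ∃ n : ℕ, π ^ n * c⁻¹ ∈ A)
    {p : ℕ} {Rat : Subfield F} {ϖ : K} (hp0 : (p : K) ≠ 0) (hpA : A.valuation (p : K) < 1)
    (hϖ0 : ϖ ≠ 0) {s : F} (hsR : s ∈ Rat) (hs : O.valuation s = 1)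
    (hs' : O'.valuation (s * (p : F)⁻¹) = 1)
    (scale : ∀ u ∈ Rat, u ≠ 0 → ∃ n : ℤ, O.valuation (u * (algebraMap K F ϖ ^ n)⁻¹) ≤ 1 ∧
      (O.valuation (u * (algebraMap K F ϖ ^ n)⁻¹) = 1 ∨
        O'.valuation (u * (algebraMap K F ϖ ^ n)⁻¹) = 1)) :
    ∀ u ∈ Rat, u ≠ 0 → ∃ n : ℤ, O.valuation (u * (algebraMap K F ϖ ^ n)⁻¹) = 1 := by
  have hpF : (p : F) ≠ 0 := by
    have : (p : F) = algebraMap K F (p : K) := by simp
    rw [this]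
    exact (map_ne_zero (algebraMap K F)).2 hp0
  have hZ0 : algebraMap K F ϖ ≠ 0 := by simpa using hϖ0
  have hs0 : s ≠ 0 := by
    rintro rfl
    simp at hs
  have hpmem : (p : K) ∈ A := (A.valuation_le_one_iff _).1 hpA.le
  have hpinv : (p : K)⁻¹ ∉ A := by
    rw [← A.valuation_le_one_iff]
    exact (sup2_lt_one_iff_inv _ hp0).1 hpA
  have key' : ∀ (u : F) (c₂ : K) (N : ℕ), c₂ ≠ 0 →
      u * s ^ N = (algebraMap K F c₂ * u) * (s * (p : F)⁻¹) ^ N *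
        algebraMap K F ((p : K) ^ N * c₂⁻¹) := by
    intro u c₂ N hc₂
    have hc₂' : algebraMap K F c₂ ≠ 0 := by simpa using hc₂
    rw [map_mul, map_inv₀, map_pow, map_natCast, mul_pow, inv_pow]
    field_simp
  intro u hu hu0
  obtain ⟨c₁, hc₁⟩ := sc u hu0
  obtain ⟨c₂, hc₂⟩ := sc' u hu0
  have hc₁0 : c₁ ≠ 0 := by
    rintro rfl
    simp at hc₁
  have hc₂0 : c₂ ≠ 0 := by
    rintro rfl
    simp at hc₂
  obtain ⟨N₀, hN₀⟩ := arch (p : K) (c₂ / c₁) (div_ne_zero hc₂0 hc₁0) hpmem hpinv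
  set N := N₀ + 1 with hN
  obtain ⟨n, h1, h3⟩ := scale (u * s ^ N) (Rat.mul_mem hu (Rat.pow_mem hsR N))
    (mul_ne_zero hu0 (pow_ne_zero _ hs0))
  have hZn : algebraMap K F ϖ ^ n ≠ 0 := zpow_ne_zero _ hZ0
  have hc₁' : algebraMap K F c₁ ≠ 0 := by simpa using hc₁0
  -- the `O`-valuation
  have e1 : u * s ^ N * (algebraMap K F ϖ ^ n)⁻¹ =
      (algebraMap K F c₁ * u) * s ^ N * algebraMap K F (c₁⁻¹ * (ϖ ^ n)⁻¹) := by
    rw [map_mul, map_inv₀, map_inv₀, map_zpow₀]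
    field_simp
  have ha : A.valuation (c₁⁻¹ * (ϖ ^ n)⁻¹) ≤ 1 := by
    rw [← sup2_const_le hA]
    rw [e1, map_mul, map_mul, hc₁, map_pow, hs, one_pow, one_mul, one_mul] at h1
    exact h1
  have hb : A.valuation ((p : K) ^ N * (c₂ / c₁)⁻¹) < 1 := by
    rw [hN, pow_succ, mul_right_comm, map_mul, mul_comm]
    exact mul_lt_one_of_lt_of_le hpA ((A.valuation_le_one_iff _).2 hN₀)
  have e2 : u * s ^ N * (algebraMap K F ϖ ^ n)⁻¹ =
      (algebraMap K F c₂ * u) * (s * (p : F)⁻¹) ^ N *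
        algebraMap K F ((p : K) ^ N * (c₂ / c₁)⁻¹ * (c₁⁻¹ * (ϖ ^ n)⁻¹)) := by
    rw [key' u c₂ N hc₂0, mul_assoc _ _ (algebraMap K F ϖ ^ n)⁻¹, ← map_zpow₀, ← map_inv₀,
      ← map_mul]
    congr 2
    field_simp
  have h4 : O'.valuation (u * s ^ N * (algebraMap K F ϖ ^ n)⁻¹) < 1 := by
    rw [e2, map_mul, map_mul, hc₂, map_pow, hs', one_pow, one_mul, one_mul, sup2_const_lt hA',
      map_mul]
    exact mul_lt_one_of_lt_of_le hb ha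
  have h5 : O.valuation (u * s ^ N * (algebraMap K F ϖ ^ n)⁻¹) = 1 :=
    h3.resolve_right (ne_of_lt h4)
  refine ⟨n, ?_⟩
  rw [mul_right_comm, map_mul, map_pow, hs, one_pow, mul_one] at h5
  exact h5

theorem scale_of_sup {T : TwoRed K F k Fb}
    (arch : ∀ π c : K, c ≠ 0 → π ∈ T.A → π⁻¹ ∉ T.A → ∃ n : ℕ, π ^ n * c⁻¹ ∈ T.A)
    {p : ℕ} (hp0 : (p : K) ≠ 0) (hpA : T.A.valuation (p : K) < 1) {Rat : Subfield F} {ϖ : K}
    (hϖ0 : ϖ ≠ 0) {s : F} (hsR : s ∈ Rat) (hs₁ : T.R₁.O.valuation s = 1)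
    (hs₂ : T.R₂.O.valuation (s * (p : F)⁻¹) = 1)
    (scale : ∀ u ∈ Rat, u ≠ 0 →
      ∃ (n : ℤ) (h : u * (algebraMap K F ϖ ^ n)⁻¹ ∈ T.O), T.red ⟨_, h⟩ ≠ 0) :
    (∀ u ∈ Rat, u ≠ 0 → ∃ n : ℤ, T.R₁.O.valuation (u * (algebraMap K F ϖ ^ n)⁻¹) = 1) ∧
    (∀ u ∈ Rat, u ≠ 0 → ∃ n : ℤ, T.R₂.O.valuation (u * (algebraMap K F ϖ ^ n)⁻¹) = 1) := by
  have hA₁ : ∀ c : K, c ∈ T.A ↔ algebraMap K F c ∈ T.R₁.O := fun _ => Iff.rfl
  have hA₂ : ∀ c : K, c ∈ T.A ↔ algebraMap K F c ∈ T.R₂.O := fun c => T.const_mem c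
  have sc₁ : ∀ f : F, f ≠ 0 → ∃ c : K, T.R₁.O.valuation (algebraMap K F c * f) = 1 := by
    intro f hf
    obtain ⟨c, h, hr⟩ := T.R₁.exists_scale f hf
    exact ⟨c, sup2_val_eq_one T.R₁ h hr⟩
  have sc₂ : ∀ f : F, f ≠ 0 → ∃ c : K, T.R₂.O.valuation (algebraMap K F c * f) = 1 := by
    intro f hf
    obtain ⟨c, h, hr⟩ := T.R₂.exists_scale f hf
    exact ⟨c, sup2_val_eq_one T.R₂ h hr⟩
  have hsc : ∀ u ∈ Rat, u ≠ 0 → ∃ n : ℤ,
      T.R₁.O.valuation (u * (algebraMap K F ϖ ^ n)⁻¹) ≤ 1 ∧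
      T.R₂.O.valuation (u * (algebraMap K F ϖ ^ n)⁻¹) ≤ 1 ∧
      (T.R₁.O.valuation (u * (algebraMap K F ϖ ^ n)⁻¹) = 1 ∨
        T.R₂.O.valuation (u * (algebraMap K F ϖ ^ n)⁻¹) = 1) := by
    intro u hu hu0
    obtain ⟨n, h, hr⟩ := scale u hu hu0
    refine ⟨n, (T.R₁.O.valuation_le_one_iff _).2 h.1, (T.R₂.O.valuation_le_one_iff _).2 h.2, ?_⟩
    by_cases h1 : (T.red ⟨_, h⟩).1 = 0
    · right
      refine sup2_val_eq_one T.R₂ h.2 fun h2 => hr (Prod.ext h1 h2)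
    · left
      exact sup2_val_eq_one T.R₁ h.1 h1
  have hpF : (p : F) ≠ 0 := by
    have : (p : F) = algebraMap K F (p : K) := by simp
    rw [this]
    exact (map_ne_zero (algebraMap K F)).2 hp0
  have hs0 : s ≠ 0 := by
    rintro rfl
    simp at hs₁
  refine ⟨scale_half hA₁ hA₂ sc₁ sc₂ arch hp0 hpA hϖ0 hsR hs₁ hs₂
    (fun u hu hu0 => by
      obtain ⟨n, h1, -, h3⟩ := hsc u hu hu0
      exact ⟨n, h1, h3⟩),
    scale_half (s := (p : F) * s⁻¹) hA₂ hA₁ sc₂ sc₁ arch hp0 hpA hϖ0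
      (Rat.mul_mem (natCast_mem Rat p) (Rat.inv_mem hsR)) ?_ ?_
    (fun u hu hu0 => by
      obtain ⟨n, -, h2, h3⟩ := hsc u hu hu0
      exact ⟨n, h2, h3.symm⟩)⟩
  · have e : (p : F) * s⁻¹ = (s * (p : F)⁻¹)⁻¹ := by rw [mul_inv, inv_inv, mul_comm]
    rw [e, map_inv₀, hs₂, inv_one]
  · have e : (p : F) * s⁻¹ * (p : F)⁻¹ = s⁻¹ := by field_simp
    rw [e, map_inv₀, hs₁, inv_one]

end Fermat.Agent.SSP
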