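import Fermat.Agent.SSP.Loc

/-!
# SSP / [THICK2] : proof in the header of `SSP/Loc.lean`
-/

set_option autoImplicit false

open AlgebraicCurve

namespace Fermat.Agent.SSP

open Fermat.Agent.RED Fermat.Agent.S24 Fermat.Agent.SS Fermat.Agent.ND

variable {K F k Fb : Type*} [Field K] [Field F] [Algebra K F] [Field k] [Field Fb] [Algebra k Fb]
variable {T : TwoRed K F k Fb} {𝒩 : NodalData T} [IsAlgClosed K] [IsAlgClosed k] {x : F} {t : Fb}

/-- **[THICK2]** -/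
theorem slopeFn_of_rat (hx : IsSepParam K x) (hb : IsSepParam k t) (s₀ : 𝒩.S)
    {II : Set (SemilinearAut K F)} (hR : ND.Rat 𝒩 II) {p : ℕ}
    (hp₂ : T.R₂.O.valuation (p : F) < 1)
    (scale0 : ∀ u : F, (∀ g ∈ II, g • u = u) → T.R₂.O.valuation u < 1 →
      T.R₂.O.valuation (u * (p : F)⁻¹) ≤ 1)
    {s : F} (h1 : T.R₁.O.valuation s = 1) (h2 : T.R₂.O.valuation (s * (p : F)⁻¹) = 1)
    (hnear : ∀ v : Place K F, ¬ Smooth 𝒩 v → v.ord s = 0) : SlopeFn (geo hx hb s₀) p s := by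
  classical
  have hnear' : ∀ e P, (geo hx hb s₀).Near e P → P.ord s = 0 := fun e P hP =>
    hnear P (((geo_near_iff hx hb s₀ e P).1 hP).not_smooth hx hb)
  refine ⟨h1, h2, hnear', fun e => ?_⟩
  obtain ⟨n₀, hn₀⟩ := hR.lift
  obtain ⟨n', hn'⟩ := 𝒩.exists_isLarge hx hb
  set n := max n₀ (n' + 2) with hn
  have hn1 : n₀ ≤ n := le_max_left _ _
  have hn2 : n' + 2 ≤ n := le_max_right _ _
  have hdegX : ((n + 0 : ℕ) : ℤ) ≤ Divisor.degree (𝒩.X₁ n 0) := 𝒩.le_degree_X₁ n 0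
  set E := 𝒩.X₁ n 0 - sumPts 𝒩.x₁ with hE
  have hdeg : Divisor.degree E = Divisor.degree (𝒩.X₁ n 0) - Fintype.card 𝒩.S := by
    rw [hE, map_sub, degree_sumPts hb]
  have hn2' : (n' : ℤ) + 2 ≤ n := by exact_mod_cast hn2
  rw [add_zero] at hdegX
  have f1 := hn'.2 E (by omega)
  have f2 := hn'.2 (E - Finsupp.single (𝒩.x₁ e) 1) (by rw [map_sub, hb.degree_single]; omega)
  rw [map_sub, hb.degree_single] at f2
  have hle : riemannRochSpace (E - Finsupp.single (𝒩.x₁ e) 1) ≤ riemannRochSpace E :=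
    L_mono (sub_le_self _ (Finsupp.single_nonneg.2 zero_le_one))
  have hlt : riemannRochSpace (E - Finsupp.single (𝒩.x₁ e) 1) < riemannRochSpace E := by
    refine lt_of_le_of_ne hle fun h => ?_
    rw [h] at f2
    omega
  obtain ⟨w₁, hw, hw'⟩ := SetLike.exists_of_lt hlt
  obtain ⟨hw0, hord⟩ := ord_eq_of_mem_L_of_notMem hw hw'
  have hord1 : (𝒩.x₁ e).ord w₁ = 1 := by
    rw [hord, hE, Finsupp.sub_apply, sumPts_apply_self 𝒩.x₁_inj, off₁_X₁ n 0 e]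
    norm_num
  have hLL : (w₁, (0 : Fb)) ∈ LL 𝒩 (𝒩.X₁ n 0) (𝒩.X₂ n 0) := by
    refine ⟨L_mono (sub_le_self _ (sumPts_nonneg _)) hw, Submodule.zero_mem _,
      fun s => ⟨0, ?_, by simpa using HasVal.const (Q := 𝒩.x₂ s) (0 : k)⟩⟩
    rw [hasVal_zero_iff]
    right
    have := (mem_L_iff_of_ne_zero hw0).1 hw (𝒩.x₁ s)
    rw [hE, Finsupp.sub_apply, sumPts_apply_self 𝒩.x₁_inj, off₁_X₁ n 0 s] at this
    show 0 < (𝒩.x₁ s).ord w₁
    omega
  obtain ⟨u, huL, hured, hufix⟩ := hn₀ n hn1 _ hLL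
  have hr1 : rd₁ T (u : F) = w₁ := by
    rw [rd₁, rd_of_mem u.2.1]
    exact congrArg Prod.fst hured
  have hr2 : rd₂ T (u : F) = 0 := by
    rw [rd₂, rd_of_mem u.2.2]
    exact congrArg Prod.snd hured
  have hv2 : T.R₂.O.valuation (u : F) < 1 :=
    ((geo hx hb s₀).red₂.rd_eq_zero_iff u.2.2).1 hr2
  have hu0 : (u : F) ≠ 0 := by
    intro h0
    apply hw0
    rw [← hr1, h0, rd₁, rd_of_mem (T.R₁.O.zero_mem)]
    exact map_zero _
  refine ord₁_eq_one (geo hx hb s₀) e h1 h2 hp₂ (hnear' e) u.2.1 (scale0 _ hufix hv2)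
    (fun P hP => ?_) (by rw [hr1]; exact hord1)
  have hns : ¬ Smooth 𝒩 P := ((geo_near_iff hx hb s₀ e P).1 hP).not_smooth hx hb
  have hX : 𝒩.X n 0 P = 0 := by
    by_contra hne
    exact hns (smooth_of_X_ne_zero hx hb hne)
  have := (mem_L_iff_of_ne_zero hu0).1 huL P
  rw [hX] at this
  omega

end Fermat.Agent.SSP
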