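import Fermat.Agent.SSP.RatLat
import Fermat.Agent.ND.Eqv

/-!
# SSP / [RATLAT-B] : proof in the header of `SSP/RatLat.lean`
-/

set_option autoImplicit false

open AlgebraicCurve

namespace Fermat.Agent.SSP

open Fermat.Agent.RED Fermat.Agent.S24 Fermat.Agent.SS Fermat.Agent.ND

variable {K F k Fb : Type*} [Field K] [Field F] [Algebra K F] [Field k] [Field Fb] [Algebra k Fb]

/-- **[RATLAT-B]** -/
theorem rat_of_scale {T : TwoRed K F k Fb} {𝒩 : NodalData T} [IsAlgClosed K] [IsAlgClosed k]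
    {x : F} {t : Fb} (hx : IsSepParam K x) (hb : IsSepParam k t)
    (II : Set (SemilinearAut K F)) (compat : ∀ g ∈ II, IsCompat 𝒩 g 1)
    {ϖ : K} (hϖ0 : ϖ ≠ 0) (hϖ : T.A.valuation ϖ < 1)
    (hϖfix : ∀ g ∈ II, SemilinearAut.baseAut g ϖ = ϖ)
    (res : ∀ a ∈ T.A, ∃ b ∈ T.A, (∀ g ∈ II, SemilinearAut.baseAut g b = b) ∧
      T.A.valuation (a - b) < 1)
    (scale : ∀ u : F, (∀ g ∈ II, g • u = u) → u ≠ 0 →
      ∃ (n : ℤ) (h : u * (algebraMap K F ϖ ^ n)⁻¹ ∈ T.O), T.red ⟨_, h⟩ ≠ 0)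
    (desc : ∀ V : Submodule K F, (∀ g ∈ II, ∀ v ∈ V, g • v ∈ V) →
      Submodule.span K {v | v ∈ V ∧ ∀ g ∈ II, g • v = v} = V) :
    ND.Rat 𝒩 II := by
  refine ⟨compat, ?_⟩
  obtain ⟨n₀, hn₀⟩ := 𝒩.exists_isLarge hx hb
  refine ⟨n₀, fun n hn w hw => ?_⟩
  have : FiniteDimensional K (riemannRochSpace (𝒩.X n 0)) := hx.finite_L _
  have hstab : ∀ g ∈ II, ∀ v ∈ riemannRochSpace (𝒩.X n 0), g • v ∈ riemannRochSpace (𝒩.X n 0) := by
    intro g hg v hv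
    have hX : g • 𝒩.X n 0 = 𝒩.X n 0 := by
      have e : 𝒩.X n 0 = n • 𝒩.P := by simp only [NodalData.X, zero_nsmul, add_zero]
      rw [e, smul_comm, (compat g hg).P]
    have := NodalData.ws_smul_mem_L g hv
    rwa [hX] at this
  have hw' : w ∈ T.redSub (riemannRochSpace (𝒩.X n 0)) := by
    rw [← W_zero_eq hx hb hn₀ (a := n) (b := 0) (by omega)] at hw
    have e : 𝒩.W 0 n 0 = T.redSub (riemannRochSpace (𝒩.X n 0)) := by
      rw [NodalData.W, zero_add]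
    rwa [e] at hw
  exact exists_fixed_lift 𝒩.on2 𝒩.arch II hϖ0 hϖ hϖfix res scale _ (desc _ hstab) hw'

end Fermat.Agent.SSP
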