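import Fermat.Agent.ND.ParamA
import Fermat.Agent.SS.Abs.Lattice

/-!
# SSP / [RATLAT] : rationality of the lattices `V ∩ O` (Galois descent of reductions)

`II` a set of semilinear automorphisms ("inertia"), `K₀` its field of fixed constants; `ϖ ∈ K₀` a uniformiser of `K₀`
(in the application `ϖ = p`).  Hypotheses:
* `res`   : every residue class of `A` contains an `II`-fixed element;
* `scale` : every `II`-fixed function `u ≠ 0` has sup-norm in `|ϖ| ^ ℤ`;
* `hV`    : the finite dimensional `K`-subspace `V` of `F` is spanned by its `II`-fixed elements;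
* `on2`, `arch` as in `NodalData`.
Then every element of `red (V ∩ O)` is the reduction of an `II`-FIXED element of `V ∩ O`.

## Proof of `exists_fixed_lift`
`V₀ := {v ∈ V | II-fixed}`, `W := T.redSub V`, `W₀ := {red u | u ∈ V₀ ∩ O}`.  `W₀` is a `k`-subspace of `W` (scalars: lift `ā` to `a ∈ A`
(`T.R₁.exists_const`), replace `a` by an `II`-fixed `b` (`res`), `red (b u) = ā red u`).  Assume `W₀ ≠ W`.
Let `u₁ .. u_m ∈ V₀ ∩ O` with `red u_i` a basis of `W₀`; `U := span_K (u_i)`.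
(A) ORTHONORMALITY: if `x = ∑ c_i u_i ∈ O` then all `c_i ∈ A` and `red x ∈ W₀`.  (Otherwise divide by the `c_j` of maximal valuation:
    `0 = red (x / c_j) = ∑ red (c_i / c_j) red u_i` with coefficient `1` at `j`.)  In particular the `u_i` are `K`-linearly independent, `dim U = m`.
(B) `m = dim W₀ < dim W ≤ dim V` (`T.finrank_redSub_le`), so `U ≠ V` and (`hV`) there is `y ∈ V₀`, `y ∉ U`.  `on2` for `U' := U + K y`
    (`dim = m + 1`) gives `x = ∑ c_i u_i + c y ∈ O` with `red x ∉ W₀`; `c ≠ 0` by (A).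
(C) `S := {n : ℤ | ∃ z ∈ U, z II-fixed, (y - z) / ϖ ^ n ∈ O}`; it is nonempty (`scale y`, `z = 0`).
  * `S` bounded above, `n` its maximum, `z` a witness, `y' := (y - z) / ϖ ^ n ∈ V₀ ∩ O`.  `red y' ∈ W₀`, so `red y' = ∑ ā_i red u_i`; `a_i` `II`-fixed lifts;
    `y'' := y' - ∑ a_i u_i` is `II`-fixed, `≠ 0` (as `y ∉ U`), `red y'' = 0`; `scale y''` : `y'' / ϖ ^ n'' ∈ O` with `red ≠ 0`, so `n'' ≥ 1` and `y'' / ϖ ∈ O` :
    `n + 1 ∈ S`, contradiction.
  * `S` not bounded above: by `arch` there is `n ∈ S` with `|c ϖ ^ n| < 1`; `x = c ϖ ^ n ((y - z) / ϖ ^ n) + x'`, `x' := c z + ∑ c_i u_i ∈ U ∩ O`,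
    `red x = red x' ∈ W₀` by (A): contradiction.

## `rat_of_scale`
`V = L(X n 0)`; `LL (X₁ n 0) (X₂ n 0) = 𝒩.W 0 n 0 = T.redSub (L(0 + X n 0))` for `n` large (`ND.W_zero_eq`); `L(X n 0)` is stable under `g ∈ II`
(`NodalData.ws_smul_mem_L`, `(compat g hg).P`, see the proof of `ND.W_neg_smul`), finite dimensional (`hx.finite_L`).
-/

set_option autoImplicit false

open AlgebraicCurve

namespace Fermat.Agent.SSP

open Fermat.Agent.RED Fermat.Agent.S24 Fermat.Agent.SS Fermat.Agent.ND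

variable {K F k Fb : Type*} [Field K] [Field F] [Algebra K F] [Field k] [Field Fb] [Algebra k Fb]

/-- `u` is fixed by all the elements of `II` -/
private def Fx (II : Set (SemilinearAut K F)) (u : F) : Prop := ∀ g ∈ II, g • u = u

private theorem Fx.add {II : Set (SemilinearAut K F)} {u v : F} (hu : Fx II u) (hv : Fx II v) :
    Fx II (u + v) := fun g hg => by rw [smul_add, hu g hg, hv g hg]

private theorem Fx.sub {II : Set (SemilinearAut K F)} {u v : F} (hu : Fx II u) (hv : Fx II v) :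
    Fx II (u - v) := fun g hg => by rw [smul_sub, hu g hg, hv g hg]

private theorem Fx.mul {II : Set (SemilinearAut K F)} {u v : F} (hu : Fx II u) (hv : Fx II v) :
    Fx II (u * v) := fun g hg => by rw [smul_mul', hu g hg, hv g hg]

private theorem Fx.inv {II : Set (SemilinearAut K F)} {u : F} (hu : Fx II u) :
    Fx II u⁻¹ := fun g hg => by rw [smul_inv'', hu g hg]

private theorem Fx.pow {II : Set (SemilinearAut K F)} {u : F} (hu : Fx II u) (n : ℕ) :
    Fx II (u ^ n) := fun g hg => by rw [smul_pow', hu g hg]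

private theorem Fx.zpow {II : Set (SemilinearAut K F)} {u : F} (hu : Fx II u) (n : ℤ) :
    Fx II (u ^ n) := by
  cases n with
  | ofNat n => simpa using hu.pow n
  | negSucc n => rw [zpow_negSucc]; exact (hu.pow _).inv

private theorem Fx.const {II : Set (SemilinearAut K F)} {c : K}
    (hc : ∀ g ∈ II, SemilinearAut.baseAut g c = c) : Fx II (algebraMap K F c) :=
  fun g hg => by rw [SemilinearAut.smul_algebraMap, hc g hg]

private theorem Fx.sum {II : Set (SemilinearAut K F)} {ι : Type*} (s : Finset ι) (f : ι → F)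
    (h : ∀ i ∈ s, Fx II (f i)) : Fx II (∑ i ∈ s, f i) := fun g hg => by
  rw [Finset.smul_sum]
  exact Finset.sum_congr rfl fun i hi => h i hi g hg

private theorem rl_red_const_zero {T : TwoRed K F k Fb} {c : K} (hc : T.A.valuation c < 1)
    (h : algebraMap K F c ∈ T.O) : T.red ⟨algebraMap K F c, h⟩ = 0 := by
  rcases eq_or_ne c 0 with rfl | hc0
  · have : (⟨algebraMap K F 0, h⟩ : T.O) = 0 := Subtype.ext (map_zero _)
    rw [this, map_zero]
  · have hcA : c ∈ T.A := (T.A.valuation_le_one_iff c).1 hc.le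
    have hinv : c⁻¹ ∉ T.A := by
      rw [← T.A.valuation_le_one_iff, map_inv₀, not_le]
      exact (one_lt_inv₀ (zero_lt_iff.2 ((Valuation.ne_zero_iff _).2 hc0))).2 hc
    exact T.red_const_eq_zero hcA hinv

private theorem rl_const_mul (a : k) (w : Fb × Fb) :
    ((algebraMap k Fb a, algebraMap k Fb a) : Fb × Fb) * w = a • w := by
  apply Prod.ext <;> simp [Algebra.smul_def]

/-- **[RATLAT-A]** -/
theorem exists_fixed_lift {T : TwoRed K F k Fb}
    (on2 : ∀ V : Submodule K F, FiniteDimensional K V →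
      Module.finrank K V ≤ Module.finrank k (T.redSub V))
    (arch : ∀ π c : K, c ≠ 0 → π ∈ T.A → π⁻¹ ∉ T.A → ∃ n : ℕ, π ^ n * c⁻¹ ∈ T.A)
    (II : Set (SemilinearAut K F)) {ϖ : K} (hϖ0 : ϖ ≠ 0) (hϖ : T.A.valuation ϖ < 1)
    (hϖfix : ∀ g ∈ II, SemilinearAut.baseAut g ϖ = ϖ)
    (res : ∀ a ∈ T.A, ∃ b ∈ T.A, (∀ g ∈ II, SemilinearAut.baseAut g b = b) ∧
      T.A.valuation (a - b) < 1)
    (scale : ∀ u : F, (∀ g ∈ II, g • u = u) → u ≠ 0 →
      ∃ (n : ℤ) (h : u * (algebraMap K F ϖ ^ n)⁻¹ ∈ T.O), T.red ⟨_, h⟩ ≠ 0)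
    (V : Submodule K F) [FiniteDimensional K V]
    (hV : Submodule.span K {v | v ∈ V ∧ ∀ g ∈ II, g • v = v} = V)
    {w : Fb × Fb} (hw : w ∈ T.redSub V) :
    ∃ u : T.O, (u : F) ∈ V ∧ T.red u = w ∧ ∀ g ∈ II, g • (u : F) = u := by
  classical
  -- fixed lifts of the residue classes
  have L1 : ∀ a : k, ∃ (b : K) (hb : b ∈ T.A), (∀ g ∈ II, SemilinearAut.baseAut g b = b) ∧
      T.red ⟨algebraMap K F b, T.algebraMap_mem_O hb⟩ =
        (algebraMap k Fb a, algebraMap k Fb a) := by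
    intro a
    obtain ⟨c, hc, hca⟩ := T.R₁.exists_const a
    obtain ⟨b, hb, hbfix, hlt⟩ := res c hc
    refine ⟨b, hb, hbfix, ?_⟩
    have h1 : T.red ⟨algebraMap K F c, T.algebraMap_mem_O hc⟩ =
        (algebraMap k Fb a, algebraMap k Fb a) :=
      Prod.ext hca ((T.const_red c hc ((T.const_mem c).1 hc)).symm.trans hca)
    have h2 : T.red ⟨algebraMap K F (c - b), T.algebraMap_mem_O (T.A.sub_mem hc hb)⟩ = 0 :=
      rl_red_const_zero hlt _
    have h3 : (⟨algebraMap K F b, T.algebraMap_mem_O hb⟩ : T.O) =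
        ⟨algebraMap K F c, T.algebraMap_mem_O hc⟩ -
          ⟨algebraMap K F (c - b), T.algebraMap_mem_O (T.A.sub_mem hc hb)⟩ :=
      Subtype.ext (by simp)
    rw [h3, map_sub, h1, h2, sub_zero]
  -- the reductions of the fixed elements
  let W₀ : Submodule k (Fb × Fb) :=
    { carrier := {w | ∃ u : T.O, (u : F) ∈ V ∧ Fx II (u : F) ∧ T.red u = w}
      zero_mem' := ⟨0, V.zero_mem, fun g _ => smul_zero g, map_zero _⟩
      add_mem' := by
        rintro _ _ ⟨u, hu, hfu, rfl⟩ ⟨v, hv, hfv, rfl⟩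
        exact ⟨u + v, V.add_mem hu hv, hfu.add hfv, map_add _ _ _⟩
      smul_mem' := by
        rintro a _ ⟨u, hu, hfu, rfl⟩
        obtain ⟨b, hb, hbfix, hbr⟩ := L1 a
        refine ⟨⟨algebraMap K F b, T.algebraMap_mem_O hb⟩ * u, ?_, (Fx.const hbfix).mul hfu, ?_⟩
        · show algebraMap K F b * (u : F) ∈ V
          rw [← Algebra.smul_def]
          exact V.smul_mem _ hu
        · rw [map_mul, hbr, rl_const_mul] }
  suffices hle : T.redSub V ≤ W₀ by
    obtain ⟨u, hu, hfu, hr⟩ := hle hw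
    exact ⟨u, hu, hr, hfu⟩
  have hW₀le : W₀ ≤ T.redSub V := by
    rintro _ ⟨u, hu, -, rfl⟩
    exact ⟨u, hu, rfl⟩
  have := T.finite_redSub V
  have : FiniteDimensional k W₀ := Submodule.finiteDimensional_of_le hW₀le
  let B := Module.finBasis k W₀
  choose u huV hufix hured using fun i => (B i).2
  have hli : LinearIndependent k (fun i => T.red (u i)) := by
    have : (fun i => T.red (u i)) = W₀.subtype ∘ B := by
      funext i; exact hured i
    rw [this]
    exact B.linearIndependent.map' _ (Submodule.ker_subtype _)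
  let U : Submodule K F := Submodule.span K (Set.range fun i => (u i : F))
  have huU : ∀ i, (u i : F) ∈ U := fun i => Submodule.subset_span ⟨i, rfl⟩
  have hUV : U ≤ V := Submodule.span_le.2 (by rintro _ ⟨i, rfl⟩; exact huV i)
  have : FiniteDimensional K U := Submodule.finiteDimensional_of_le hUV
  have hUdim : Module.finrank K U = Module.finrank k W₀ := by
    have := finrank_span_eq_card (T.linearIndependent_of_red u hli)
    simpa using this
  -- (A)
  have hA' : T.redSub U ≤ W₀ := by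
    rintro _ ⟨x, hx, rfl⟩
    obtain ⟨c, hc, hsum⟩ := T.exists_coeff_of_lifts U hUdim.le u huU hli x hx
    have e : x = ∑ i, (⟨algebraMap K F (c i), T.algebraMap_mem_O (hc i)⟩ : T.O) * u i :=
      Subtype.ext (by rw [AddSubmonoidClass.coe_finsetSum]; exact hsum)
    rw [e, map_sum]
    refine W₀.sum_mem fun i _ => ?_
    obtain ⟨a, ha⟩ := T.exists_red_const (hc i)
    rw [map_mul, ha, rl_const_mul]
    exact W₀.smul_mem a ⟨u i, huV i, hufix i, rfl⟩
  -- fixed lifts in `U`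
  have L3 : ∀ w ∈ W₀, ∃ s : T.O, (s : F) ∈ U ∧ Fx II (s : F) ∧ T.red s = w := by
    intro w hw
    choose b hb hbfix hbr using fun a => L1 a
    refine ⟨∑ i, (⟨algebraMap K F (b (B.repr ⟨w, hw⟩ i)), T.algebraMap_mem_O (hb _)⟩ : T.O) * u i,
      ?_, ?_, ?_⟩
    · rw [AddSubmonoidClass.coe_finsetSum]
      refine U.sum_mem fun i _ => ?_
      show algebraMap K F _ * (u i : F) ∈ U
      rw [← Algebra.smul_def]
      exact U.smul_mem _ (huU i)
    · rw [AddSubmonoidClass.coe_finsetSum]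
      exact Fx.sum _ _ fun i _ => (Fx.const (hbfix _)).mul (hufix i)
    · rw [map_sum]
      have h := B.sum_repr ⟨w, hw⟩
      have h' := congrArg Subtype.val h
      rw [AddSubmonoidClass.coe_finsetSum] at h'
      refine Eq.trans ?_ h'
      refine Finset.sum_congr rfl fun i _ => ?_
      rw [map_mul, hbr, hured i, rl_const_mul]
      rfl
  -- the uniformiser
  have hϖA : ϖ ∈ T.A := (T.A.valuation_le_one_iff ϖ).1 hϖ.le
  have hϖinv : ϖ⁻¹ ∉ T.A := by
    rw [← T.A.valuation_le_one_iff, map_inv₀, not_le]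
    exact (one_lt_inv₀ (zero_lt_iff.2 ((Valuation.ne_zero_iff _).2 hϖ0))).2 hϖ
  obtain ⟨ϖF, hϖF⟩ : ∃ ϖF : F, ϖF = algebraMap K F ϖ := ⟨_, rfl⟩
  rw [← hϖF] at scale
  have hϖF0 : ϖF ≠ 0 := by rw [hϖF]; exact (map_ne_zero _).2 hϖ0
  have hϖO : ϖF ∈ T.O := by rw [hϖF]; exact T.algebraMap_mem_O hϖA
  have hϖfx : Fx II ϖF := by rw [hϖF]; exact Fx.const hϖfix
  have L2 : ∀ t : T.O, Fx II (t : F) → T.red t = 0 → ∃ t' : T.O, (t : F) = ϖF * (t' : F) := by
    intro t htf htr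
    rcases eq_or_ne (t : F) 0 with h0 | h0
    · exact ⟨0, by simp [h0]⟩
    obtain ⟨n, hn, hnr⟩ := scale t htf h0
    rcases le_or_gt n 0 with hn0 | hn0
    · exfalso
      obtain ⟨j, rfl⟩ : ∃ j : ℕ, n = -(j : ℤ) := ⟨(-n).toNat, by omega⟩
      apply hnr
      have e : (⟨(t : F) * (ϖF ^ (-(j : ℤ)))⁻¹, hn⟩ : T.O) = t * ⟨ϖF, hϖO⟩ ^ j :=
        Subtype.ext (by simp [zpow_neg])
      rw [e, map_mul, htr, zero_mul]
    · obtain ⟨j, rfl⟩ : ∃ j : ℕ, n = (j : ℤ) + 1 := ⟨(n - 1).toNat, by omega⟩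
      refine ⟨⟨_, hn⟩ * ⟨ϖF, hϖO⟩ ^ j, ?_⟩
      show (t : F) = ϖF * ((t : F) * (ϖF ^ ((j : ℤ) + 1))⁻¹ * ϖF ^ j)
      rw [zpow_add_one₀ hϖF0, zpow_natCast]
      have : ϖF ^ j ≠ 0 := pow_ne_zero _ hϖF0
      field_simp
  by_contra hcon
  -- a fixed element outside `U`
  have hex : ∃ y, y ∈ V ∧ Fx II y ∧ y ∉ U := by
    by_contra hno
    push Not at hno
    have h1 : Submodule.span K {v | v ∈ V ∧ ∀ g ∈ II, g • v = v} ≤ U :=
      Submodule.span_le.2 fun v hv => hno v hv.1 hv.2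
    rw [hV] at h1
    have h2 : U = V := le_antisymm hUV h1
    exact hcon (h2 ▸ hA')
  obtain ⟨y, hyV, hyf, hyU⟩ := hex
  have hy0 : y ≠ 0 := fun h => hyU (h ▸ U.zero_mem)
  obtain ⟨n₀, hn₀, -⟩ := scale y hyf hy0
  obtain ⟨y₀, hy₀⟩ : ∃ y₀ : T.O, (y₀ : F) = y * (ϖF ^ n₀)⁻¹ := ⟨⟨_, hn₀⟩, rfl⟩
  have hy₀V : (y₀ : F) ∈ V := by
    have : (y₀ : F) = (ϖ ^ n₀)⁻¹ • y := by
      rw [hy₀, Algebra.smul_def, map_inv₀, map_zpow₀, mul_comm, hϖF]
    rw [this]
    exact V.smul_mem _ hyV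
  have hy₀f : Fx II (y₀ : F) := by rw [hy₀]; exact hyf.mul (hϖfx.zpow n₀).inv
  have hy₀U : (y₀ : F) ∉ U := by
    intro h
    apply hyU
    have : y = (ϖ ^ n₀) • (y₀ : F) := by
      have h0 : ϖF ^ n₀ ≠ 0 := zpow_ne_zero _ hϖF0
      rw [hy₀, Algebra.smul_def, map_zpow₀, ← hϖF]
      field_simp
    rw [this]
    exact U.smul_mem _ h
  -- an element of `U + K y₀` whose reduction is new
  let U' : Submodule K F := U ⊔ Submodule.span K {(y₀ : F)}
  have hlt : U < U' := lt_of_le_of_ne le_sup_left fun h =>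
    hy₀U (h ▸ Submodule.mem_sup_right (Submodule.mem_span_singleton_self _))
  have hU'V : U' ≤ V := sup_le hUV (by rw [Submodule.span_singleton_le_iff_mem]; exact hy₀V)
  have hU'fd : FiniteDimensional K U' := Submodule.finiteDimensional_of_le hU'V
  have hdim : Module.finrank K U < Module.finrank K U' := Submodule.finrank_lt_finrank_of_lt hlt
  have hon := on2 U' hU'fd
  have hex2 : ∃ x : T.O, (x : F) ∈ U' ∧ T.red x ∉ W₀ := by
    by_contra hno
    push Not at hno
    have hle' : T.redSub U' ≤ W₀ := by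
      rintro _ ⟨x, hx, rfl⟩
      exact hno x hx
    have := Submodule.finrank_mono hle'
    omega
  obtain ⟨x, hxU', hxW⟩ := hex2
  obtain ⟨xU, hxU, yy, hyy, hsum⟩ := Submodule.mem_sup.1 hxU'
  obtain ⟨c, rfl⟩ := Submodule.mem_span_singleton.1 hyy
  -- successive approximation of `y₀` by fixed elements of `U`
  have P : ∀ j : ℕ, ∃ (z : F) (t : T.O), z ∈ U ∧ Fx II z ∧ (y₀ : F) - z = ϖF ^ j * (t : F) := by
    intro j
    induction j with
    | zero => exact ⟨0, y₀, U.zero_mem, fun g _ => smul_zero g, by simp⟩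
    | succ j ih =>
      obtain ⟨z, t, hzU, hzf, hzt⟩ := ih
      have hj0 : ϖF ^ j ≠ 0 := pow_ne_zero _ hϖF0
      have htF : (t : F) = ((y₀ : F) - z) * (ϖF ^ j)⁻¹ := by
        rw [hzt]
        field_simp
      have htf : Fx II (t : F) := by
        rw [htF]
        exact (hy₀f.sub hzf).mul (hϖfx.pow j).inv
      have htV : (t : F) ∈ V := by
        have : (t : F) = (ϖ ^ j)⁻¹ • ((y₀ : F) - z) := by
          rw [htF, Algebra.smul_def, map_inv₀, map_pow, mul_comm, hϖF]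
        rw [this]
        exact V.smul_mem _ (V.sub_mem hy₀V (hUV hzU))
      obtain ⟨s, hsU, hsf, hsr⟩ := L3 (T.red t) ⟨t, htV, htf, rfl⟩
      obtain ⟨t', ht'⟩ := L2 (t - s) (htf.sub hsf) (by rw [map_sub, hsr, sub_self])
      refine ⟨z + ϖF ^ j * (s : F), t', U.add_mem hzU ?_, hzf.add ((hϖfx.pow j).mul hsf), ?_⟩
      · have : ϖF ^ j * (s : F) = (ϖ ^ j) • (s : F) := by rw [Algebra.smul_def, map_pow, hϖF]
        rw [this]
        exact U.smul_mem _ hsU
      · have h1 : (t : F) - (s : F) = ϖF * (t' : F) := ht'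
        rw [pow_succ]
        linear_combination hzt + ϖF ^ j * h1
  -- conclusion
  rcases eq_or_ne c 0 with rfl | hc0
  · apply hxW
    apply hA'
    refine ⟨x, ?_, rfl⟩
    rw [← hsum, zero_smul, add_zero]
    exact hxU
  obtain ⟨N, hN⟩ := arch ϖ c⁻¹ (inv_ne_zero hc0) hϖA hϖinv
  rw [inv_inv] at hN
  obtain ⟨z, t, hzU, hzf, hzt⟩ := P (N + 1)
  have he : T.A.valuation (ϖ * (ϖ ^ N * c)) < 1 := by
    rw [map_mul]
    exact mul_lt_one_of_lt_of_le hϖ ((T.A.valuation_le_one_iff _).2 hN)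
  have heA : ϖ * (ϖ ^ N * c) ∈ T.A := (T.A.valuation_le_one_iff _).1 he.le
  have her : T.red ⟨algebraMap K F (ϖ * (ϖ ^ N * c)), T.algebraMap_mem_O heA⟩ = 0 :=
    rl_red_const_zero he _
  obtain ⟨x', hx'⟩ : ∃ x' : T.O,
      x' = x - ⟨algebraMap K F (ϖ * (ϖ ^ N * c)), T.algebraMap_mem_O heA⟩ * t := ⟨_, rfl⟩
  have hx'U : (x' : F) ∈ U := by
    have : (x' : F) = xU + c • z := by
      rw [hx']
      show (x : F) - algebraMap K F (ϖ * (ϖ ^ N * c)) * (t : F) = _
      rw [← hsum, Algebra.smul_def, Algebra.smul_def, map_mul, map_mul, map_pow, ← hϖF]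
      linear_combination (algebraMap K F c) * hzt
    rw [this]
    exact U.add_mem hxU (U.smul_mem _ hzU)
  apply hxW
  have : T.red x = T.red x' := by rw [hx', map_sub, map_mul, her, zero_mul, sub_zero]
  rw [this]
  exact hA' ⟨x', hx'U, rfl⟩

end Fermat.Agent.SSP
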