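import Mathlib

/-!
# SSP / (U2) : second differences in a wildly ramified "not très ramifiée" extension

Pure valuation theory (board #1542 C, (U2)).  `Fl` a field with a valuation `v`, `τ` an automorphism
preserving `v`, `π ≠ 0` with `τ π = π (1 + δ)`, `1 + τ δ = (1 + δ) (1 + κ)`
(so `κ = τ²π · π / (τπ)² - 1`), `v δ < 1`, `v δ ^ 2 ≤ v κ < 1`, `κ ≠ 0`.
If `G = y π ^ n + ∑ i, c i * π ^ r i` with `τ`-fixed `y`, `c i` and a strictly dominant term `y π ^ n`, then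
`v (τ² G · G - (1 + n κ) (τ G)²) < v κ * v G ^ 2`, i.e. `u2 G = τ²G·G/(τG)² = 1 + n κ + o(κ)`.
-/

set_option autoImplicit false

namespace Fermat.Agent.SSP

variable {Fl Γ₀ : Type*} [Field Fl] [LinearOrderedCommGroupWithZero Γ₀] (v : Valuation Fl Γ₀)

lemma val_eq_one_of_sub_one_lt {x : Fl} (hx : v (x - 1) < 1) : v x = 1 := by
  have h : x = 1 + (x - 1) := by ring
  rw [h]
  exact Valuation.map_one_add_of_lt v hx

lemma val_mul_sub_one_le {d : Γ₀} (hd : d ≤ 1) {x y : Fl} (hx : v (x - 1) ≤ d)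
    (hy : v (y - 1) ≤ d) : v (x * y - 1) ≤ d := by
  have h : x * y - 1 = (x - 1) * (y - 1) + ((x - 1) + (y - 1)) := by ring
  rw [h]
  refine Valuation.map_add_le v ?_ (Valuation.map_add_le v hx hy)
  rw [map_mul]
  calc v (x - 1) * v (y - 1) ≤ d * 1 := mul_le_mul' hx (hy.trans hd)
    _ = d := mul_one d

lemma val_inv_sub_one_le {d : Γ₀} (hd : d < 1) {x : Fl} (hx : v (x - 1) ≤ d) :
    v (x⁻¹ - 1) ≤ d := by
  have h1 : v x = 1 := val_eq_one_of_sub_one_lt v (hx.trans_lt hd)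
  have hx0 : x ≠ 0 := by
    intro h
    rw [h, map_zero] at h1
    exact zero_ne_one h1
  have h : x⁻¹ - 1 = -(x - 1) * x⁻¹ := by field_simp; ring
  rw [h, map_mul, Valuation.map_neg, map_inv₀, h1, inv_one, mul_one]
  exact hx

lemma val_pow_sub_one_le {d : Γ₀} (hd : d ≤ 1) {x : Fl} (hx : v (x - 1) ≤ d) (n : ℕ) :
    v (x ^ n - 1) ≤ d := by
  induction n with
  | zero => simp
  | succ n ih =>
    rw [pow_succ]
    exact val_mul_sub_one_le v hd ih hx

lemma val_zpow_sub_one_le {d : Γ₀} (hd : d < 1) {x : Fl} (hx : v (x - 1) ≤ d) (n : ℤ) :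
    v (x ^ n - 1) ≤ d := by
  obtain ⟨m, rfl | rfl⟩ := n.eq_nat_or_neg
  · rw [zpow_natCast]
    exact val_pow_sub_one_le v hd.le hx m
  · rw [zpow_neg, zpow_natCast]
    exact val_inv_sub_one_le v hd (val_pow_sub_one_le v hd.le hx m)

lemma val_natCast_le_one (n : ℕ) : v (n : Fl) ≤ 1 := by
  induction n with
  | zero => simp
  | succ n ih =>
    rw [Nat.cast_succ]
    exact Valuation.map_add_le v ih (by simp)

lemma val_one_add_pow_sub_le {κ : Fl} (hκ : v κ ≤ 1) (n : ℕ) :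
    v ((1 + κ) ^ n - 1 - n * κ) ≤ v κ ^ 2 := by
  induction n with
  | zero => simp
  | succ n ih =>
    have h : (1 + κ) ^ (n + 1) - 1 - ((n + 1 : ℕ) : Fl) * κ =
        (1 + κ) * ((1 + κ) ^ n - 1 - n * κ) + n * κ ^ 2 := by
      push_cast; ring
    rw [h]
    refine Valuation.map_add_le v ?_ ?_
    · rw [map_mul]
      have h1 : v (1 + κ) ≤ 1 := Valuation.map_add_le v (by simp) hκ
      calc v (1 + κ) * v ((1 + κ) ^ n - 1 - n * κ) ≤ 1 * v κ ^ 2 := mul_le_mul' h1 ih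
        _ = v κ ^ 2 := one_mul _
    · rw [map_mul, map_pow]
      calc v (n : Fl) * v κ ^ 2 ≤ 1 * v κ ^ 2 := mul_le_mul' (val_natCast_le_one v n) le_rfl
        _ = v κ ^ 2 := one_mul _

/-- a family with pairwise distinct nonzero values has a strictly dominant term. -/
lemma exists_dominant {ι : Type*} (s : Finset ι) (a : ι → Fl) (hne : ∃ m ∈ s, a m ≠ 0)
    (hdist : ∀ m ∈ s, ∀ m' ∈ s, m ≠ m' → a m ≠ 0 → a m' ≠ 0 → v (a m) ≠ v (a m')) :
    ∃ n ∈ s, a n ≠ 0 ∧ ∀ m ∈ s, m ≠ n → v (a m) < v (a n) := by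
  obtain ⟨m₀, hm₀, ha₀⟩ := hne
  obtain ⟨n, hn, hmax⟩ := Finset.exists_max_image s (fun m => v (a m)) ⟨m₀, hm₀⟩
  have hn0 : a n ≠ 0 := by
    intro h
    have h1 := hmax m₀ hm₀
    simp only [h, map_zero, le_zero_iff, map_eq_zero] at h1
    exact ha₀ h1
  refine ⟨n, hn, hn0, fun m hm hmn => ?_⟩
  by_cases hm0 : a m = 0
  · rw [hm0, map_zero]
    exact zero_lt_iff.mpr ((Valuation.ne_zero_iff v).mpr hn0)
  · exact lt_of_le_of_ne (hmax m hm) (hdist m hm n hn hmn hm0 hn0)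

section Main

variable (τ : Fl ≃+* Fl) (hτ : ∀ x, v (τ x) = v x) {π δ κ : Fl} (hπ : π ≠ 0)
  (hδ : τ π = π * (1 + δ)) (hκ : 1 + τ δ = (1 + δ) * (1 + κ)) (hδ1 : v δ < 1)
  (hκδ : v δ ^ 2 ≤ v κ) (hκ1 : v κ < 1)

include hδ in
lemma tau_monomial {c : Fl} (hc : τ c = c) (r : ℤ) :
    τ (c * π ^ r) = c * π ^ r * (1 + δ) ^ r := by
  rw [map_mul, hc, map_zpow₀, hδ, mul_zpow]
  ring

include hδ hκ in
lemma tau_tau_monomial {c : Fl} (hc : τ c = c) (r : ℤ) :
    τ (τ (c * π ^ r)) = c * π ^ r * ((1 + δ) ^ r * ((1 + δ) ^ r * (1 + κ) ^ r)) := by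
  rw [tau_monomial τ hδ hc, map_mul, tau_monomial τ hδ hc, map_zpow₀, map_add, map_one, hκ, mul_zpow]
  ring

include hδ hδ1 in
/-- first difference of a monomial -/
lemma val_diff_monomial_le {c : Fl} (hc : τ c = c) (r : ℤ) :
    v (τ (c * π ^ r) - c * π ^ r) ≤ v (c * π ^ r) * v δ := by
  rw [tau_monomial τ hδ hc]
  have h : c * π ^ r * (1 + δ) ^ r - c * π ^ r = c * π ^ r * ((1 + δ) ^ r - 1) := by ring
  rw [h, map_mul]
  refine mul_le_mul' le_rfl ?_
  exact val_zpow_sub_one_le v hδ1 (by simp) r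

include hδ hκ hδ1 hκδ hκ1 in
/-- second difference of a monomial -/
lemma val_diff2_monomial_le {c : Fl} (hc : τ c = c) (r : ℤ) :
    v (τ (τ (c * π ^ r)) - 2 * τ (c * π ^ r) + c * π ^ r) ≤ v (c * π ^ r) * v κ := by
  rw [tau_tau_monomial τ hδ hκ hc, tau_monomial τ hδ hc]
  have h : c * π ^ r * ((1 + δ) ^ r * ((1 + δ) ^ r * (1 + κ) ^ r)) - 2 * (c * π ^ r * (1 + δ) ^ r)
      + c * π ^ r = c * π ^ r * (((1 + δ) ^ r - 1) ^ 2
        + (1 + δ) ^ r * (1 + δ) ^ r * ((1 + κ) ^ r - 1)) := by ring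
  rw [h, map_mul]
  refine mul_le_mul' le_rfl ?_
  have hX : v ((1 + δ) ^ r - 1) ≤ v δ := val_zpow_sub_one_le v hδ1 (by simp) r
  have hX1 : v ((1 + δ) ^ r) = 1 := val_eq_one_of_sub_one_lt v (hX.trans_lt hδ1)
  have hK : v ((1 + κ) ^ r - 1) ≤ v κ := val_zpow_sub_one_le v hκ1 (by simp) r
  refine Valuation.map_add_le v ?_ ?_
  · rw [map_pow]
    exact (pow_le_pow_left₀ zero_le hX 2).trans hκδ
  · rw [map_mul, map_mul, hX1, one_mul, one_mul]
    exact hK

include hτ hπ hδ hκ hδ1 hκδ hκ1 in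
/-- **(U2)** -/
theorem u2_estimate (hκ0 : κ ≠ 0) {ι : Type*} (s : Finset ι) (c : ι → Fl) (hc : ∀ i ∈ s, τ (c i) = c i)
    (r : ι → ℤ) (n : ℕ) {y : Fl} (hy : τ y = y) (hy0 : y ≠ 0)
    (hsmall : ∀ i ∈ s, v (c i * π ^ r i) < v (y * π ^ n)) {G : Fl}
    (hG : G = y * π ^ n + ∑ i ∈ s, c i * π ^ r i) :
    v (τ (τ G) * G - (1 + n * κ) * τ G ^ 2) < v κ * v G ^ 2 := by
  classical
  set a : Fl := y * π ^ n with ha
  have ha0 : a ≠ 0 := mul_ne_zero hy0 (pow_ne_zero _ hπ)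
  have hva0 : v a ≠ 0 := (Valuation.ne_zero_iff v).mpr ha0
  have hvκ0 : v κ ≠ 0 := (Valuation.ne_zero_iff v).mpr hκ0
  -- the relative error
  set e : ι → Fl := fun i => (c i * y⁻¹) * π ^ (r i - n) with he
  have hey : τ y⁻¹ = y⁻¹ := by rw [map_inv₀, hy]
  have hec : ∀ i ∈ s, τ (c i * y⁻¹) = c i * y⁻¹ := fun i hi => by rw [map_mul, hc i hi, hey]
  have hea : ∀ i, e i * a = c i * π ^ r i := by
    intro i
    simp only [he, ha]
    rw [zpow_sub₀ hπ, zpow_natCast]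
    field_simp
  have hve : ∀ i ∈ s, v (e i) < 1 := by
    intro i hi
    have h1 := hsmall i hi
    rw [← hea i, map_mul] at h1
    by_contra h2
    exact absurd (le_mul_of_one_le_left' (not_lt.mp h2)) (not_le.mpr h1)
  set ε : Fl := ∑ i ∈ s, e i with hε
  have hvε : v ε < 1 := Valuation.map_sum_lt v one_ne_zero hve
  have hGa : G = a * (1 + ε) := by
    rw [hG, hε, mul_add, mul_one, Finset.mul_sum]
    congr 1
    exact Finset.sum_congr rfl (fun i _ => by rw [← hea i, mul_comm])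
  -- differences of `ε`
  have hd1 : v (τ ε - ε) ^ 2 < v κ := by
    by_cases hδ0 : δ = 0
    · have : τ ε - ε = 0 := by
        rw [hε, map_sum, ← Finset.sum_sub_distrib]
        refine Finset.sum_eq_zero (fun i hi => ?_)
        simp only [he]
        rw [tau_monomial τ hδ (hec i hi), hδ0]
        simp
      rw [this, map_zero]
      simpa using zero_lt_iff.mpr hvκ0
    · have hvδ0 : v δ ≠ 0 := (Valuation.ne_zero_iff v).mpr hδ0
      have h1 : v (τ ε - ε) < v δ := by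
        rw [hε, map_sum, ← Finset.sum_sub_distrib]
        refine Valuation.map_sum_lt v hvδ0 (fun i hi => ?_)
        refine (val_diff_monomial_le v τ hδ hδ1 (hec i hi) (r i - n)).trans_lt ?_
        calc v (e i) * v δ < 1 * v δ :=
              mul_lt_mul_of_pos_right (hve i hi) (zero_lt_iff.mpr hvδ0)
          _ = v δ := one_mul _
      exact (pow_lt_pow_left₀ h1 zero_le two_ne_zero).trans_le hκδ
  have hd2 : v (τ (τ ε) - 2 * τ ε + ε) < v κ := by
    have h0 : τ (τ ε) - 2 * τ ε + ε = ∑ i ∈ s, (τ (τ (e i)) - 2 * τ (e i) + e i) := by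
      rw [hε, map_sum, map_sum, Finset.sum_add_distrib, Finset.sum_sub_distrib, Finset.mul_sum]
    rw [h0]
    refine Valuation.map_sum_lt v hvκ0 (fun i hi => ?_)
    refine (val_diff2_monomial_le v τ hδ hκ hδ1 hκδ hκ1 (hec i hi) (r i - n)).trans_lt ?_
    calc v (e i) * v κ < 1 * v κ :=
          mul_lt_mul_of_pos_right (hve i hi) (zero_lt_iff.mpr hvκ0)
      _ = v κ := one_mul _
  -- the dominant term
  have hτa : τ a = a * (1 + δ) ^ n := by
    have := tau_monomial τ hδ hy (n : ℤ)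
    simpa only [zpow_natCast] using this
  have hττa : τ (τ a) = a * ((1 + δ) ^ n * ((1 + δ) ^ n * (1 + κ) ^ n)) := by
    have := tau_tau_monomial τ hδ hκ hy (n : ℤ)
    simpa only [zpow_natCast] using this
  have hkey : τ (τ G) * G - (1 + n * κ) * τ G ^ 2 =
      (τ a) ^ 2 * (((1 + κ) ^ n - 1 - n * κ) * ((1 + τ (τ ε)) * (1 + ε))
        + (1 + n * κ) * ((1 + ε) * (τ (τ ε) - 2 * τ ε + ε) - (τ ε - ε) ^ 2)) := by
    rw [hGa]
    simp only [map_mul, map_add, map_one]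
    rw [hττa, hτa]
    ring
  have hvG : v G = v a := by
    rw [hGa, map_mul, Valuation.map_one_add_of_lt v hvε, mul_one]
  rw [hkey, map_mul, map_pow, hτ, hvG, mul_comm]
  refine mul_lt_mul_of_pos_right ?_ (zero_lt_iff.mpr (pow_ne_zero _ hva0))
  have h1ε : v (1 + ε) = 1 := Valuation.map_one_add_of_lt v hvε
  have h1ττε : v (1 + τ (τ ε)) = 1 := Valuation.map_one_add_of_lt v (by rw [hτ, hτ]; exact hvε)
  have hnκ : v (1 + (n : Fl) * κ) ≤ 1 := by
    refine Valuation.map_add_le v (by simp) ?_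
    rw [map_mul]
    calc v (n : Fl) * v κ ≤ 1 * 1 := mul_le_mul' (val_natCast_le_one v n) hκ1.le
      _ = 1 := one_mul _
  refine Valuation.map_add_lt v ?_ ?_
  · rw [map_mul, map_mul, h1ε, h1ττε, mul_one, mul_one]
    refine (val_one_add_pow_sub_le v hκ1.le n).trans_lt ?_
    rw [pow_two]
    calc v κ * v κ < 1 * v κ := mul_lt_mul_of_pos_right hκ1 (zero_lt_iff.mpr hvκ0)
      _ = v κ := one_mul _
  · rw [map_mul]
    refine lt_of_le_of_lt (mul_le_mul' hnκ le_rfl) ?_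
    rw [one_mul]
    refine Valuation.map_sub_lt v ?_ ?_
    · rw [map_mul, h1ε, one_mul]
      exact hd2
    · rw [map_pow]
      exact hd1

end Main

end Fermat.Agent.SSP
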