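import Fermat.Agent.SSP.Basic

/-!
# SSP : the datum of the FIRST DIFFERENCE method (board helper45 #1316 (6), helper26 #1514 (b),
helper10 #1705)

`τ` an "inertia" automorphism, `Rat = F'` the field of the `H'`-invariant functions
(`H' = Stab_I(x)`, NOT normal in `I`), `z0 ∈ K' = K^{H'}` with `z0 ^ p ∼ p`,
`μ = τ z0 - z0`, `η = μ / z0`.  The scale of the method is `c⋆ = η ^ p`.
-/

set_option autoImplicit false

open AlgebraicCurve

namespace Fermat.Agent.SSP

open Fermat.Agent.RED Fermat.Agent.S24 Fermat.Agent.SS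

noncomputable section

variable {K F k Fb : Type*} [Field K] [Field F] [Algebra K F] [Field k] [Field Fb] [Algebra k Fb]

/-- The part of the datum which concerns ONE valuation ring `O` of `F`. -/
structure WildAt (O : ValuationSubring F) (τ : SemilinearAut K F) (p : ℕ) (Rat : Subfield F)
    (z0 μ η : K) : Prop where
  val_τ : ∀ f : F, O.valuation (τ • f) = O.valuation f
  z0_lt : O.valuation (algebraMap K F z0) < 1
  /-- `z0 ^ p ∼ p` -/
  z0_pow : O.valuation (algebraMap K F (z0 ^ p * (p : K)⁻¹)) = 1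
  η_lt : O.valuation (algebraMap K F η) < 1
  /-- `μ / η ^ p` is integral -/
  μ_le : O.valuation (algebraMap K F (μ * (η ^ p)⁻¹)) ≤ 1
  /-- `p / η ^ (p - 1)` is in the maximal ideal -/
  p_lt : O.valuation (algebraMap K F ((p : K) * (η ^ (p - 1))⁻¹)) < 1
  /-- (h1) -/
  diff : ∀ u ∈ Rat, u ∈ O → (τ • u - u) * (algebraMap K F μ)⁻¹ ∈ O
  /-- (h2) -/
  scale : ∀ u ∈ Rat, u ≠ 0 → ∃ n : ℤ, O.valuation (u * (algebraMap K F z0 ^ n)⁻¹) = 1

/-- The datum of the first difference method. -/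
structure Wild (T : TwoRed K F k Fb) (τ : SemilinearAut K F) (p : ℕ) where
  Rat : Subfield F
  z0 : K
  μ : K
  η : K
  z0_ne : z0 ≠ 0
  μ_ne : μ ≠ 0
  p_ne : (p : K) ≠ 0
  τ_z0 : SemilinearAut.baseAut τ z0 = z0 + μ
  η_mul : η * z0 = μ
  z0_rat : algebraMap K F z0 ∈ Rat
  at₁ : WildAt T.R₁.O τ p Rat z0 μ η
  at₂ : WildAt T.R₂.O τ p Rat z0 μ η

/-- The function `s` ("annulus coordinate") : `(v₁, v₂)(s) = (0, v(p))`, no zero or pole at the
places reducing to a node, `red₁ s` has a simple zero at the first branch of every node. -/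
structure SlopeFn {T : TwoRed K F k Fb} {𝒩 : NodalData T} (𝒢 : Geo 𝒩) (p : ℕ) (s : F) : Prop where
  val₁ : T.R₁.O.valuation s = 1
  val₂ : T.R₂.O.valuation (s * (p : F)⁻¹) = 1
  near : ∀ e P, 𝒢.Near e P → P.ord s = 0
  ord₁ : ∀ e, (𝒩.x₁ e).ord (rd₁ T s) = 1

end

end Fermat.Agent.SSP
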